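import Fermat.Agent.Corollaries.Unif.Iso
import Fermat.Agent.X1.HauptTwo
import Fermat.Agent.X1.HauptThree

/-!
# Singular moduli

The values of the modular invariant at the points of discriminant `-3, -4, -7, -8, -11, -12, -16, -27, -28`.
-/

set_option autoImplicit false

noncomputable section

open UpperHalfPlane hiding I
open ModularForm MatrixGroups Filter Topology CongruenceSubgroup
open scoped PeriodPair Manifold

namespace Fermat.Agent.Cor.Unif

open Fermat.Agent.JLevelOne Fermat.Agent.Cor.Tau Fermat.Agent.X0Emb Fermat.Agent.ModFun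
open ModularCurve Fermat.Agent.FG Fermat.Agent.EisChar Fermat.Agent.X0Deg Fermat.Agent.MazurCusp
open Fermat.Agent.S28aux Fermat.Agent.TEll Fermat.Agent.Moduli Fermat.Agent.X1.Haupt

/-- the point `n τ` -/
theorem coe_mul_pt (n : ℕ) [NeZero n] (τ : ℍ) : ((aff n 0 1 τ : ℍ) : ℂ) = n * τ := by
  rw [coe_aff]; push_cast; ring

/-- the point `τ / n` -/
theorem coe_div_pt (n : ℕ) [NeZero n] (τ : ℍ) : ((aff 1 0 n τ : ℍ) : ℂ) = τ / n := by
  rw [coe_aff]; push_cast; ring

theorem mul_div_pt (n : ℕ) [NeZero n] (τ : ℍ) : aff n 0 1 (aff 1 0 n τ) = τ := by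
  ext1
  rw [coe_mul_pt, coe_div_pt]
  have : (n : ℂ) ≠ 0 := Nat.cast_ne_zero.mpr (NeZero.ne n)
  field_simp

open Fermat.Agent.X1.HauptTwo in
/-- **the relation between `j(τ)` and `j(2τ)`** -/
theorem relation_two : ∃ u : ℍ → ℂ, (∀ τ, u τ ≠ 0) ∧
    (∀ τ, u (ModularGroup.S • aff 2 0 1 τ) * u τ = 4096) ∧
    (∀ τ, jinv τ * u τ ^ 2 = (u τ + 256) ^ 3) ∧
    ∀ τ, jinv (aff 2 0 1 τ) * u τ = (u τ + 16) ^ 3 := by
  have hW : ∀ τ, uFun 2 (ModularGroup.S • aff 2 0 1 τ) * uFun 2 τ = 4096 := fun τ => by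
    rw [uFun_W, gFun_eq, mul_assoc, inv_mul_cancel₀ (uFun_ne τ), mul_one]
  have h1 : ∀ τ, jinv τ * uFun 2 τ ^ 2 = (uFun 2 τ + 256) ^ 3 := fun τ => by
    have h := DF_eq τ
    rw [DF_zero, zero_mul] at h
    rw [jinv_eq_jFun]
    linear_combination h
  refine ⟨uFun 2, uFun_ne, hW, h1, fun τ => ?_⟩
  have h2 := h1 (ModularGroup.S • aff 2 0 1 τ)
  rw [jinv_smul] at h2
  have h3 := hW τ
  have h4 := uFun_ne τ
  set v := uFun 2 (ModularGroup.S • aff 2 0 1 τ)
  set u := uFun 2 τ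
  have h5 : (jinv (aff 2 0 1 τ) * v ^ 2) * u ^ 3 = (v * u + 256 * u) ^ 3 := by rw [h2]; ring
  have h6 : (jinv (aff 2 0 1 τ) * v ^ 2) * u ^ 3 = jinv (aff 2 0 1 τ) * (v * u) ^ 2 * u := by ring
  rw [h6, h3] at h5
  linear_combination h5 / 16777216

/-- **the relation between `j(τ)` and `j(3τ)`** -/
theorem relation_three' : ∃ u : ℍ → ℂ, (∀ τ, u τ ≠ 0) ∧
    (∀ τ, u (ModularGroup.S • aff 3 0 1 τ) * u τ = 729) ∧
    (∀ τ, jinv τ * u τ ^ 3 = (u τ + 27) * (u τ + 243) ^ 3) ∧
    ∀ τ, jinv (aff 3 0 1 τ) * u τ = (u τ + 27) * (u τ + 3) ^ 3 := by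
  obtain ⟨u, hW, h1⟩ : ∃ u : ℍ → ℂ, (∀ τ, u (ModularGroup.S • aff 3 0 1 τ) * u τ = 729) ∧
      ∀ τ, (u τ + 27) * (u τ + 243) ^ 3 = jFun τ * u τ ^ 3 := by
    have hp : Fact (Nat.Prime 3) := ⟨Nat.prime_three⟩
    obtain ⟨y, hy⟩ := exists_lexp (h := 1) fE_mdiff (fun τ => by
      rw [Nat.cast_one, ← UpperHalfPlane.modular_T_smul, fE_T]) fE_growth.growthInf
    rw [Nat.cast_one] at hy
    have h1 : y ^ 2 = x3 ^ 2 := by
      have h := hy.pow 2
      have h2 : fE ^ 2 = uFun 3 := funext fE_sq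
      rw [h2] at h
      rw [x3_sq]
      exact h.unique one_pos (lexp_uFun 3)
    obtain ⟨s, hs, hsy⟩ : ∃ s : ℂ, s ^ 2 = 1 ∧ LExp 1 (fun τ => s * fE τ) x3 := by
      rcases sq_eq_sq_iff_eq_or_eq_neg.mp h1 with h | h
      · exact ⟨1, one_pow 2, by simpa [h] using hy⟩
      · refine ⟨-1, by norm_num, ?_⟩
        have h3 := hy.neg
        rw [h, neg_neg] at h3
        refine (congrArg (fun F => LExp 1 F x3) ?_).mp h3
        funext τ
        simp
    have hmd : MDiff (fun τ => s * fE τ) := mdifferentiable_const.mul fE_mdiff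
    have hinv : ∀ γ ∈ Gamma0 3, ∀ τ : ℍ, (fun τ => s * fE τ) (γ • τ) = (fun τ => s * fE τ) τ :=
      fun γ hγ τ => by simp only [fE_inv γ hγ τ]
    have hW : ∀ τ, s * fE (ModularGroup.S • aff 3 0 1 τ) * (s * fE τ) = 729 := fun τ => by
      linear_combination s ^ 2 * fE_W τ + 729 * hs
    exact ⟨fun τ => s * fE τ, hW, relation_three hmd hinv hsy hW
      ((ModGrowth.const s).mul fE_growth)⟩
  have hne : ∀ τ, u τ ≠ 0 := fun τ h0 => by
    have := hW τ
    rw [h0, mul_zero] at this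
    norm_num at this
  have h1' : ∀ τ, jinv τ * u τ ^ 3 = (u τ + 27) * (u τ + 243) ^ 3 := fun τ => (h1 τ).symm
  refine ⟨u, hne, hW, h1', fun τ => ?_⟩
  have h2 := h1' (ModularGroup.S • aff 3 0 1 τ)
  rw [jinv_smul] at h2
  have h3 := hW τ
  set v := u (ModularGroup.S • aff 3 0 1 τ)
  set w := u τ
  have h5 : (jinv (aff 3 0 1 τ) * v ^ 3) * w ^ 4 = (v * w + 27 * w) * (v * w + 243 * w) ^ 3 := by
    rw [h2]; ring
  have h6 : (jinv (aff 3 0 1 τ) * v ^ 3) * w ^ 4 = jinv (aff 3 0 1 τ) * (v * w) ^ 3 * w := by ring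
  rw [h6, h3] at h5
  linear_combination h5 / 387420489

/-- the coordinates of a point satisfying a quadratic equation -/
theorem coords {τ : ℍ} {a b : ℤ} (h : (τ : ℂ) ^ 2 - b * τ + a = 0) :
    2 * τ.re = b ∧ Complex.normSq τ = a ∧ 4 * τ.im ^ 2 = 4 * a - b ^ 2 := by
  have h1 := congrArg Complex.im h
  have h2 := congrArg Complex.re h
  simp only [pow_two, Complex.add_im, Complex.sub_im, Complex.mul_im, Complex.add_re,
    Complex.sub_re, Complex.mul_re, Complex.intCast_re, Complex.intCast_im, Complex.zero_im,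
    Complex.zero_re, zero_mul, add_zero, sub_zero, UpperHalfPlane.coe_re,
    UpperHalfPlane.coe_im] at h1 h2
  have h3 : 2 * τ.re = b := by
    have h4 : τ.im * (2 * τ.re - b) = 0 := by linear_combination h1
    rcases mul_eq_zero.mp h4 with h5 | h5
    · exact absurd h5 τ.im_pos.ne'
    · linear_combination h5
  refine ⟨h3, ?_, ?_⟩
  · rw [Complex.normSq_apply]
    simp only [UpperHalfPlane.coe_re, UpperHalfPlane.coe_im]
    linear_combination -h2 + τ.re * h3
  · linear_combination -4 * h2 + (2 * τ.re - b) * h3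

/-- two quadratic points with different invariants -/
theorem jinv_ne {τ τ' : ℍ} {a b a' b' : ℤ} (h : (τ : ℂ) ^ 2 - b * τ + a = 0)
    (h' : (τ' : ℂ) ^ 2 - b' * τ' + a' = 0) (hlt : 4 * a - b ^ 2 < 4 * (4 * a' - b' ^ 2))
    (hne : 4 * a - b ^ 2 ≠ 4 * a' - b' ^ 2) : jinv τ ≠ jinv τ' := by
  intro hj
  obtain ⟨γ, hγ⟩ := jinv_eq_iff.mp hj
  obtain ⟨r1, n1, i1⟩ := coords h
  obtain ⟨-, -, i2⟩ := coords h'
  have h1 := ModularGroup.im_smul_eq_div_normSq γ τ
  rw [hγ] at h1
  set c := γ 1 0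
  set d := γ 1 1
  have h2 : Complex.normSq (UpperHalfPlane.denom (γ : GL (Fin 2) ℝ) (τ : ℂ)) =
      ((c ^ 2 * a + c * d * b + d ^ 2 : ℤ) : ℝ) := by
    have h3 : UpperHalfPlane.denom (γ : GL (Fin 2) ℝ) (τ : ℂ) = c * τ + d := by
      simp [UpperHalfPlane.denom, c, d]
    rw [Complex.normSq_apply] at n1
    simp only [UpperHalfPlane.coe_re, UpperHalfPlane.coe_im] at n1
    rw [h3, Complex.normSq_apply]
    simp only [Complex.add_re, Complex.mul_re, Complex.intCast_re, Complex.intCast_im,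
      Complex.add_im, Complex.mul_im, zero_mul, sub_zero, add_zero, UpperHalfPlane.coe_re,
      UpperHalfPlane.coe_im]
    push_cast
    linear_combination (c : ℝ) ^ 2 * n1 + c * d * r1
  set N := c ^ 2 * a + c * d * b + d ^ 2
  have hpos := UpperHalfPlane.normSq_denom_pos (γ : GL (Fin 2) ℝ) τ.im_ne_zero
  rw [h2] at h1
  have hpos' : (0 : ℝ) < (N : ℤ) := by
    have h4 := hpos
    rwa [h2] at h4
  have hN : 0 < N := by exact_mod_cast hpos'
  have h5 : τ.im = τ'.im * N := by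
    rw [h1]; field_simp
  have h6 : (4 * a - b ^ 2 : ℝ) = (4 * a' - b' ^ 2) * N ^ 2 := by
    rw [← i1, ← i2, h5]; ring
  have h7 : 4 * a - b ^ 2 = (4 * a' - b' ^ 2) * N ^ 2 := by exact_mod_cast h6
  have h8 : 0 < 4 * a' - b' ^ 2 := by
    have : (0 : ℝ) < 4 * a' - b' ^ 2 := by
      rw [← i2]
      have := τ'.im_pos
      positivity
    exact_mod_cast this
  have h9 : N = 1 := by
    by_contra hne1
    have h10 : 2 ≤ N := by omega
    have h11 : 4 ≤ N ^ 2 := by nlinarith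
    nlinarith [mul_le_mul_of_nonneg_left h11 h8.le]
  rw [h9] at h7
  apply hne
  rw [h7]; ring

theorem jinv_S (τ : ℍ) : jinv (ModularGroup.S • τ) = jinv τ := jinv_smul _ τ

theorem coe_S (τ : ℍ) : ((ModularGroup.S • τ : ℍ) : ℂ) = -1 / τ := by
  rw [modular_S_smul, UpperHalfPlane.coe_mk, inv_neg, neg_div, one_div]

theorem coe_T (τ : ℍ) : ((ModularGroup.T • τ : ℍ) : ℂ) = 1 + τ := by
  rw [modular_T_smul]
  simp

/-- `j(i) = 1728` in the form: `τ² + 1 = 0` -/
theorem jinv_four {τ : ℍ} (h : (τ : ℂ) ^ 2 + 1 = 0) : jinv τ = 1728 := by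
  have h1 : τ = UpperHalfPlane.I := by
    ext1
    have h2 : ((τ : ℂ) - Complex.I) * (τ + Complex.I) = 0 := by
      linear_combination h - Complex.I_sq
    rcases mul_eq_zero.mp h2 with h3 | h3
    · exact sub_eq_zero.mp h3
    · exfalso
      have h4 := congrArg Complex.im h3
      have h5 := τ.im_pos
      simp at h4
      linarith
  rw [h1, jinv_I]

theorem I_quad : ((UpperHalfPlane.I : ℍ) : ℂ) ^ 2 - ((0 : ℤ) : ℂ) * (UpperHalfPlane.I : ℍ) +
    ((1 : ℤ) : ℂ) = 0 := by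
  rw [UpperHalfPlane.coe_I, Complex.I_sq]; push_cast; ring

/-- a number which is not of the form `j(τ₀)` -/
theorem ne_1728 {τ : ℍ} {a b : ℤ} (h : (τ : ℂ) ^ 2 - b * τ + a = 0) (h4 : 4 < 4 * a - b ^ 2) :
    jinv τ ≠ 1728 := by
  rw [← jinv_I]
  exact (jinv_ne I_quad h (by linarith) (by linarith)).symm

/-- **`j(i √2) = 8000`** (discriminant `-8`) -/
theorem jinv_eight {τ : ℍ} (h : (τ : ℂ) ^ 2 + 2 = 0) : jinv τ = 8000 := by
  obtain ⟨u, hu, hW, h1, h2⟩ := relation_two
  have hτ := τ.ne_zero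
  have e : ModularGroup.S • aff 2 0 1 (aff 1 0 2 τ) = aff 1 0 2 τ := by
    rw [mul_div_pt]
    ext1
    rw [coe_S, coe_div_pt]
    push_cast
    field_simp
    linear_combination -h
  have h3 := hW (aff 1 0 2 τ)
  rw [e] at h3
  have h4 := h2 (aff 1 0 2 τ)
  rw [mul_div_pt] at h4
  set w := u (aff 1 0 2 τ)
  have h5 : (w - 64) * (w + 64) = 0 := by linear_combination h3
  rcases mul_eq_zero.mp h5 with h6 | h6
  · have h7 : w = 64 := sub_eq_zero.mp h6
    rw [h7] at h4
    linear_combination h4 / 64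
  · have h7 : w = -64 := by linear_combination h6
    rw [h7] at h4
    exact absurd (by linear_combination h4 / (-64)) (ne_1728 (τ := τ) (a := 2) (b := 0)
      (by push_cast; linear_combination h) (by norm_num))

/-- **`j((1 + √-7)/2) = -3375`** (discriminant `-7`) -/
theorem jinv_seven {τ : ℍ} (h : (τ : ℂ) ^ 2 - τ + 2 = 0) : jinv τ = -3375 := by
  obtain ⟨u, hu, hW, h1, h2⟩ := relation_two
  have hτ := τ.ne_zero
  have e : ModularGroup.T • ModularGroup.S • aff 1 0 2 τ = τ := by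
    ext1
    rw [coe_T, coe_S, coe_div_pt]
    push_cast
    field_simp
    linear_combination -h
  have hj : jinv (aff 1 0 2 τ) = jinv τ := by
    rw [← jinv_smul ModularGroup.S, ← jinv_smul ModularGroup.T, e]
  have h3 := h1 (aff 1 0 2 τ)
  have h4 := h2 (aff 1 0 2 τ)
  rw [mul_div_pt] at h4
  rw [hj] at h3
  have hw := hu (aff 1 0 2 τ)
  set w := u (aff 1 0 2 τ)
  have h5 : (w - 64) * ((w + 64) * (w ^ 2 + 47 * w + 4096)) = 0 := by
    have h6 : w * ((w - 64) * ((w + 64) * (w ^ 2 + 47 * w + 4096))) = 0 := by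
      linear_combination w * h3 - w ^ 2 * h4
    exact (mul_eq_zero.mp h6).resolve_left hw
  have hq : (τ : ℂ) ^ 2 - ((1 : ℤ) : ℂ) * τ + ((2 : ℤ) : ℂ) = 0 := by
    push_cast; linear_combination h
  rcases mul_eq_zero.mp h5 with h6 | h6
  · exfalso
    have h7 : w = 64 := sub_eq_zero.mp h6
    rw [h7] at h4
    let σ : ℍ := ⟨Real.sqrt 2 * Complex.I, by simp⟩
    have hσ : (σ : ℂ) ^ 2 + 2 = 0 := by
      change ((Real.sqrt 2 : ℂ) * Complex.I) ^ 2 + 2 = 0
      rw [mul_pow, Complex.I_sq, ← Complex.ofReal_pow, Real.sq_sqrt (by norm_num)]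
      push_cast; ring
    refine jinv_ne (τ := σ) (τ' := τ) (a := 2) (b := 0) (by push_cast; linear_combination hσ) hq
      (by norm_num) (by norm_num) ?_
    rw [jinv_eight hσ]
    linear_combination -h4 / 64
  · rcases mul_eq_zero.mp h6 with h7 | h7
    · exfalso
      have h8 : w = -64 := by linear_combination h7
      rw [h8] at h4
      exact ne_1728 hq (by norm_num) (by linear_combination h4 / (-64))
    · have h8 : w * (jinv τ + 3375) = 0 := by linear_combination h4 + (w + 1) * h7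
      exact eq_neg_of_add_eq_zero_left ((mul_eq_zero.mp h8).resolve_left hw)

/-- **`j(√-3) = 54000`** (discriminant `-12`) -/
theorem jinv_twelve {τ : ℍ} (h : (τ : ℂ) ^ 2 + 3 = 0) : jinv τ = 54000 := by
  obtain ⟨u, hu, hW, h1, h2⟩ := relation_two
  set σ : ℍ := aff 1 1 2 τ with hσ
  have hσ' : (σ : ℂ) = (τ + 1) / 2 := by rw [hσ, coe_aff]; push_cast; ring
  have hT : ModularGroup.T • τ = aff 2 0 1 σ := by
    ext1
    rw [coe_T, coe_mul_pt, hσ']
    push_cast
    ring
  have hj : jinv σ = 0 := by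
    have h4 : ((ModularGroup.S • σ : ℍ) : ℂ) ^ 2 + (ModularGroup.S • σ : ℍ) + 1 = 0 := by
      rw [coe_S]
      have h5 := σ.ne_zero
      field_simp
      rw [hσ']
      linear_combination h / 4
    rw [← jinv_S, jinv_rho h4]
  have h3 := h1 σ
  have h4 := h2 σ
  rw [← hT, jinv_smul] at h4
  rw [hj, zero_mul] at h3
  have h5 : u σ = -256 := by
    have h6 : u σ + 256 = 0 := pow_eq_zero_iff (three_ne_zero) |>.mp h3.symm
    linear_combination h6
  rw [h5] at h4
  linear_combination h4 / (-256)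

/-- **`j(2i) = 287496 = 66³`** (discriminant `-16`) -/
theorem jinv_sixteen {τ : ℍ} (h : (τ : ℂ) ^ 2 + 4 = 0) : jinv τ = 287496 := by
  obtain ⟨u, hu, hW, h1, h2⟩ := relation_two
  have h0 : jinv (aff 1 0 2 τ) = 1728 := jinv_four (by
    rw [coe_div_pt]
    push_cast
    linear_combination h / 4)
  have h3 := h1 (aff 1 0 2 τ)
  have h4 := h2 (aff 1 0 2 τ)
  rw [mul_div_pt] at h4
  rw [h0] at h3
  have hw := hu (aff 1 0 2 τ)
  set w := u (aff 1 0 2 τ)
  have h5 : (w + 64) * ((w - 512) * (w - 512)) = 0 := by linear_combination -h3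
  rcases mul_eq_zero.mp h5 with h6 | h6
  · have h7 : w = -64 := by linear_combination h6
    rw [h7] at h4
    exact absurd (by linear_combination h4 / (-64)) (ne_1728 (τ := τ) (a := 4) (b := 0)
      (by push_cast; linear_combination h) (by norm_num))
  · have h7 : w = 512 := sub_eq_zero.mp (mul_self_eq_zero.mp h6)
    rw [h7] at h4
    linear_combination h4 / 512

/-- **`j(√-7) = 16581375 = 255³`** (discriminant `-28`) -/
theorem jinv_twentyeight {τ : ℍ} (h : (τ : ℂ) ^ 2 + 7 = 0) : jinv τ = 16581375 := by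
  obtain ⟨u, hu, hW, h1, h2⟩ := relation_two
  set σ : ℍ := aff 1 1 2 τ with hσ
  have hσ' : (σ : ℂ) = (τ + 1) / 2 := by rw [hσ, coe_aff]; push_cast; ring
  have hT : ModularGroup.T • τ = aff 2 0 1 σ := by
    ext1
    rw [coe_T, coe_mul_pt, hσ']
    push_cast
    ring
  have hσq : (σ : ℂ) ^ 2 - σ + 2 = 0 := by rw [hσ']; linear_combination h / 4
  have hj : jinv σ = -3375 := jinv_seven hσq
  have h3 := h1 σ
  have h4 := h2 σ
  rw [← hT, jinv_smul] at h4
  rw [hj] at h3
  have hw := hu σ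
  set w := u σ
  have h5 : (w + 4096) * (w ^ 2 + 47 * w + 4096) = 0 := by linear_combination -h3
  rcases mul_eq_zero.mp h5 with h6 | h6
  · have h7 : w = -4096 := by linear_combination h6
    rw [h7] at h4
    linear_combination h4 / (-4096)
  · exfalso
    have h8 : w * (jinv τ + 3375) = 0 := by linear_combination h4 + (w + 1) * h6
    have h9 := eq_neg_of_add_eq_zero_left ((mul_eq_zero.mp h8).resolve_left hw)
    refine jinv_ne (τ := σ) (τ' := τ) (a := 2) (b := 1) (a' := 7) (b' := 0)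
      (by push_cast; linear_combination hσq) (by push_cast; linear_combination h)
      (by norm_num) (by norm_num) ?_
    rw [hj, h9]

/-- **`j((1 + √-11)/2) = -32768 = -32³`** (discriminant `-11`) -/
theorem jinv_eleven {τ : ℍ} (h : (τ : ℂ) ^ 2 - τ + 3 = 0) : jinv τ = -32768 := by
  obtain ⟨u, hu, hW, h1, h2⟩ := relation_three'
  have hτ := τ.ne_zero
  have e : ModularGroup.T • ModularGroup.S • aff 1 0 3 τ = τ := by
    ext1
    rw [coe_T, coe_S, coe_div_pt]
    push_cast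
    field_simp
    linear_combination -h
  have hj : jinv (aff 1 0 3 τ) = jinv τ := by
    rw [← jinv_smul ModularGroup.S, ← jinv_smul ModularGroup.T, e]
  have h3 := h1 (aff 1 0 3 τ)
  have h4 := h2 (aff 1 0 3 τ)
  rw [mul_div_pt] at h4
  rw [hj] at h3
  have hw := hu (aff 1 0 3 τ)
  set w := u (aff 1 0 3 τ)
  have hq : (τ : ℂ) ^ 2 - ((1 : ℤ) : ℂ) * τ + ((3 : ℤ) : ℂ) = 0 := by
    push_cast; linear_combination h
  have h5 : (w + 27) * ((w - 27) * ((w ^ 2 + 46 * w + 729) * (w ^ 2 - 10 * w + 729))) = 0 := by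
    have h6 : w * ((w + 27) * ((w - 27) * ((w ^ 2 + 46 * w + 729) * (w ^ 2 - 10 * w + 729)))) =
        0 := by
      linear_combination w * h3 - w ^ 3 * h4
    exact (mul_eq_zero.mp h6).resolve_left hw
  rcases mul_eq_zero.mp h5 with h6 | h6
  · exfalso
    have h7 : w = -27 := by linear_combination h6
    rw [h7] at h4
    let σ : ℍ := ⟨-1 / 2 + Real.sqrt 3 / 2 * Complex.I, by simp⟩
    have hs : ((Real.sqrt 3 : ℝ) : ℂ) ^ 2 = 3 := by
      rw [← Complex.ofReal_pow, Real.sq_sqrt (by norm_num)]; push_cast; ring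
    have hσ : (σ : ℂ) ^ 2 + σ + 1 = 0 := by
      change (-1 / 2 + (Real.sqrt 3 : ℂ) / 2 * Complex.I) ^ 2 +
        (-1 / 2 + (Real.sqrt 3 : ℂ) / 2 * Complex.I) + 1 = 0
      linear_combination (Complex.I ^ 2 / 4) * hs + 3 / 4 * Complex.I_sq
    refine jinv_ne (τ := σ) (τ' := τ) (a := 1) (b := -1) (by push_cast; linear_combination hσ) hq
      (by norm_num) (by norm_num) ?_
    rw [jinv_rho hσ]
    linear_combination h4 / 27
  rcases mul_eq_zero.mp h6 with h7 | h7
  · exfalso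
    have h8 : w = 27 := sub_eq_zero.mp h7
    rw [h8] at h4
    let σ : ℍ := ⟨Real.sqrt 3 * Complex.I, by simp⟩
    have hσ : (σ : ℂ) ^ 2 + 3 = 0 := by
      change ((Real.sqrt 3 : ℂ) * Complex.I) ^ 2 + 3 = 0
      rw [mul_pow, Complex.I_sq, ← Complex.ofReal_pow, Real.sq_sqrt (by norm_num)]
      push_cast; ring
    refine jinv_ne (τ := σ) (τ' := τ) (a := 3) (b := 0) (by push_cast; linear_combination hσ) hq
      (by norm_num) (by norm_num) ?_
    rw [jinv_twelve hσ]
    linear_combination -h4 / 27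
  rcases mul_eq_zero.mp h7 with h8 | h8
  · exfalso
    have h9 : w * (jinv τ - 8000) = 0 := by
      linear_combination h4 + (w ^ 2 - 10 * w + 1) * h8
    have h10 := sub_eq_zero.mp ((mul_eq_zero.mp h9).resolve_left hw)
    let σ : ℍ := ⟨Real.sqrt 2 * Complex.I, by simp⟩
    have hσ : (σ : ℂ) ^ 2 + 2 = 0 := by
      change ((Real.sqrt 2 : ℂ) * Complex.I) ^ 2 + 2 = 0
      rw [mul_pow, Complex.I_sq, ← Complex.ofReal_pow, Real.sq_sqrt (by norm_num)]
      push_cast; ring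
    refine jinv_ne (τ := σ) (τ' := τ) (a := 2) (b := 0) (by push_cast; linear_combination hσ) hq
      (by norm_num) (by norm_num) ?_
    rw [jinv_eight hσ, h10]
  · have h9 : w * (jinv τ + 32768) = 0 := by
      linear_combination h4 + (w ^ 2 + 46 * w + 1) * h8
    exact eq_neg_of_add_eq_zero_left ((mul_eq_zero.mp h9).resolve_left hw)

/-- **`j((1 + 3√-3)/2) = -12288000`** (discriminant `-27`) -/
theorem jinv_twentyseven {τ : ℍ} (h : (τ : ℂ) ^ 2 - τ + 7 = 0) : jinv τ = -12288000 := by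
  obtain ⟨u, hu, hW, h1, h2⟩ := relation_three'
  set σ : ℍ := aff 1 1 3 τ with hσ
  have hσ' : (σ : ℂ) = (τ + 1) / 3 := by rw [hσ, coe_aff]; push_cast; ring
  have hT : ModularGroup.T • τ = aff 3 0 1 σ := by
    ext1
    rw [coe_T, coe_mul_pt, hσ']
    push_cast
    ring
  have hj : jinv σ = 0 := by
    have h4 : ((ModularGroup.S • σ : ℍ) : ℂ) ^ 2 + (ModularGroup.S • σ : ℍ) + 1 = 0 := by
      rw [coe_S]
      have h5 := σ.ne_zero
      field_simp
      rw [hσ']
      linear_combination h / 9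
    rw [← jinv_S, jinv_rho h4]
  have h3 := h1 σ
  have h4 := h2 σ
  rw [← hT, jinv_smul] at h4
  rw [hj, zero_mul] at h3
  have hq : (τ : ℂ) ^ 2 - ((1 : ℤ) : ℂ) * τ + ((7 : ℤ) : ℂ) = 0 := by
    push_cast; linear_combination h
  rcases mul_eq_zero.mp h3.symm with h5 | h5
  · exfalso
    have h6 : u σ = -27 := by linear_combination h5
    rw [h6] at h4
    have hσq : (σ : ℂ) ^ 2 - σ + 1 = 0 := by rw [hσ']; linear_combination h / 9
    refine jinv_ne (τ := σ) (τ' := τ) (a := 1) (b := 1) (by push_cast; linear_combination hσq) hq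
      (by norm_num) (by norm_num) ?_
    rw [hj]
    linear_combination h4 / 27
  · have h6 : u σ = -243 := by
      have := pow_eq_zero_iff (three_ne_zero) |>.mp h5
      linear_combination this
    rw [h6] at h4
    linear_combination h4 / (-243)

end Fermat.Agent.Cor.Unif
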