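import Fermat.Agent.Corollaries.Unif.Surj
import Mathlib.Topology.Instances.AddCircle.Defs
import Mathlib.Analysis.SpecialFunctions.Complex.CircleAddChar

/-!
# The group `W(ℂ)` is `(ℝ / ℤ)²`
-/

set_option autoImplicit false

noncomputable section

open scoped PeriodPair

namespace Fermat.Agent.Cor.Unif

open Fermat.Agent.Moduli

theorem repr_coord (L : PeriodPair) (a b : ℝ) :
    L.basis.repr (a • L.basis 0 + b • L.basis 1) 0 = a ∧
      L.basis.repr (a • L.basis 0 + b • L.basis 1) 1 = b := by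
  rw [map_add, map_smul, map_smul, Module.Basis.repr_self, Module.Basis.repr_self]
  constructor <;> simp

/-- the two real coordinates modulo `1` -/
def coordHom (L : PeriodPair) : ℂ →+ UnitAddCircle × UnitAddCircle where
  toFun z := (((L.basis.repr z 0 : ℝ) : UnitAddCircle), ((L.basis.repr z 1 : ℝ) : UnitAddCircle))
  map_zero' := by simp
  map_add' z w := by simp

theorem coordHom_surjective (L : PeriodPair) : Function.Surjective (coordHom L) := by
  rintro ⟨a, b⟩
  obtain ⟨a, rfl⟩ := QuotientAddGroup.mk_surjective a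
  obtain ⟨b, rfl⟩ := QuotientAddGroup.mk_surjective b
  obtain ⟨h1, h2⟩ := repr_coord L a b
  refine ⟨a • L.basis 0 + b • L.basis 1, Prod.ext ?_ ?_⟩
  · change ((L.basis.repr _ 0 : ℝ) : UnitAddCircle) = _
    rw [h1]
  · change ((L.basis.repr _ 1 : ℝ) : UnitAddCircle) = _
    rw [h2]

theorem mem_lattice_iff (L : PeriodPair) (z : ℂ) :
    z ∈ L.lattice ↔ coordHom L z = 0 := by
  have hz := L.basis.sum_repr z
  rw [Fin.sum_univ_two, L.basis_zero, L.basis_one] at hz
  rw [PeriodPair.mem_lattice]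
  constructor
  · rintro ⟨m, n, h⟩
    have h0 : z = (m : ℝ) • L.basis 0 + (n : ℝ) • L.basis 1 := by
      rw [← h, L.basis_zero, L.basis_one]
      simp [Complex.real_smul]
    have h1 : L.basis.repr z 0 = m := by rw [h0]; exact (repr_coord L m n).1
    have h2 : L.basis.repr z 1 = n := by rw [h0]; exact (repr_coord L m n).2
    refine Prod.ext ?_ ?_
    · change ((L.basis.repr z 0 : ℝ) : UnitAddCircle) = 0
      rw [h1, AddCircle.coe_eq_zero_iff]
      exact ⟨m, by simp⟩
    · change ((L.basis.repr z 1 : ℝ) : UnitAddCircle) = 0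
      rw [h2, AddCircle.coe_eq_zero_iff]
      exact ⟨n, by simp⟩
  · intro h
    have h1 : ((L.basis.repr z 0 : ℝ) : UnitAddCircle) = 0 := congrArg Prod.fst h
    have h2 : ((L.basis.repr z 1 : ℝ) : UnitAddCircle) = 0 := congrArg Prod.snd h
    rw [AddCircle.coe_eq_zero_iff] at h1 h2
    obtain ⟨m, hm⟩ := h1
    obtain ⟨n, hn⟩ := h2
    refine ⟨m, n, ?_⟩
    rw [← hz, ← hm, ← hn]
    simp [Complex.real_smul]

/-- `ℂ / L ≃ (ℝ / ℤ)²` -/
def torusEquiv (L : PeriodPair) :
    (ℂ ⧸ L.lattice.toAddSubgroup) ≃+ UnitAddCircle × UnitAddCircle :=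
  (QuotientAddGroup.quotientAddEquivOfEq (by
    ext z
    rw [AddMonoidHom.mem_ker, ← mem_lattice_iff]
    rfl)).trans (QuotientAddGroup.quotientKerEquivOfSurjective (coordHom L) (coordHom_surjective L))

variable (W : WeierstrassCurve.Affine ℂ)

/-- **the group of complex points of an elliptic curve is `(ℝ / ℤ)²`** -/
theorem point_equiv (hΔ : W.Δ ≠ 0) : Nonempty (W.Point ≃+ UnitAddCircle × UnitAddCircle) := by
  obtain ⟨L, h⟩ := exists_unif W hΔ
  exact ⟨(equiv h).symm.trans (torusEquiv L)⟩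

/-- **`W(ℂ)` is divisible** -/
theorem divisible (hΔ : W.Δ ≠ 0) {n : ℕ} (hn : n ≠ 0) (P : W.Point) : ∃ Q : W.Point, n • Q = P := by
  obtain ⟨L, h⟩ := exists_unif W hΔ
  obtain ⟨z, rfl⟩ := hom_surjective h P
  refine ⟨h.hom (z / n), ?_⟩
  rw [← map_nsmul, nsmul_eq_mul, mul_div_cancel₀]
  exact_mod_cast hn

/-- the `n`-torsion of the circle -/
theorem exists_toAddCircle {n : ℕ} [NeZero n] {x : UnitAddCircle} (hx : n • x = 0) :
    ∃ j : ZMod n, ZMod.toAddCircle j = x := by
  obtain ⟨r, rfl⟩ := QuotientAddGroup.mk_surjective x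
  have h1 : ((n * r : ℝ) : UnitAddCircle) = 0 := by
    rw [← nsmul_eq_mul]
    exact hx
  rw [AddCircle.coe_eq_zero_iff] at h1
  obtain ⟨m, hm⟩ := h1
  refine ⟨m, ?_⟩
  rw [ZMod.toAddCircle_intCast]
  congr 1
  have hn : (n : ℝ) ≠ 0 := by exact_mod_cast NeZero.ne n
  rw [zsmul_one] at hm
  rw [hm]
  field_simp

/-- **`W(ℂ)[n] ≃ (ℤ / n)²`** -/
theorem torsion_equiv (hΔ : W.Δ ≠ 0) (n : ℕ) [NeZero n] :
    ∃ f : ZMod n × ZMod n →+ W.Point, Function.Injective f ∧ ∀ P, n • P = 0 ↔ P ∈ f.range := by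
  obtain ⟨e⟩ := point_equiv W hΔ
  let g : ZMod n × ZMod n →+ UnitAddCircle × UnitAddCircle :=
    AddMonoidHom.prodMap ZMod.toAddCircle ZMod.toAddCircle
  refine ⟨e.symm.toAddMonoidHom.comp g, ?_, fun P => ?_⟩
  · refine e.symm.injective.comp ?_
    rintro ⟨a, b⟩ ⟨c, d⟩ h
    have h1 := ZMod.toAddCircle_injective n (congrArg Prod.fst h)
    have h2 := ZMod.toAddCircle_injective n (congrArg Prod.snd h)
    exact Prod.ext h1 h2
  · constructor
    · intro hP
      have h1 : n • e P = 0 := by rw [← map_nsmul, hP, map_zero]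
      obtain ⟨a, ha⟩ := exists_toAddCircle (congrArg Prod.fst h1)
      obtain ⟨b, hb⟩ := exists_toAddCircle (congrArg Prod.snd h1)
      refine ⟨(a, b), ?_⟩
      change e.symm (ZMod.toAddCircle a, ZMod.toAddCircle b) = P
      rw [ha, hb]
      exact e.symm_apply_apply P
    · rintro ⟨x, rfl⟩
      rw [← map_nsmul]
      have : n • x = 0 := by
        ext <;> simp
      rw [this, map_zero]

end Fermat.Agent.Cor.Unif
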