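import Fermat.Agent.Corollaries.Unif.ClassPoly
import Fermat.Agent.Corollaries.Ray.ClassNum

/-!
# The degree of the class polynomial is the class number

The singular moduli of discriminant `D < 0` are in bijection with the proper equivalence classes of
primitive positive definite binary quadratic forms of discriminant `D`.
-/

set_option autoImplicit false

open UpperHalfPlane hiding I
open Complex
open scoped MatrixGroups

noncomputable section

namespace Fermat.Agent.Cor.Unif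

open Fermat.Agent.Moduli Fermat.Agent.Cor.Tau Fermat.Agent.Cor.Ray
open BForm (PForm setoid hForm)

theorem root_unique {a b c : ℤ} (ha : 0 < a) {τ τ' : ℍ}
    (h : (a : ℂ) * (τ : ℂ) ^ 2 + b * τ + c = 0) (h' : (a : ℂ) * (τ' : ℂ) ^ 2 + b * τ' + c = 0) :
    τ = τ' := by
  have ha' : (0 : ℝ) < a := by exact_mod_cast ha
  obtain ⟨k1, k2, k3⟩ := coords' ha h
  obtain ⟨m1, m2, m3⟩ := coords' ha h'
  refine UpperHalfPlane.ext ?_
  apply Complex.ext
  · have h3 : (2 * (a : ℝ)) * τ.re = (2 * a) * τ'.re := by rw [m1, k1]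
    exact mul_left_cancel₀ (by positivity) h3
  · have h3 : (4 * (a : ℝ) ^ 2) * τ.im ^ 2 = (4 * a ^ 2) * τ'.im ^ 2 := by rw [m3, k3]
    have h4 := mul_left_cancel₀ (by positivity) h3
    exact (sq_eq_sq₀ τ.im_pos.le τ'.im_pos.le).mp h4

theorem exists_root {a b c : ℤ} (ha : 0 < a) (hD : b ^ 2 - 4 * a * c < 0) :
    ∃ τ : ℍ, (a : ℂ) * (τ : ℂ) ^ 2 + b * τ + c = 0 := by
  have ha' : (0 : ℝ) < a := by exact_mod_cast ha
  have hac : (a : ℂ) ≠ 0 := by exact_mod_cast ha.ne'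
  have hD' : (0 : ℝ) < 4 * a * c - b ^ 2 := by
    have : (b ^ 2 - 4 * a * c : ℝ) < 0 := by exact_mod_cast hD
    linarith
  set w : ℝ := Real.sqrt (4 * a * c - b ^ 2) with hw
  have hw0 : 0 < w := Real.sqrt_pos.mpr hD'
  have hw2 : w ^ 2 = 4 * a * c - b ^ 2 := Real.sq_sqrt hD'.le
  have hw2' : (w : ℂ) ^ 2 = 4 * a * c - b ^ 2 := by exact_mod_cast hw2
  set t : ℂ := ((-b / (2 * a) : ℝ) : ℂ) + ((w / (2 * a) : ℝ) : ℂ) * I with ht
  have him : 0 < t.im := by
    rw [ht, Complex.add_im, Complex.ofReal_im, Complex.mul_I_im, Complex.ofReal_re, zero_add]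
    positivity
  refine ⟨⟨t, him⟩, ?_⟩
  have h1 : 2 * a * t + b = w * I := by
    rw [ht]
    push_cast
    field_simp
    ring
  have h2 : (4 * a : ℂ) * (a * t ^ 2 + b * t + c) = 0 := by
    linear_combination (2 * a * t + b + w * I) * h1 + (w : ℂ) ^ 2 * Complex.I_sq - hw2'
  exact (mul_eq_zero.mp h2).resolve_left (mul_ne_zero (by norm_num) hac)

/-- `τ` is a zero of `f(X, 1)` -/
def IsZero (f : BForm) (τ : ℍ) : Prop := (f.a : ℂ) * (τ : ℂ) ^ 2 + f.b * τ + f.c = 0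

theorem isZero_subst (γ : SL(2, ℤ)) (f : BForm) (τ : ℍ) :
    IsZero (f.subst (γ 0 0) (γ 0 1) (γ 1 0) (γ 1 1)) τ ↔ IsZero f (γ • τ) := by
  have hdet : γ 0 0 * γ 1 1 - γ 0 1 * γ 1 0 = 1 := by
    have := γ.det_coe
    rwa [Matrix.det_fin_two] at this
  have hne : ((γ 1 0 : ℤ) : ℂ) * (τ : ℂ) + ((γ 1 1 : ℤ) : ℂ) ≠ 0 := by
    intro h0
    obtain ⟨h1, h2⟩ := linear_zero h0
    rw [h1, h2] at hdet
    simp at hdet
  have e : ((γ • τ : ℍ) : ℂ) = (((γ 0 0 : ℤ) : ℂ) * τ + ((γ 0 1 : ℤ) : ℂ)) /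
      (((γ 1 0 : ℤ) : ℂ) * τ + ((γ 1 1 : ℤ) : ℂ)) := by
    rw [UpperHalfPlane.specialLinearGroup_apply]
    simp
  rw [IsZero, IsZero, e]
  have key : ((f.subst (γ 0 0) (γ 0 1) (γ 1 0) (γ 1 1)).a : ℂ) * (τ : ℂ) ^ 2 +
      (f.subst (γ 0 0) (γ 0 1) (γ 1 0) (γ 1 1)).b * τ +
      (f.subst (γ 0 0) (γ 0 1) (γ 1 0) (γ 1 1)).c =
      (((γ 1 0 : ℤ) : ℂ) * τ + ((γ 1 1 : ℤ) : ℂ)) ^ 2 *
        ((f.a : ℂ) * ((((γ 0 0 : ℤ) : ℂ) * τ + ((γ 0 1 : ℤ) : ℂ)) /
      (((γ 1 0 : ℤ) : ℂ) * τ + ((γ 1 1 : ℤ) : ℂ))) ^ 2 +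
        f.b * ((((γ 0 0 : ℤ) : ℂ) * τ + ((γ 0 1 : ℤ) : ℂ)) /
      (((γ 1 0 : ℤ) : ℂ) * τ + ((γ 1 1 : ℤ) : ℂ))) + f.c) := by
    simp only [BForm.subst, BForm.val]
    generalize γ 0 0 = p at *
    generalize γ 0 1 = q at *
    generalize γ 1 0 = r at *
    generalize γ 1 1 = s at *
    push_cast
    field_simp
    ring
  rw [key, mul_eq_zero]
  constructor
  · rintro (h | h)
    · exact absurd h (pow_ne_zero 2 hne)
    · exact h
  · exact Or.inr

theorem isUnit_of_prim {f : BForm} (h : f.Prim) (d : ℤ) (h1 : d ∣ f.a)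
    (h2 : d ∣ f.b) (h3 : d ∣ f.c) : IsUnit d := by
  rw [Int.isUnit_iff_natAbs_eq]
  by_contra hne
  obtain ⟨q, hq, hqd⟩ := Nat.exists_prime_and_dvd hne
  have h4 : (q : ℤ) ∣ d := Int.natCast_dvd.mpr hqd
  exact h q hq ⟨h4.trans h1, h4.trans h2, h4.trans h3⟩

theorem prim_of_isUnit {f : BForm} (h : ∀ d : ℤ, d ∣ f.a → d ∣ f.b → d ∣ f.c → IsUnit d) :
    f.Prim := by
  rintro q hq ⟨h1, h2, h3⟩
  have h4 := Int.isUnit_iff_natAbs_eq.mp (h q h1 h2 h3)
  rw [Int.natAbs_natCast] at h4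
  exact hq.one_lt.ne' h4

/-- two primitive forms with positive first coefficient and the same zero are equal -/
theorem eq_of_isZero {f g : BForm} (hf : f.Prim) (hg : g.Prim) (hfa : 0 < f.a) (hga : 0 < g.a)
    {τ : ℍ} (h : IsZero f τ) (h' : IsZero g τ) : f = g := by
  obtain ⟨m, e1, e2, e3⟩ := prim_dvd hfa (isUnit_of_prim hf) h h'
  obtain ⟨m', e1', -, -⟩ := prim_dvd hga (isUnit_of_prim hg) h' h
  have h1 : m' * m * f.a = 1 * f.a := by
    rw [one_mul, mul_assoc, ← e1, ← e1']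
  have h2 : m' * m = 1 := mul_right_cancel₀ hfa.ne' h1
  have h3 : 0 < m := by
    by_contra hm
    have : m * f.a ≤ 0 := mul_nonpos_of_nonpos_of_nonneg (not_lt.mp hm) hfa.le
    omega
  have h4 : m = 1 := by
    rcases Int.isUnit_iff.mp (IsUnit.of_mul_eq_one _ h2) with h | h
    · rw [h, one_mul] at h2
      exact h2
    · rw [h] at h2
      omega
  subst h4
  rw [one_mul] at e1 e2 e3
  exact BForm.ext e1.symm e2.symm e3.symm

theorem eqv_iff_smul {f g : BForm} (hf : f.Prim) (hg : g.Prim) (hfa : 0 < f.a) (hga : 0 < g.a)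
    {τ τ' : ℍ} (h : IsZero f τ) (h' : IsZero g τ') (hfD : f.disc < 0) :
    f.Eqv g ↔ ∃ γ : SL(2, ℤ), γ • τ' = τ := by
  constructor
  · rintro ⟨p, q, r, s, hdet, rfl⟩
    refine ⟨⟨!![p, q; r, s], by rw [Matrix.det_fin_two_of]; exact hdet⟩, ?_⟩
    exact root_unique hfa ((isZero_subst _ f τ').mp h') h
  · rintro ⟨γ, rfl⟩
    have hdet : γ 0 0 * γ 1 1 - γ 0 1 * γ 1 0 = 1 := by
      have := γ.det_coe
      rwa [Matrix.det_fin_two] at this
    have h1 := (isZero_subst γ f τ').mpr h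
    have h2 : f.Eqv (f.subst (γ 0 0) (γ 0 1) (γ 1 0) (γ 1 1)) := ⟨_, _, _, _, hdet, rfl⟩
    rwa [eq_of_isZero (h2.prim hf) hg (h2.a_pos hfa hfD) hga h1 h'] at h2

/-- the zero of a positive definite form in the upper half plane -/
def rootOf {D : ℤ} (hD : D < 0) (f : PForm D) : ℍ :=
  (exists_root f.2.2.2 (by
    have h1 : f.1.b ^ 2 - 4 * f.1.a * f.1.c = D := f.2.2.1
    rw [h1]
    exact hD)).choose

theorem isZero_rootOf {D : ℤ} (hD : D < 0) (f : PForm D) : IsZero f.1 (rootOf hD f) :=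
  (exists_root f.2.2.2 (by
    have h1 : f.1.b ^ 2 - 4 * f.1.a * f.1.c = D := f.2.2.1
    rw [h1]
    exact hD)).choose_spec

theorem jinv_rootOf {D : ℤ} (hD : D < 0) (f g : PForm D) :
    jinv (rootOf hD f) = jinv (rootOf hD g) ↔ f.1.Eqv g.1 := by
  rw [eqv_iff_smul f.2.1 g.2.1 f.2.2.2 g.2.2.2 (isZero_rootOf hD f) (isZero_rootOf hD g)
    (by rw [f.2.2.1]; exact hD), ← jinv_eq_iff]
  exact eq_comm

/-- **the classes of primitive positive definite forms of discriminant `D` are the singular moduli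
of discriminant `D`** -/
def classEquiv {D : ℤ} (hD : D < 0) : Quotient (setoid D) ≃ jset D :=
  Equiv.ofBijective (Quotient.lift (fun f : PForm D => (⟨jinv (rootOf hD f), rootOf hD f,
    ⟨f.1.a, f.1.b, f.1.c, f.2.2.2, isUnit_of_prim f.2.1, isZero_rootOf hD f, f.2.2.1⟩,
    rfl⟩ : jset D)) (fun f g h => Subtype.ext ((jinv_rootOf hD f g).mpr h))) (by
  refine ⟨?_, ?_⟩
  · intro x y h
    induction x using Quotient.inductionOn with | _ f
    induction y using Quotient.inductionOn with | _ g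
    exact Quotient.sound ((jinv_rootOf hD f g).mp (congrArg Subtype.val h))
  · rintro ⟨z, τ, ⟨a, b, c, ha, hp, hr, hd⟩, rfl⟩
    set f : PForm D := ⟨⟨a, b, c⟩, prim_of_isUnit hp, hd, ha⟩ with hf
    refine ⟨Quotient.mk _ f, Subtype.ext ?_⟩
    have h1 : rootOf hD f = τ := root_unique ha (isZero_rootOf hD f) hr
    exact congrArg jinv h1)

/-- **the number of singular moduli of discriminant `D` is the class number `h(D)`** -/
theorem ncard_jset_eq {D : ℤ} (hD : D < 0) : (jset D).ncard = hForm D := by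
  rw [hForm, Nat.card_congr (classEquiv hD), Nat.card_coe_set_eq]

open Polynomial in
/-- **the class polynomial**: `H_D = ∏ (X - j) ∈ ℤ[X]`, of degree `h(D)`; every singular modulus
of discriminant `D` is a root. -/
theorem classPolynomial {D : ℤ} (hD : D < 0) : ∃ H : ℤ[X], H.Monic ∧ H.natDegree = hForm D ∧
    H.map (Int.castRingHom ℂ) = ∏ z ∈ (jset_finite D).toFinset, (X - C z) ∧
    ∀ z : ℂ, aeval z H = 0 ↔ ∃ τ : ℍ, HasDisc D τ ∧ jinv τ = z := by
  obtain ⟨H, hm, hd, hH⟩ := exists_classPoly D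
  refine ⟨H, hm, by rw [hd, ncard_jset_eq hD], hH, fun z => ?_⟩
  rw [aeval_def, algebraMap_int_eq, ← eval_map, hH, eval_prod, Finset.prod_eq_zero_iff]
  constructor
  · rintro ⟨w, hw, h0⟩
    rw [eval_sub, eval_X, eval_C, sub_eq_zero] at h0
    rw [h0]
    exact (jset_finite D).mem_toFinset.mp hw
  · intro h
    exact ⟨z, (jset_finite D).mem_toFinset.mpr h, by simp⟩

/-- **the degree of a singular modulus of discriminant `D` is at most `h(D)`** -/
theorem natDegree_minpoly_le_hForm {D : ℤ} {τ : ℍ} (h : HasDisc D τ) :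
    (minpoly ℚ (jinv τ)).natDegree ≤ hForm D :=
  (natDegree_minpoly_le h).trans (ncard_jset_eq h.neg).le

/-- **class number one**: the singular modulus is a rational integer -/
theorem exists_int_of_hForm {D : ℤ} (h1 : hForm D = 1) {τ : ℍ} (h : HasDisc D τ) :
    ∃ n : ℤ, jinv τ = n := by
  obtain ⟨H, hm, hd, -, hz⟩ := classPolynomial h.neg
  rw [h1] at hd
  have h2 := (hz (jinv τ)).mpr ⟨τ, h, rfl⟩
  refine ⟨-H.coeff 0, ?_⟩
  rw [hm.eq_X_add_C hd] at h2
  simp only [map_add, Polynomial.aeval_X, Polynomial.aeval_C, algebraMap_int_eq,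
    Int.coe_castRingHom] at h2
  push_cast
  linear_combination h2

end Fermat.Agent.Cor.Unif
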