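import Fermat.Agent.Corollaries.Unif.Iso
import Fermat.Agent.Corollaries.Bin.Mass
import Fermat.Agent.Corollaries.Ray.Ambig

/-!
# The singular moduli of discriminant `D`

A point `τ` of the upper half plane has the discriminant `D` if `a τ² + b τ + c = 0` for a primitive
positive definite form `(a, b, c)` with `b² - 4 a c = D`. The number of the values `j(τ)` at these
points is the class number `h(D)` of forms (`ncard_singular`); for the discriminant of a quadratic
field it is the class number of the field (`ncard_singular_eq_classNumber`).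
-/

set_option autoImplicit false

noncomputable section

open UpperHalfPlane MatrixGroups NumberField

namespace Fermat.Agent.Cor.Unif

open Fermat.Agent.Cor.Tau (jinv)
open Fermat.Agent.Cor.Ray

namespace Count

/-- `τ` is a root of the form `f` -/
def IsRoot (f : BForm) (τ : ℍ) : Prop := (f.a : ℂ) * (τ : ℂ) ^ 2 + f.b * (τ : ℂ) + f.c = 0

/-- **`τ` has the discriminant `D`**: it is the root of a primitive positive definite form of
discriminant `D`. -/
def HasDisc (D : ℤ) (τ : ℍ) : Prop :=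
  ∃ f : BForm, f.Prim ∧ f.disc = D ∧ 0 < f.a ∧ (f.a : ℂ) * (τ : ℂ) ^ 2 + f.b * (τ : ℂ) + f.c = 0

/-- **the singular moduli of discriminant `D`** -/
def singular (D : ℤ) : Set ℂ := {z | ∃ τ : ℍ, HasDisc D τ ∧ jinv τ = z}

theorem IsRoot.re_im {f : BForm} {τ : ℍ} (h : IsRoot f τ) :
    2 * (f.a : ℝ) * τ.re = -f.b ∧ 4 * (f.a : ℝ) ^ 2 * τ.im ^ 2 = -f.disc := by
  have h1 := congrArg Complex.re h
  have h2 := congrArg Complex.im h
  simp only [pow_two, Complex.add_re, Complex.mul_re, Complex.intCast_re, Complex.intCast_im,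
    Complex.add_im, Complex.mul_im, zero_mul, sub_zero, add_zero, Complex.zero_re,
    Complex.zero_im, UpperHalfPlane.coe_re, UpperHalfPlane.coe_im] at h1 h2
  have him := τ.im_pos
  have h3 : 2 * (f.a : ℝ) * τ.re = -f.b := by
    have h4 : τ.im * (2 * (f.a : ℝ) * τ.re + f.b) = 0 := by linear_combination h2
    have h5 := (mul_eq_zero.mp h4).resolve_left him.ne'
    linarith
  refine ⟨h3, ?_⟩
  rw [BForm.disc]
  push_cast
  linear_combination (-4 * (f.a : ℝ)) * h1 + (2 * (f.a : ℝ) * τ.re + f.b) * h3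

/-- the root of a positive definite form is unique -/
theorem IsRoot.unique {f : BForm} (ha : 0 < f.a) {τ τ' : ℍ} (h : IsRoot f τ) (h' : IsRoot f τ') :
    τ = τ' := by
  obtain ⟨h1, h2⟩ := h.re_im
  obtain ⟨h3, h4⟩ := h'.re_im
  have ha' : (0 : ℝ) < f.a := by exact_mod_cast ha
  have hre : τ.re = τ'.re := by
    have : 2 * (f.a : ℝ) * (τ.re - τ'.re) = 0 := by linear_combination h1 - h3
    rcases mul_eq_zero.mp this with h5 | h5
    · linarith
    · linarith
  have him : τ.im = τ'.im := by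
    have h5 : 4 * (f.a : ℝ) ^ 2 * (τ.im ^ 2 - τ'.im ^ 2) = 0 := by linear_combination h2 - h4
    have h6 : τ.im ^ 2 - τ'.im ^ 2 = 0 := by
      rcases mul_eq_zero.mp h5 with h7 | h7
      · exact absurd h7 (by positivity)
      · exact h7
    have h7 : (τ.im - τ'.im) * (τ.im + τ'.im) = 0 := by linear_combination h6
    have h8 : τ.im + τ'.im ≠ 0 := (add_pos τ.im_pos τ'.im_pos).ne'
    have := (mul_eq_zero.mp h7).resolve_right h8
    linarith
  exact UpperHalfPlane.ext (Complex.ext hre him)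

/-- the root determines the form, if the discriminant is given -/
theorem IsRoot.form_unique {f g : BForm} (hf : 0 < f.a) (hg : 0 < g.a) (hD : f.disc = g.disc)
    {τ : ℍ} (h : IsRoot f τ) (h' : IsRoot g τ) : f = g := by
  obtain ⟨h1, h2⟩ := h.re_im
  obtain ⟨h3, h4⟩ := h'.re_im
  have hf' : (0 : ℝ) < f.a := by exact_mod_cast hf
  have hg' : (0 : ℝ) < g.a := by exact_mod_cast hg
  have him := τ.im_pos
  have ha : (f.a : ℝ) = g.a := by
    have h5 : 4 * τ.im ^ 2 * ((f.a : ℝ) ^ 2 - (g.a : ℝ) ^ 2) = 0 := by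
      rw [hD] at h2
      linear_combination h2 - h4
    have h6 : (f.a : ℝ) ^ 2 - (g.a : ℝ) ^ 2 = 0 := by
      rcases mul_eq_zero.mp h5 with h7 | h7
      · exact absurd h7 (by positivity)
      · exact h7
    have h7 : ((f.a : ℝ) - g.a) * (f.a + g.a) = 0 := by linear_combination h6
    have h8 : (f.a : ℝ) + g.a ≠ 0 := (add_pos hf' hg').ne'
    have := (mul_eq_zero.mp h7).resolve_right h8
    linarith
  have ha' : f.a = g.a := by exact_mod_cast ha
  have hb : (f.b : ℝ) = g.b := by
    rw [ha] at h1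
    linarith
  have hb' : f.b = g.b := by exact_mod_cast hb
  have hc' : f.c = g.c := by
    rw [BForm.disc, BForm.disc, ha', hb'] at hD
    have h5 : 4 * g.a * f.c = 4 * g.a * g.c := by linarith
    exact mul_left_cancel₀ (by positivity) h5
  exact BForm.ext ha' hb' hc'

/-- the root of a positive definite form -/
theorem exists_isRoot {f : BForm} (ha : 0 < f.a) (hD : f.disc < 0) : ∃ τ : ℍ, IsRoot f τ := by
  have ha' : (0 : ℝ) < f.a := by exact_mod_cast ha
  have hD' : (0 : ℝ) < -f.disc := by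
    have : (f.disc : ℝ) < 0 := by exact_mod_cast hD
    linarith
  set s : ℝ := Real.sqrt (-f.disc) with hs
  have hs0 : 0 < s := Real.sqrt_pos.mpr hD'
  have hss : s ^ 2 = -f.disc := Real.sq_sqrt hD'.le
  refine ⟨⟨⟨-f.b / (2 * f.a), s / (2 * f.a)⟩, by positivity⟩, ?_⟩
  have hss' : s ^ 2 = 4 * f.a * f.c - (f.b : ℝ) ^ 2 := by
    rw [hss, BForm.disc]
    push_cast
    ring
  unfold IsRoot
  apply Complex.ext
  · simp only [pow_two, Complex.add_re, Complex.mul_re, Complex.intCast_re, Complex.intCast_im,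
      Complex.mul_im, zero_mul, sub_zero, Complex.zero_re]
    field_simp
    linear_combination -hss'
  · simp only [pow_two, Complex.mul_re, Complex.intCast_re, Complex.intCast_im,
      Complex.add_im, Complex.mul_im, zero_mul, add_zero, Complex.zero_im]
    field_simp
    ring

/-- the chosen root -/
def root {D : ℤ} (hD : D < 0) (f : BForm.PForm D) : ℍ :=
  (exists_isRoot f.2.2.2 (by rw [f.2.2.1]; exact hD)).choose

theorem isRoot_root {D : ℤ} (hD : D < 0) (f : BForm.PForm D) : IsRoot f.1 (root hD f) :=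
  (exists_isRoot f.2.2.2 (by rw [f.2.2.1]; exact hD)).choose_spec

theorem denom_ne {C D : ℤ} (h : C ≠ 0 ∨ D ≠ 0) (w : ℍ) : (C : ℂ) * w + D ≠ 0 := by
  intro h0
  have him : (C : ℝ) * w.im = 0 := by
    have h1 := congrArg Complex.im h0
    simpa using h1
  have hC : C = 0 := by
    rcases mul_eq_zero.mp him with h1 | h1
    · exact_mod_cast h1
    · exact absurd h1 w.im_pos.ne'
  have hD : D = 0 := by
    rw [hC] at h0
    simpa using h0
  rcases h with h | h
  · exact h hC
  · exact h hD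

/-- the substitution moves the root -/
theorem isRoot_subst_iff {f : BForm} (γ : SL(2, ℤ)) (w : ℍ) :
    IsRoot (f.subst (γ 0 0) (γ 0 1) (γ 1 0) (γ 1 1)) w ↔ IsRoot f (γ • w) := by
  have hdet : γ 0 0 * γ 1 1 - γ 0 1 * γ 1 0 = 1 := by
    have := γ.det_coe
    rwa [Matrix.det_fin_two] at this
  have h0 : ((γ 1 0 : ℤ) : ℂ) * w + (γ 1 1 : ℤ) ≠ 0 := by
    apply denom_ne
    by_contra h
    push Not at h
    rw [h.1, h.2] at hdet
    simp at hdet
  unfold IsRoot
  rw [UpperHalfPlane.coe_specialLinearGroup_apply]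
  simp only [algebraMap_int_eq, eq_intCast, Complex.ofReal_intCast, BForm.subst, BForm.val]
  push_cast
  set A : ℂ := ((γ 0 0 : ℤ) : ℂ)
  set B : ℂ := ((γ 0 1 : ℤ) : ℂ)
  set C : ℂ := ((γ 1 0 : ℤ) : ℂ)
  set E : ℂ := ((γ 1 1 : ℤ) : ℂ)
  set z : ℂ := (w : ℂ)
  have key : (f.a : ℂ) * ((A * z + B) / (C * z + E)) ^ 2 + f.b * ((A * z + B) / (C * z + E)) + f.c
      = (((f.a : ℂ) * A ^ 2 + f.b * A * C + f.c * C ^ 2) * z ^ 2 +
        (2 * f.a * A * B + f.b * (A * E + B * C) + 2 * f.c * C * E) * z +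
        (f.a * B ^ 2 + f.b * B * E + f.c * E ^ 2)) / (C * z + E) ^ 2 := by
    rw [eq_div_iff (pow_ne_zero 2 h0)]
    have hq : (A * z + B) / (C * z + E) * (C * z + E) = A * z + B := div_mul_cancel₀ _ h0
    linear_combination ((f.a : ℂ) * ((A * z + B) / (C * z + E) * (C * z + E) + (A * z + B)) +
      f.b * (C * z + E)) * hq
  rw [key, div_eq_zero_iff]
  constructor
  · intro h
    exact Or.inl h
  · rintro (h | h)
    · exact h
    · exact absurd h (pow_ne_zero 2 h0)

/-- **the values of `j` at the roots of two forms are equal if and only if the forms are properly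
equivalent** -/
theorem jinv_root_eq_iff {D : ℤ} (hD : D < 0) (f g : BForm.PForm D) :
    jinv (root hD f) = jinv (root hD g) ↔ f.1.Eqv g.1 := by
  constructor
  · intro h
    obtain ⟨γ, hγ⟩ := jinv_eq_iff.mp h.symm
    have hdet : γ 0 0 * γ 1 1 - γ 0 1 * γ 1 0 = 1 := by
      have := γ.det_coe
      rwa [Matrix.det_fin_two] at this
    have h1 : IsRoot (f.1.subst (γ 0 0) (γ 0 1) (γ 1 0) (γ 1 1)) (root hD g) := by
      rw [isRoot_subst_iff, hγ]
      exact isRoot_root hD f
    have h2 : f.1.Eqv (f.1.subst (γ 0 0) (γ 0 1) (γ 1 0) (γ 1 1)) := ⟨_, _, _, _, hdet, rfl⟩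
    have hfD : f.1.disc < 0 := by rw [f.2.2.1]; exact hD
    have h3 := IsRoot.form_unique (h2.a_pos f.2.2.2 hfD) g.2.2.2
      (by rw [h2.disc_eq, f.2.2.1, g.2.2.1]) h1 (isRoot_root hD g)
    rw [h3] at h2
    exact h2
  · rintro ⟨p, q, r, s, hdet, hg⟩
    let γ : SL(2, ℤ) := ⟨!![p, q; r, s], by rw [Matrix.det_fin_two_of]; exact hdet⟩
    have h1 : IsRoot f.1 (γ • root hD g) := by
      rw [← isRoot_subst_iff]
      have : f.1.subst (γ 0 0) (γ 0 1) (γ 1 0) (γ 1 1) = g.1 := hg
      rw [this]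
      exact isRoot_root hD g
    have h2 := IsRoot.unique f.2.2.2 h1 (isRoot_root hD f)
    exact (jinv_eq_iff.mpr ⟨γ, h2⟩).symm

/-- **the classes of the forms of discriminant `D` correspond to the singular moduli of
discriminant `D`** -/
def classEquiv {D : ℤ} (hD : D < 0) : Quotient (BForm.setoid D) ≃ singular D :=
  Equiv.ofBijective (Quotient.lift (fun f => (⟨jinv (root hD f), root hD f,
    ⟨f.1, f.2.1, f.2.2.1, f.2.2.2, isRoot_root hD f⟩, rfl⟩ : singular D))
    (fun f g h => Subtype.ext ((jinv_root_eq_iff hD f g).mpr h))) (by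
    constructor
    · rintro ⟨f⟩ ⟨g⟩ h
      exact Quotient.sound ((jinv_root_eq_iff hD f g).mp (congrArg Subtype.val h))
    · rintro ⟨z, τ, ⟨f, h1, h2, h3, h4⟩, rfl⟩
      refine ⟨Quotient.mk _ ⟨f, h1, h2, h3⟩, Subtype.ext ?_⟩
      have : root hD ⟨f, h1, h2, h3⟩ = τ := IsRoot.unique h3 (isRoot_root hD ⟨f, h1, h2, h3⟩) h4
      exact congrArg jinv this)

/-- **The number of the singular moduli of discriminant `D` is the class number `h(D)`** of
primitive positive definite binary quadratic forms. -/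
theorem ncard_singular {D : ℤ} (hD : D < 0) : (singular D).ncard = BForm.hForm D := by
  rw [BForm.hForm, Nat.card_congr (classEquiv hD)]
  rfl

/-- there are finitely many singular moduli of a given discriminant -/
theorem finite_singular {D : ℤ} (hD : D < 0) : (singular D).Finite := by
  have := BForm.finite_classes hD
  have h : Finite (singular D) := Finite.of_equiv _ (classEquiv hD)
  exact Set.toFinite _

/-- **The number of the singular moduli whose discriminant is the discriminant of the imaginary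
quadratic field `K` is the class number of `K`.** -/
theorem ncard_singular_eq_classNumber {K : Type*} [Field K] [NumberField K]
    (h2 : Module.finrank ℚ K = 2) (hneg : discr K < 0) :
    (singular (discr K)).ncard = classNumber K := by
  rw [ncard_singular hneg, Bin.classNumber_eq_hForm h2 hneg]

/-- examples: `h(-3) = h(-4) = h(-163) = 1`, `h(-20) = 2`, `h(-23) = 3`, `h(-56) = 4` -/
theorem ncard_singular_values : (singular (-3)).ncard = 1 ∧ (singular (-4)).ncard = 1 ∧
    (singular (-163)).ncard = 1 ∧ (singular (-20)).ncard = 2 ∧ (singular (-23)).ncard = 3 ∧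
    (singular (-56)).ncard = 4 :=
  ⟨(ncard_singular (by norm_num)).trans BForm.hForm_3,
    (ncard_singular (by norm_num)).trans BForm.hForm_4,
    (ncard_singular (by norm_num)).trans BForm.hForm_163,
    (ncard_singular (by norm_num)).trans BForm.hForm_20,
    (ncard_singular (by norm_num)).trans BForm.hForm_23,
    (ncard_singular (by norm_num)).trans BForm.hForm_56⟩

/-! ### Every imaginary quadratic point has exactly one discriminant -/

theorem gcd_dvd {a b c d x : ℤ} (ha : x ∣ d * a) (hb : x ∣ d * b) (hc : x ∣ d * c)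
    (h : Int.gcd a (Int.gcd b c) = 1) : x ∣ d := by
  have h1 : x ∣ d * (Int.gcd b c : ℤ) := by
    rw [Int.gcd_eq_gcd_ab b c, mul_add, ← mul_assoc, ← mul_assoc]
    exact dvd_add (hb.mul_right _) (hc.mul_right _)
  have h2 := Int.gcd_eq_gcd_ab a (Int.gcd b c)
  rw [h, Nat.cast_one] at h2
  have h3 : d = d * a * Int.gcdA a (Int.gcd b c) +
      d * (Int.gcd b c : ℤ) * Int.gcdB a (Int.gcd b c) := by
    linear_combination d * h2
  rw [h3]
  exact dvd_add (ha.mul_right _) (h1.mul_right _)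

theorem IsRoot.prop {f g : BForm} (hf : 0 < f.a) (hg : 0 < g.a) {τ : ℍ} (h : IsRoot f τ)
    (h' : IsRoot g τ) :
    f.a * g.b = g.a * f.b ∧ f.a * g.c = g.a * f.c ∧ g.a ^ 2 * f.disc = f.a ^ 2 * g.disc := by
  obtain ⟨h1, h2⟩ := h.re_im
  obtain ⟨h3, h4⟩ := h'.re_im
  have e1 : f.a * g.b = g.a * f.b := by
    have : (f.a : ℝ) * g.b = g.a * f.b := by
      linear_combination (f.a : ℝ) * h3 - (g.a : ℝ) * h1
    exact_mod_cast this
  have e2 : g.a ^ 2 * f.disc = f.a ^ 2 * g.disc := by
    have : (g.a : ℝ) ^ 2 * f.disc = (f.a : ℝ) ^ 2 * g.disc := by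
      linear_combination (g.a : ℝ) ^ 2 * h2 - (f.a : ℝ) ^ 2 * h4
    exact_mod_cast this
  refine ⟨e1, ?_, e2⟩
  have e3 : (4 * f.a * g.a) * (f.a * g.c) = (4 * f.a * g.a) * (g.a * f.c) := by
    rw [BForm.disc, BForm.disc] at e2
    linear_combination e2 + (f.a * g.b + g.a * f.b) * e1
  exact mul_left_cancel₀ (by positivity) e3

/-- **the discriminant of `τ` is unique** -/
theorem HasDisc.unique {D D' : ℤ} {τ : ℍ} (h : HasDisc D τ) (h' : HasDisc D' τ) : D = D' := by
  obtain ⟨f, hf1, rfl, hf2, hf3⟩ := h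
  obtain ⟨g, hg1, rfl, hg2, hg3⟩ := h'
  obtain ⟨e1, e2, e3⟩ := IsRoot.prop hf2 hg2 hf3 hg3
  have h1 : f.a ∣ g.a := gcd_dvd (Dvd.intro_left _ rfl) ⟨g.b, e1.symm⟩ ⟨g.c, e2.symm⟩
    (BForm.prim_iff.mp hf1)
  have h2 : g.a ∣ f.a := gcd_dvd (Dvd.intro_left _ rfl) ⟨f.b, e1⟩ ⟨f.c, e2⟩
    (BForm.prim_iff.mp hg1)
  have h3 : f.a = g.a := Int.dvd_antisymm hf2.le hg2.le h1 h2
  rw [h3] at e3
  exact mul_left_cancel₀ (by positivity) e3

theorem exists_prim {τ : ℍ} : ∀ n : ℕ, ∀ f : BForm, 0 < f.a → f.a.toNat ≤ n → IsRoot f τ →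
    ∃ g : BForm, g.Prim ∧ 0 < g.a ∧ IsRoot g τ := by
  intro n
  induction n with
  | zero =>
    intro f h1 h2
    omega
  | succ n ih =>
    intro f h1 h2 h3
    by_cases hp : f.Prim
    · exact ⟨f, hp, h1, h3⟩
    · unfold BForm.Prim at hp
      push Not at hp
      obtain ⟨q, hq, ⟨a, ha⟩, ⟨b, hb⟩, ⟨c, hc⟩⟩ := hp
      have hq0 : (0 : ℤ) < q := by exact_mod_cast hq.pos
      have hq2 : (2 : ℤ) ≤ q := by exact_mod_cast hq.two_le
      have ha0 : 0 < a := by
        rw [ha] at h1
        exact (mul_pos_iff_of_pos_left hq0).mp h1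
      refine ih ⟨a, b, c⟩ ha0 ?_ ?_
      · show a.toNat ≤ n
        have : a < f.a := by
          rw [ha]
          nlinarith
        omega
      · have hqC : ((q : ℤ) : ℂ) ≠ 0 := by exact_mod_cast hq0.ne'
        unfold IsRoot at h3 ⊢
        rw [ha, hb, hc] at h3
        have h4 : ((q : ℤ) : ℂ) * ((a : ℂ) * (τ : ℂ) ^ 2 + b * (τ : ℂ) + c) = 0 := by
          push_cast at h3 ⊢
          linear_combination h3
        exact (mul_eq_zero.mp h4).resolve_left hqC

/-- **every imaginary quadratic point has a discriminant** -/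
theorem exists_hasDisc {a b c : ℤ} (ha : a ≠ 0) {τ : ℍ}
    (h : (a : ℂ) * (τ : ℂ) ^ 2 + b * (τ : ℂ) + c = 0) : ∃ D : ℤ, D < 0 ∧ HasDisc D τ := by
  have key : ∃ f : BForm, 0 < f.a ∧ IsRoot f τ := by
    rcases lt_or_gt_of_ne ha with h1 | h1
    · refine ⟨⟨-a, -b, -c⟩, by simpa using h1, ?_⟩
      unfold IsRoot
      push_cast
      linear_combination -h
    · exact ⟨⟨a, b, c⟩, h1, h⟩
  obtain ⟨f, hf1, hf2⟩ := key
  obtain ⟨g, hg1, hg2, hg3⟩ := exists_prim _ f hf1 le_rfl hf2
  refine ⟨g.disc, ?_, g, hg1, rfl, hg2, hg3⟩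
  have h1 := hg3.re_im.2
  have h2 : (0 : ℝ) < g.a := by exact_mod_cast hg2
  have h3 := τ.im_pos
  have h4 : (g.disc : ℝ) < 0 := by
    have : 0 < 4 * (g.a : ℝ) ^ 2 * τ.im ^ 2 := by positivity
    linarith
  exact_mod_cast h4

end Count

end Fermat.Agent.Cor.Unif
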