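import Fermat.Agent.Corollaries.Unif.ClassDeg
import Fermat.Agent.Corollaries.Unif.Count

/-!
# Complex multiplication

* the class polynomial of an imaginary quadratic field has the degree of its class number;
* the invariant of a lattice with complex multiplication (of an elliptic curve over `ℂ` with
  complex multiplication) is an algebraic integer;
* the real singular moduli are those of the forms which are properly equivalent to their opposites.
-/

set_option autoImplicit false

open UpperHalfPlane hiding I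
open Complex
open scoped MatrixGroups ComplexConjugate

noncomputable section

namespace Fermat.Agent.Cor.Unif

open Fermat.Agent.Moduli Fermat.Agent.Cor.Tau Fermat.Agent.Cor.Ray
open BForm (PForm setoid hForm)

/-- the two definitions of the discriminant of a point of the upper half plane agree -/
theorem hasDisc_iff {D : ℤ} {τ : ℍ} : HasDisc D τ ↔ Count.HasDisc D τ := by
  constructor
  · rintro ⟨a, b, c, ha, hp, hr, hd⟩
    exact ⟨⟨a, b, c⟩, prim_of_isUnit hp, hd, ha, hr⟩
  · rintro ⟨f, hp, hd, ha, hr⟩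
    exact ⟨f.a, f.b, f.c, ha, isUnit_of_prim hp, hr, hd⟩

open Polynomial NumberField in
/-- **the class polynomial of an imaginary quadratic field `K`**: monic with integer coefficients,
its degree is the class number of `K`, its roots are the singular moduli of discriminant `d_K` -/
theorem classPolynomial_field {K : Type*} [Field K] [NumberField K]
    (h2 : Module.finrank ℚ K = 2) (hneg : discr K < 0) :
    ∃ H : ℤ[X], H.Monic ∧ H.natDegree = classNumber K ∧
      ∀ z : ℂ, aeval z H = 0 ↔ ∃ τ : ℍ, HasDisc (discr K) τ ∧ jinv τ = z := by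
  obtain ⟨H, hm, hd, -, hz⟩ := classPolynomial hneg
  exact ⟨H, hm, by rw [hd, Bin.classNumber_eq_hForm h2 hneg], hz⟩

open NumberField in
/-- the degree of a singular modulus of fundamental discriminant is at most the class number of
the field -/
theorem natDegree_minpoly_le_classNumber {K : Type*} [Field K] [NumberField K]
    (h2 : Module.finrank ℚ K = 2) (hneg : discr K < 0) {τ : ℍ} (h : HasDisc (discr K) τ) :
    (minpoly ℚ (jinv τ)).natDegree ≤ classNumber K := by
  rw [Bin.classNumber_eq_hForm h2 hneg]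
  exact natDegree_minpoly_le_hForm h

/-! ### Lattices and curves with complex multiplication -/

/-- a lattice with a multiplier which is not an integer is homothetic to `ℤ + ℤτ`, `τ` imaginary
quadratic -/
theorem exists_disc_of_mul (L : PeriodPair) {a : ℂ} (ha : ∀ n : ℤ, a ≠ n)
    (h : ∀ l ∈ L.lattice, a * l ∈ L.lattice) :
    ∃ (D : ℤ) (τ : ℍ), HasDisc D τ ∧ (curve L).j = jinv τ := by
  obtain ⟨β, hβ, τ, hL⟩ := exists_mkPP L
  have hj : (curve L).j = jinv τ := by
    have := curve_congr hL
    simp only [this, curve_j_mkPP]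
  have h1 : a * β ∈ L.lattice := h β (by rw [hL, mem_mkPP]; exact ⟨1, 0, by simp⟩)
  have h2 : a * (β * τ) ∈ L.lattice := h _ (by rw [hL, mem_mkPP]; exact ⟨0, 1, by simp⟩)
  rw [hL, mem_mkPP] at h1 h2
  obtain ⟨p, q, e1⟩ := h1
  obtain ⟨r, t, e2⟩ := h2
  have e3 : a = p + q * τ := mul_right_cancel₀ hβ (by linear_combination -e1)
  have e4 : a * τ = r + t * τ := mul_right_cancel₀ hβ (by linear_combination -e2)
  have hq : q ≠ 0 := by
    rintro rfl
    exact ha p (by simpa using e3)
  have e5 : (q : ℂ) * (τ : ℂ) ^ 2 + ((p - t : ℤ) : ℂ) * τ + ((-r : ℤ) : ℂ) = 0 := by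
    push_cast
    linear_combination e4 - (τ : ℂ) * e3
  obtain ⟨D, m, hD, -⟩ := exists_hasDisc hq e5
  exact ⟨D, τ, hD, hj⟩

/-- **complex multiplication implies that the invariant is an algebraic integer** -/
theorem isIntegral_j_of_mul (L : PeriodPair) {a : ℂ} (ha : ∀ n : ℤ, a ≠ n)
    (h : ∀ l ∈ L.lattice, a * l ∈ L.lattice) : IsIntegral ℤ (curve L).j := by
  obtain ⟨D, τ, ⟨x, y, z, hx, -, hr, -⟩, hj⟩ := exists_disc_of_mul L ha h
  rw [hj]
  exact Kro.isIntegral_jinv hx.ne' hr

/-- the invariant of an elliptic curve is the invariant of its lattice -/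
theorem j_eq_of_unif {L : PeriodPair} {W : WeierstrassCurve ℂ} [W.IsElliptic]
    (h : Moduli.Unif L W) : W.j = (curve L).j := by
  have h4 : W.c₄ = 12 * L.g₂ := by rw [h.g₂]; ring
  have h6 : W.c₆ = 216 * L.g₃ := by rw [h.g₃]; ring
  have hΔ : W.Δ = L.g₂ ^ 3 - 27 * L.g₃ ^ 2 := by
    have := W.c_relation
    rw [h4, h6] at this
    linear_combination this / 1728
  rw [curve_j, WeierstrassCurve.j, Units.val_inv_eq_inv_val, WeierstrassCurve.coe_Δ', hΔ, h4,
    div_eq_inv_mul]
  ring

/-- **an elliptic curve over `ℂ` with complex multiplication has an integral invariant**: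
`E(ℂ) = ℂ / L`, and if `a L ⊆ L` for one `a ∉ ℤ`, then `j(E)` is an algebraic integer. -/
theorem isIntegral_j_of_cm {L : PeriodPair} {W : WeierstrassCurve ℂ} [W.IsElliptic]
    (hW : Moduli.Unif L W) {a : ℂ} (ha : ∀ n : ℤ, a ≠ n)
    (h : ∀ l ∈ L.lattice, a * l ∈ L.lattice) : IsIntegral ℤ W.j := by
  rw [j_eq_of_unif hW]
  exact isIntegral_j_of_mul L ha h

/-! ### The real singular moduli -/

/-- `j(-τ̄)` is the complex conjugate of `j(τ)` -/
theorem jinv_neg_conj {τ τ' : ℍ} (h : (τ' : ℂ) = -conj (τ : ℂ)) : jinv τ' = conj (jinv τ) := by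
  have h1 := hasSum_j τ'
  have h2 := (hasSum_j τ).map (starRingEnd ℂ) Complex.continuous_conj
  have hq : Function.Periodic.qParam 1 (τ' : ℂ) = conj (Function.Periodic.qParam 1 (τ : ℂ)) := by
    rw [Function.Periodic.qParam, Function.Periodic.qParam, h, ← Complex.exp_conj]
    congr 1
    simp only [map_div₀, map_mul, Complex.conj_I, Complex.conj_ofReal, map_ofNat]
    ring
  have h3 : (fun n : ℕ => (jcoeff n : ℂ) * Function.Periodic.qParam 1 (τ' : ℂ) ^ n) =
      (starRingEnd ℂ) ∘ fun n : ℕ => (jcoeff n : ℂ) * Function.Periodic.qParam 1 (τ : ℂ) ^ n := by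
    funext n
    rw [hq]
    simp only [Function.comp_apply, map_mul, map_pow, map_intCast]
  rw [h3] at h1
  have h4 := h1.unique h2
  rw [hq, map_sub, map_inv₀] at h4
  exact sub_left_inj.mp h4

/-- **the real singular moduli**: `j(τ_f)` is real if and only if the form `f` is properly
equivalent to its opposite -/
theorem jinv_real_iff {D : ℤ} (hD : D < 0) (f : PForm D) :
    (jinv (rootOf hD f)).im = 0 ↔ f.1.Eqv f.1.op := by
  set τ := rootOf hD f with hτ
  have hz := isZero_rootOf hD f
  rw [← hτ] at hz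
  have him : 0 < (-conj (τ : ℂ)).im := by
    simp only [Complex.neg_im, Complex.conj_im, neg_neg]
    exact τ.im_pos
  set τ' : ℍ := ⟨-conj (τ : ℂ), him⟩ with hτ'
  have hcoe : (τ' : ℂ) = -conj (τ : ℂ) := rfl
  have hz' : IsZero f.1.op τ' := by
    have h1 := congrArg conj hz
    simp only [map_add, map_mul, map_pow, map_intCast, map_zero] at h1
    rw [IsZero, hcoe]
    simp only [BForm.op]
    push_cast
    linear_combination h1
  have hp : f.1.op.Prim := by
    rintro q hq ⟨h1, h2, h3⟩
    exact f.2.1 q hq ⟨h1, (dvd_neg.mp h2), h3⟩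
  rw [eqv_iff_smul f.2.1 hp f.2.2.2 f.2.2.2 hz hz' (by rw [f.2.2.1]; exact hD), ← jinv_eq_iff,
    jinv_neg_conj hcoe, Complex.conj_eq_iff_im]

end Fermat.Agent.Cor.Unif
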