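import Fermat.Agent.Corollaries.Unif.ModP

/-!
# Singular moduli of class number one are integers

`j((1 + √-D)/2) ∈ ℤ` for `D = 19, 43, 67, 163`.
-/

set_option autoImplicit false

noncomputable section

open UpperHalfPlane hiding I
open ModularForm MatrixGroups Filter Topology CongruenceSubgroup
open scoped PeriodPair Manifold Polynomial Modular

namespace Fermat.Agent.Cor.Unif

open Fermat.Agent.JLevelOne Fermat.Agent.Cor.Tau Fermat.Agent.X0Emb

/-- a point with an endomorphism of norm `ℓ` -/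
theorem quad_of_aff {ℓ a b d : ℕ} [NeZero a] [NeZero d] (hℓ : a * d = ℓ) {τ : ℍ}
    (h : jinv (aff a b d τ) = jinv τ) : ∃ x y z t : ℤ,
      (x : ℂ) * (τ : ℂ) ^ 2 + y * τ + z = 0 ∧ y ^ 2 - 4 * x * z = t ^ 2 - 4 * ℓ := by
  obtain ⟨γ, hγ⟩ := jinv_eq_iff.mp h
  have hd0 : (d : ℂ) ≠ 0 := Nat.cast_ne_zero.mpr (NeZero.ne d)
  have h1 : ((γ • aff a b d τ : ℍ) : ℂ) = τ := by rw [hγ]
  rw [coe_sl_smul, coe_aff] at h1
  have hden := sl_denom_ne_zero γ (aff a b d τ)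
  rw [coe_aff] at hden
  rw [div_eq_iff hden] at h1
  have hdet := sl_det γ
  set p := γ 0 0
  set q := γ 0 1
  set r := γ 1 0
  set s := γ 1 1
  refine ⟨r * a, r * b + s * d - p * a, -(p * b + q * d), p * a + r * b + s * d, ?_, ?_⟩
  · push_cast
    field_simp at h1
    linear_combination -h1
  · have : (ℓ : ℤ) = a * d := by exact_mod_cast hℓ.symm
    rw [this]
    linear_combination (-4 * a * d : ℤ) * hdet

theorem quad_of_diag (ℓ : ℕ) [Fact ℓ.Prime] [NeZero ℓ] {τ : ℍ} (h : diagF ℓ τ = 0) :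
    ∃ x y z t : ℤ, (x : ℂ) * (τ : ℂ) ^ 2 + y * τ + z = 0 ∧ y ^ 2 - 4 * x * z = t ^ 2 - 4 * ℓ := by
  rw [diagF, mul_eq_zero, Finset.prod_eq_zero_iff] at h
  rcases h with h | ⟨b, -, h⟩
  · exact quad_of_aff (mul_one ℓ) (b := 0) (sub_eq_zero.mp h)
  · exact quad_of_aff (one_mul ℓ) (b := b) (sub_eq_zero.mp h)

/-- no linear relation -/
theorem linear_zero {τ : ℍ} {y z : ℤ} (h : (y : ℂ) * τ + z = 0) : y = 0 ∧ z = 0 := by
  have h1 := congrArg Complex.im h
  simp only [Complex.add_im, Complex.mul_im, Complex.intCast_re, Complex.intCast_im, zero_mul,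
    add_zero, UpperHalfPlane.coe_im, Complex.zero_im] at h1
  have h2 : (y : ℝ) = 0 := (mul_eq_zero.mp h1).resolve_right τ.im_pos.ne'
  have h3 : y = 0 := by exact_mod_cast h2
  rw [h3] at h
  refine ⟨h3, ?_⟩
  simpa using h

/-- the primitive relation -/
theorem exists_prim {τ : ℍ} {x y z : ℤ} (hx : x ≠ 0) (h : (x : ℂ) * (τ : ℂ) ^ 2 + y * τ + z = 0) :
    ∃ a b c : ℤ, 0 < a ∧ (a : ℂ) * (τ : ℂ) ^ 2 + b * τ + c = 0 ∧
      ∀ x y z : ℤ, (x : ℂ) * (τ : ℂ) ^ 2 + y * τ + z = 0 →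
        ∃ m : ℤ, x = m * a ∧ y = m * b ∧ z = m * c := by
  classical
  have hex : ∃ n : ℕ, 0 < n ∧ ∃ y z : ℤ, ((n : ℤ) : ℂ) * (τ : ℂ) ^ 2 + y * τ + z = 0 := by
    rcases lt_or_gt_of_ne hx with hx | hx
    · refine ⟨x.natAbs, by omega, -y, -z, ?_⟩
      have : ((x.natAbs : ℕ) : ℤ) = -x := by omega
      rw [this]
      push_cast
      linear_combination -h
    · refine ⟨x.natAbs, by omega, y, z, ?_⟩
      have : ((x.natAbs : ℕ) : ℤ) = x := by omega
      rw [this]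
      exact h
  obtain ⟨hn, b, c, hbc⟩ := Nat.find_spec hex
  set n := Nat.find hex with hndef
  refine ⟨n, b, c, by exact_mod_cast hn, hbc, fun x y z h => ?_⟩
  have hn0 : (0 : ℤ) < n := by exact_mod_cast hn
  have hdiv := Int.emod_add_mul_ediv x n
  have hnn := Int.emod_nonneg x hn0.ne'
  have hlt := Int.emod_lt_of_pos x hn0
  have h1 : ((x % n : ℤ) : ℂ) * (τ : ℂ) ^ 2 + ((y - x / n * b : ℤ) : ℂ) * τ +
      ((z - x / n * c : ℤ) : ℂ) = 0 := by
    have h2 : ((x % n : ℤ) : ℂ) = x - n * ((x / n : ℤ) : ℂ) := by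
      have := congrArg (fun k : ℤ => (k : ℂ)) hdiv
      push_cast at this
      linear_combination this
    rw [h2]
    push_cast at hbc ⊢
    linear_combination h - ((x / n : ℤ) : ℂ) * hbc
  have h3 : x % n = 0 := by
    by_contra hne
    have h4 : 0 < (x % n).natAbs := by omega
    have h5 := Nat.find_min hex (m := (x % n).natAbs) (by omega)
    apply h5
    refine ⟨h4, y - x / n * b, z - x / n * c, ?_⟩
    have : (((x % n).natAbs : ℕ) : ℤ) = x % n := by omega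
    rw [this]
    exact h1
  rw [h3] at h1
  have h4 := linear_zero (τ := τ) (y := y - x / n * b) (z := z - x / n * c) (by
    simpa using h1)
  refine ⟨x / n, ?_, by linarith [h4.1], by linarith [h4.2]⟩
  rw [h3, zero_add] at hdiv
  linarith

/-- the coordinates of a quadratic point -/
theorem coords' {τ : ℍ} {a b c : ℤ} (ha : 0 < a)
    (h : (a : ℂ) * (τ : ℂ) ^ 2 + b * τ + c = 0) :
    2 * a * τ.re = -b ∧ a * Complex.normSq τ = c ∧ 4 * a ^ 2 * τ.im ^ 2 = 4 * a * c - b ^ 2 := by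
  have ha' : (0 : ℝ) < a := by exact_mod_cast ha
  have h1 := congrArg Complex.im h
  have h2 := congrArg Complex.re h
  simp only [pow_two, Complex.add_im, Complex.mul_im, Complex.add_re,
    Complex.mul_re, Complex.intCast_re, Complex.intCast_im, Complex.zero_im,
    Complex.zero_re, zero_mul, add_zero, sub_zero, UpperHalfPlane.coe_re,
    UpperHalfPlane.coe_im] at h1 h2
  have h3 : 2 * a * τ.re = -b := by
    have h4 : τ.im * (2 * a * τ.re + b) = 0 := by linear_combination h1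
    rcases mul_eq_zero.mp h4 with h5 | h5
    · exact absurd h5 τ.im_pos.ne'
    · linear_combination h5
  refine ⟨h3, ?_, ?_⟩
  · rw [Complex.normSq_apply]
    simp only [UpperHalfPlane.coe_re, UpperHalfPlane.coe_im]
    linear_combination -h2 + τ.re * h3
  · linear_combination -4 * a * h2 + (2 * a * τ.re + b) * h3

/-- a point of the upper half plane is determined by its quadratic equation -/
theorem eq_of_quad {τ α : ℍ} {b c : ℤ} (h : (τ : ℂ) ^ 2 + b * τ + c = 0)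
    (h' : (α : ℂ) ^ 2 + b * α + c = 0) : τ = α := by
  have h1 : ((τ : ℂ) - α) * (τ + α + b) = 0 := by linear_combination h - h'
  rcases mul_eq_zero.mp h1 with h2 | h2
  · exact UpperHalfPlane.ext (sub_eq_zero.mp h2)
  · exfalso
    have h3 := congrArg Complex.im h2
    simp only [Complex.add_im, UpperHalfPlane.coe_im, Complex.intCast_im, Complex.zero_im,
      add_zero] at h3
    have := τ.im_pos
    have := α.im_pos
    linarith

/-- `α = (1 + √(1-4k))/2` has an endomorphism of norm `k + x² + x` -/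
theorem diag_alpha (ℓ : ℕ) [hℓ : Fact ℓ.Prime] [NeZero ℓ] {α : ℍ} {k x : ℤ}
    (hα : (α : ℂ) ^ 2 - α + k = 0) (hx : (ℓ : ℤ) = k + x ^ 2 + x) : diagF ℓ α = 0 := by
  obtain ⟨Q, -, hQ⟩ := exists_diagPoly ℓ
  have hℓ0 : (ℓ : ℂ) ≠ 0 := Nat.cast_ne_zero.mpr (NeZero.ne ℓ)
  have hx' : (ℓ : ℂ) = k + x ^ 2 + x := by exact_mod_cast hx
  set α' : ℍ := ModularGroup.T ^ x • α with hα'
  have e1 : (α' : ℂ) = α + x := ModularGroup.coe_T_zpow_smul_eq α
  have e2 : (α' : ℂ) ^ 2 - (2 * x + 1) * α' + ℓ = 0 := by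
    rw [e1, hx']
    linear_combination hα
  set τ₀ : ℍ := aff 1 0 ℓ α' with hτ₀
  have e3 : aff ℓ 0 1 τ₀ = α' := mul_div_pt ℓ α'
  have e4 : ModularGroup.T ^ (2 * x + 1) • ModularGroup.S • τ₀ = α' := by
    ext1
    have h0 := α'.ne_zero
    rw [ModularGroup.coe_T_zpow_smul_eq, coe_S, hτ₀, coe_div_pt]
    push_cast
    field_simp
    linear_combination -e2
  have e5 : jinv τ₀ = jinv α' := by
    rw [← jinv_smul ModularGroup.S, ← jinv_smul (ModularGroup.T ^ (2 * x + 1)), e4]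
  have e6 : jinv α' = jinv α := jinv_smul _ _
  have e7 : diagF ℓ τ₀ = 0 := by
    have h1 : jFun (aff ℓ 0 1 τ₀) = jFun τ₀ := by
      rw [e3]
      exact e5.symm
    rw [diagF, h1, sub_self, zero_mul]
  rw [← hQ, ← e6, ← e5, hQ, e7]

/-- points with endomorphisms of the norms `ℓ₁` and `ℓ₂` are equivalent to `α` -/
theorem unique_root (ℓ₁ ℓ₂ : ℕ) [hℓ₁ : Fact ℓ₁.Prime] [hℓ₂ : Fact ℓ₂.Prime] [NeZero ℓ₁] [NeZero ℓ₂]
    {α : ℍ} {k : ℤ} (hα : (α : ℂ) ^ 2 - α + k = 0)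
    (hfin : ∀ d m t m' t' : ℤ, 0 < d → d * m ^ 2 + t ^ 2 = 4 * ℓ₁ → d * m' ^ 2 + t' ^ 2 = 4 * ℓ₂ →
      d = 4 * k - 1)
    (hred : ∀ a b c : ℤ, 0 < a → -a ≤ b → b ≤ a → a ≤ c → 4 * a * c - b ^ 2 = 4 * k - 1 →
      a = 1 ∧ c = k ∧ (b = 1 ∨ b = -1))
    {τ' : ℍ} (h₁ : diagF ℓ₁ τ' = 0) (h₂ : diagF ℓ₂ τ' = 0) : jinv τ' = jinv α := by
  obtain ⟨γ, hγ⟩ := ModularGroup.exists_smul_mem_fd τ'
  rw [← jinv_smul γ τ']
  have h₁' : diagF ℓ₁ (γ • τ') = 0 := by rw [diagF_smul, h₁]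
  have h₂' : diagF ℓ₂ (γ • τ') = 0 := by rw [diagF_smul, h₂]
  generalize γ • τ' = τ at *
  obtain ⟨x, y, z, t, hq, ht⟩ := quad_of_diag ℓ₁ h₁'
  obtain ⟨x', y', z', t', hq', ht'⟩ := quad_of_diag ℓ₂ h₂'
  have hx : x ≠ 0 := by
    rintro rfl
    have h3 := linear_zero (τ := τ) (y := y) (z := z) (by simpa using hq)
    rw [h3.1, h3.2] at ht
    have h4 : t ^ 2 = 4 * ℓ₁ := by linear_combination -ht
    have h5 : (2 : ℤ) ∣ t := Int.prime_two.dvd_of_dvd_pow (n := 2) (by rw [h4]; exact ⟨2 * ℓ₁, by ring⟩)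
    obtain ⟨u, rfl⟩ := h5
    have h6 : u ^ 2 = ℓ₁ := by linarith
    have h7 : u.natAbs ^ 2 = ℓ₁ := by
      have := congrArg Int.natAbs h6
      rwa [Int.natAbs_pow, Int.natAbs_natCast] at this
    have h8 := hℓ₁.out
    rw [← h7] at h8
    exact Nat.Prime.not_prime_pow (le_refl 2) h8
  obtain ⟨a, b, c, ha, habc, hall⟩ := exists_prim hx hq
  obtain ⟨m, rfl, rfl, rfl⟩ := hall _ _ _ hq
  obtain ⟨m', rfl, rfl, rfl⟩ := hall _ _ _ hq'
  obtain ⟨c1, c2, c3⟩ := coords' ha habc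
  have ha' : (0 : ℝ) < a := by exact_mod_cast ha
  have hd : 0 < 4 * a * c - b ^ 2 := by
    have : (0 : ℝ) < 4 * a * c - b ^ 2 := by
      rw [← c3]
      have := τ.im_pos
      positivity
    exact_mod_cast this
  have hD := hfin (4 * a * c - b ^ 2) m t m' t' hd (by linear_combination -ht)
    (by linear_combination -ht')
  obtain ⟨f1, f2⟩ := hγ
  have g1 : -a ≤ b ∧ b ≤ a := by
    rw [abs_le] at f2
    constructor
    · have : -(a : ℝ) ≤ b := by nlinarith [f2.1, f2.2]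
      exact_mod_cast this
    · have : (b : ℝ) ≤ a := by nlinarith [f2.1, f2.2]
      exact_mod_cast this
  have g2 : a ≤ c := by
    have : (a : ℝ) ≤ c := by nlinarith
    exact_mod_cast this
  obtain ⟨rfl, rfl, hb⟩ := hred a b c ha g1.1 g1.2 g2 hD
  rcases hb with rfl | rfl
  · have e : ModularGroup.T • τ = α := by
      refine eq_of_quad (b := -1) (c := c) ?_ (by push_cast; linear_combination hα)
      rw [coe_T]
      push_cast at habc ⊢
      linear_combination habc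
    rw [← jinv_smul ModularGroup.T, e]
  · have e : τ = α := by
      refine eq_of_quad (b := -1) (c := c) ?_ (by push_cast; linear_combination hα)
      push_cast at habc ⊢
      linear_combination habc
    rw [e]

/-- **`j(α)` is an integer** -/
theorem exists_int (ℓ₁ ℓ₂ : ℕ) [hℓ₁ : Fact ℓ₁.Prime] [hℓ₂ : Fact ℓ₂.Prime] [NeZero ℓ₁] [NeZero ℓ₂]
    {α : ℍ} {k x₁ x₂ : ℤ} (hα : (α : ℂ) ^ 2 - α + k = 0)
    (hx₁ : (ℓ₁ : ℤ) = k + x₁ ^ 2 + x₁) (hx₂ : (ℓ₂ : ℤ) = k + x₂ ^ 2 + x₂)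
    (hfin : ∀ d m t m' t' : ℤ, 0 < d → d * m ^ 2 + t ^ 2 = 4 * ℓ₁ → d * m' ^ 2 + t' ^ 2 = 4 * ℓ₂ →
      d = 4 * k - 1)
    (hred : ∀ a b c : ℤ, 0 < a → -a ≤ b → b ≤ a → a ≤ c → 4 * a * c - b ^ 2 = 4 * k - 1 →
      a = 1 ∧ c = k ∧ (b = 1 ∨ b = -1)) : ∃ n : ℤ, jinv α = n := by
  have h₁ := diag_alpha ℓ₁ hα hx₁
  have h₂ := diag_alpha ℓ₂ hα hx₂
  have hint : IsIntegral ℤ (jinv α) := isIntegral_jinv ℓ₁ h₁
  have hintQ : IsIntegral ℚ (jinv α) := hint.tower_top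
  obtain ⟨Q₁, -, hQ₁⟩ := exists_diagPoly ℓ₁
  obtain ⟨Q₂, -, hQ₂⟩ := exists_diagPoly ℓ₂
  set f := minpoly ℚ (jinv α) with hf
  have hd₁ : f ∣ Q₁.map (algebraMap ℤ ℚ) := minpoly.dvd ℚ _ (by
    rw [Polynomial.aeval_map_algebraMap, hQ₁, h₁])
  have hd₂ : f ∣ Q₂.map (algebraMap ℤ ℚ) := minpoly.dvd ℚ _ (by
    rw [Polynomial.aeval_map_algebraMap, hQ₂, h₂])
  have hroot : ∀ β ∈ f.aroots ℂ, β = jinv α := by
    intro β hβ
    have hβ0 : Polynomial.aeval β f = 0 := (Polynomial.mem_aroots.mp hβ).2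
    obtain ⟨τ, rfl⟩ := jinv_surjective β
    have e₁ : diagF ℓ₁ τ = 0 := by
      rw [← hQ₁, ← Polynomial.aeval_map_algebraMap ℚ]
      exact Polynomial.aeval_eq_zero_of_dvd_aeval_eq_zero hd₁ hβ0
    have e₂ : diagF ℓ₂ τ = 0 := by
      rw [← hQ₂, ← Polynomial.aeval_map_algebraMap ℚ]
      exact Polynomial.aeval_eq_zero_of_dvd_aeval_eq_zero hd₂ hβ0
    exact unique_root ℓ₁ ℓ₂ hα hfin hred e₁ e₂
  have hirr : Irreducible f := minpoly.irreducible hintQ
  have hsplit : (f.map (algebraMap ℚ ℂ)).Splits := IsAlgClosed.splits _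
  have hnodup : (f.aroots ℂ).Nodup := (Polynomial.nodup_aroots_iff_of_splits hirr.ne_zero hsplit).mpr
    hirr.separable
  have hcard : (f.aroots ℂ).card ≤ 1 := by
    have h1 : f.aroots ℂ ≤ {jinv α} := by
      rw [Multiset.le_iff_subset hnodup]
      intro β hβ
      rw [Multiset.mem_singleton]
      exact hroot β hβ
    simpa using Multiset.card_le_card h1
  have hdeg : f.natDegree = 1 := by
    have h1 : (f.map (algebraMap ℚ ℂ)).natDegree = (f.aroots ℂ).card :=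
      hsplit.natDegree_eq_card_roots
    rw [Polynomial.natDegree_map] at h1
    have h2 := hirr.natDegree_pos
    omega
  obtain ⟨r, hr⟩ := minpoly.natDegree_eq_one_iff.mp hdeg
  have hr' : IsIntegral ℤ r := by
    rw [← hr] at hint
    exact (isIntegral_algebraMap_iff (algebraMap ℚ ℂ).injective).mp hint
  obtain ⟨n, hn⟩ := IsIntegrallyClosed.algebraMap_eq_of_integral hr'
  refine ⟨n, ?_⟩
  rw [← hr, ← hn]
  simp

/-- the reduction of the finite check to natural numbers -/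
theorem to_nat {d m t : ℤ} {N B : ℕ} (hd : 0 < d) (hB : N < B * B)
    (hns : ∀ s < B, s * s ≠ N) (h : d * m ^ 2 + t ^ 2 = N) :
    d.natAbs ≤ N ∧ m.natAbs < B ∧ t.natAbs < B ∧
      d.natAbs * (m.natAbs * m.natAbs) + t.natAbs * t.natAbs = N := by
  have e : d.natAbs * (m.natAbs * m.natAbs) + t.natAbs * t.natAbs = N := by
    have h1 : ((d.natAbs * (m.natAbs * m.natAbs) + t.natAbs * t.natAbs : ℕ) : ℤ) = N := by
      push_cast
      rw [abs_of_pos hd, abs_mul_abs_self, abs_mul_abs_self]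
      linear_combination h
    exact_mod_cast h1
  have hd' : 1 ≤ d.natAbs := by omega
  have ht : t.natAbs < B := by nlinarith
  have hm0 : m.natAbs ≠ 0 := by
    intro h0
    rw [h0] at e
    exact hns _ ht (by simpa using e)
  have hm1 : 1 ≤ m.natAbs := by omega
  have hm2 : 1 ≤ m.natAbs * m.natAbs := Nat.mul_le_mul hm1 hm1
  have hm3 : d.natAbs * 1 ≤ d.natAbs * (m.natAbs * m.natAbs) := Nat.mul_le_mul_left _ hm2
  have hm4 : 1 * (m.natAbs * m.natAbs) ≤ d.natAbs * (m.natAbs * m.natAbs) :=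
    Nat.mul_le_mul_right _ hd'
  refine ⟨by omega, ?_, ht, e⟩
  by_contra! hlt
  have := Nat.mul_le_mul hlt hlt
  omega

theorem fin163 : ∀ t : Fin 13, ∀ m : Fin 13, ∀ d : Fin 165, (d : ℕ) * (m * m) + t * t = 164 →
    ∀ t' : Fin 30, ∀ m' : Fin 30, (d : ℕ) * (m' * m') + t' * t' = 892 → (d : ℕ) = 163 := by
  decide +kernel

theorem fin67 : ∀ t : Fin 9, ∀ m : Fin 9, ∀ d : Fin 77, (d : ℕ) * (m * m) + t * t = 76 →
    ∀ t' : Fin 11, ∀ m' : Fin 11, (d : ℕ) * (m' * m') + t' * t' = 116 → (d : ℕ) = 67 := by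
  decide +kernel

theorem fin43 : ∀ t : Fin 7, ∀ m : Fin 7, ∀ d : Fin 45, (d : ℕ) * (m * m) + t * t = 44 →
    ∀ t' : Fin 8, ∀ m' : Fin 8, (d : ℕ) * (m' * m') + t' * t' = 52 → (d : ℕ) = 43 := by
  decide +kernel

theorem fin19 : ∀ t : Fin 5, ∀ m : Fin 5, ∀ d : Fin 21, (d : ℕ) * (m * m) + t * t = 20 →
    ∀ t' : Fin 6, ∀ m' : Fin 6, (d : ℕ) * (m' * m') + t' * t' = 28 → (d : ℕ) = 19 := by
  decide +kernel

instance : Fact (Nat.Prime 223) := ⟨by norm_num⟩
instance : Fact (Nat.Prime 41) := ⟨by norm_num⟩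
instance : Fact (Nat.Prime 29) := ⟨by norm_num⟩
instance : Fact (Nat.Prime 19) := ⟨by norm_num⟩
instance : Fact (Nat.Prime 13) := ⟨by norm_num⟩
instance : Fact (Nat.Prime 11) := ⟨by norm_num⟩
instance : Fact (Nat.Prime 7) := ⟨by norm_num⟩
instance : Fact (Nat.Prime 5) := ⟨by norm_num⟩

/-- **`j((1 + √-163)/2)` is an integer** -/
theorem jinv_163_int {α : ℍ} (hα : (α : ℂ) ^ 2 - α + 41 = 0) : ∃ n : ℤ, jinv α = n := by
  refine exists_int 41 223 (k := 41) (x₁ := 0) (x₂ := 13) (by push_cast; exact hα)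
    (by norm_num) (by norm_num) ?_ ?_
  · intro d m t m' t' hd h h'
    obtain ⟨a1, a2, a3, a4⟩ := to_nat (d := d) (m := m) (t := t) (N := 164) (B := 13) hd (by norm_num) (by decide)
      (by push_cast; linear_combination h)
    obtain ⟨b1, b2, b3, b4⟩ := to_nat (d := d) (m := m') (t := t') (N := 892) (B := 30) hd (by norm_num) (by decide)
      (by push_cast; linear_combination h')
    have := fin163 ⟨_, a3⟩ ⟨_, a2⟩ ⟨d.natAbs, by omega⟩ a4 ⟨_, b3⟩ ⟨_, b2⟩ b4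
    simp only at this
    omega
  · intro a b c ha h1 h2 h3 h4
    have h5 : a ≤ 7 := by nlinarith
    interval_cases a <;> interval_cases b <;> omega

/-- **`j((1 + √-67)/2)` is an integer** -/
theorem jinv_67_int {α : ℍ} (hα : (α : ℂ) ^ 2 - α + 17 = 0) : ∃ n : ℤ, jinv α = n := by
  refine exists_int 19 29 (k := 17) (x₁ := 1) (x₂ := 3) (by push_cast; exact hα)
    (by norm_num) (by norm_num) ?_ ?_
  · intro d m t m' t' hd h h'
    obtain ⟨a1, a2, a3, a4⟩ := to_nat (d := d) (m := m) (t := t) (N := 76) (B := 9) hd (by norm_num) (by decide)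
      (by push_cast; linear_combination h)
    obtain ⟨b1, b2, b3, b4⟩ := to_nat (d := d) (m := m') (t := t') (N := 116) (B := 11) hd (by norm_num) (by decide)
      (by push_cast; linear_combination h')
    have := fin67 ⟨_, a3⟩ ⟨_, a2⟩ ⟨d.natAbs, by omega⟩ a4 ⟨_, b3⟩ ⟨_, b2⟩ b4
    simp only at this
    omega
  · intro a b c ha h1 h2 h3 h4
    have h5 : a ≤ 4 := by nlinarith
    interval_cases a <;> interval_cases b <;> omega

/-- **`j((1 + √-43)/2)` is an integer** -/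
theorem jinv_43_int {α : ℍ} (hα : (α : ℂ) ^ 2 - α + 11 = 0) : ∃ n : ℤ, jinv α = n := by
  refine exists_int 11 13 (k := 11) (x₁ := 0) (x₂ := 1) (by push_cast; exact hα)
    (by norm_num) (by norm_num) ?_ ?_
  · intro d m t m' t' hd h h'
    obtain ⟨a1, a2, a3, a4⟩ := to_nat (d := d) (m := m) (t := t) (N := 44) (B := 7) hd (by norm_num) (by decide)
      (by push_cast; linear_combination h)
    obtain ⟨b1, b2, b3, b4⟩ := to_nat (d := d) (m := m') (t := t') (N := 52) (B := 8) hd (by norm_num) (by decide)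
      (by push_cast; linear_combination h')
    have := fin43 ⟨_, a3⟩ ⟨_, a2⟩ ⟨d.natAbs, by omega⟩ a4 ⟨_, b3⟩ ⟨_, b2⟩ b4
    simp only at this
    omega
  · intro a b c ha h1 h2 h3 h4
    have h5 : a ≤ 3 := by nlinarith
    interval_cases a <;> interval_cases b <;> omega

/-- **`j((1 + √-19)/2)` is an integer** -/
theorem jinv_19_int {α : ℍ} (hα : (α : ℂ) ^ 2 - α + 5 = 0) : ∃ n : ℤ, jinv α = n := by
  refine exists_int 5 7 (k := 5) (x₁ := 0) (x₂ := 1) (by push_cast; exact hα)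
    (by norm_num) (by norm_num) ?_ ?_
  · intro d m t m' t' hd h h'
    obtain ⟨a1, a2, a3, a4⟩ := to_nat (d := d) (m := m) (t := t) (N := 20) (B := 5) hd (by norm_num) (by decide)
      (by push_cast; linear_combination h)
    obtain ⟨b1, b2, b3, b4⟩ := to_nat (d := d) (m := m') (t := t') (N := 28) (B := 6) hd (by norm_num) (by decide)
      (by push_cast; linear_combination h')
    have := fin19 ⟨_, a3⟩ ⟨_, a2⟩ ⟨d.natAbs, by omega⟩ a4 ⟨_, b3⟩ ⟨_, b2⟩ b4
    simp only at this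
    omega
  · intro a b c ha h1 h2 h3 h4
    have h5 : a ≤ 2 := by nlinarith
    interval_cases a <;> interval_cases b <;> omega

end Fermat.Agent.Cor.Unif
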