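import Fermat.Agent.Corollaries.Unif.Conj
import Fermat.Agent.Corollaries.Kro.Final

/-!
# The conjugates of a singular modulus and the class polynomial

For `τ` imaginary quadratic of discriminant `D` and an automorphism `σ` of `ℂ`, `σ(j(τ)) = j(τ')`
with `τ'` of the same discriminant `D`. Hence `H_D = ∏ (X - j(τ))` has integer coefficients.
-/

set_option autoImplicit false

open UpperHalfPlane Complex
open scoped PeriodPair MatrixGroups

noncomputable section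

namespace Fermat.Agent.Cor.Unif

open Fermat.Agent.Moduli Fermat.Agent.Cor.Tau

/-- `τ` is a root of `aX² + bX + c`, `a > 0`, `gcd(a, b, c) = 1`, `b² - 4ac = D` -/
def HasDisc (D : ℤ) (τ : ℍ) : Prop :=
  ∃ a b c : ℤ, 0 < a ∧ (∀ d : ℤ, d ∣ a → d ∣ b → d ∣ c → IsUnit d) ∧
    (a : ℂ) * (τ : ℂ) ^ 2 + b * τ + c = 0 ∧ b ^ 2 - 4 * a * c = D

theorem disc_neg {τ : ℍ} {a b c : ℤ} (ha : 0 < a) (h : (a : ℂ) * (τ : ℂ) ^ 2 + b * τ + c = 0) :
    b ^ 2 - 4 * a * c < 0 := by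
  obtain ⟨-, -, h3⟩ := coords' ha h
  have h4 : (0 : ℝ) < 4 * a ^ 2 * τ.im ^ 2 := by
    have := τ.im_pos
    have : (0 : ℝ) < a := by exact_mod_cast ha
    positivity
  rw [h3] at h4
  have h5 : (0 : ℤ) < 4 * a * c - b ^ 2 := by exact_mod_cast h4
  linarith

theorem HasDisc.neg {D : ℤ} {τ : ℍ} (h : HasDisc D τ) : D < 0 := by
  obtain ⟨a, b, c, ha, -, hr, rfl⟩ := h
  exact disc_neg ha hr

theorem prim_dvd {τ : ℍ} {a b c : ℤ} (ha : 0 < a)
    (hp : ∀ d : ℤ, d ∣ a → d ∣ b → d ∣ c → IsUnit d)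
    (h : (a : ℂ) * (τ : ℂ) ^ 2 + b * τ + c = 0) {x y z : ℤ}
    (h' : (x : ℂ) * (τ : ℂ) ^ 2 + y * τ + z = 0) : ∃ m : ℤ, x = m * a ∧ y = m * b ∧ z = m * c := by
  obtain ⟨a₀, b₀, c₀, ha₀, -, hall⟩ := exists_prim ha.ne' h
  obtain ⟨m₀, e1, e2, e3⟩ := hall a b c h
  have hu : IsUnit m₀ := hp m₀ ⟨a₀, e1⟩ ⟨b₀, e2⟩ ⟨c₀, e3⟩
  rcases Int.isUnit_iff.mp hu with rfl | rfl
  · rw [one_mul] at e1 e2 e3
    subst e1 e2 e3
    exact hall x y z h'
  · omega

theorem exists_hasDisc {τ : ℍ} {x y z : ℤ} (hx : x ≠ 0)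
    (h : (x : ℂ) * (τ : ℂ) ^ 2 + y * τ + z = 0) :
    ∃ D m : ℤ, HasDisc D τ ∧ y ^ 2 - 4 * x * z = m ^ 2 * D := by
  obtain ⟨a, b, c, ha, h0, hall⟩ := exists_prim hx h
  obtain ⟨m, rfl, rfl, rfl⟩ := hall x y z h
  refine ⟨b ^ 2 - 4 * a * c, m, ⟨a, b, c, ha, ?_, h0, rfl⟩, by ring⟩
  rintro d ⟨a', hd1⟩ ⟨b', hd2⟩ ⟨c', hd3⟩
  have hd : d ≠ 0 := by
    rintro rfl
    rw [zero_mul] at hd1
    omega
  have h1 : (a' : ℂ) * (τ : ℂ) ^ 2 + b' * τ + c' = 0 := by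
    have h2 : (d : ℂ) ≠ 0 := by exact_mod_cast hd
    apply mul_left_cancel₀ h2
    rw [hd1, hd2, hd3] at h0
    push_cast at h0
    linear_combination h0
  obtain ⟨k, hk, -, -⟩ := hall a' b' c' h1
  refine IsUnit.of_mul_eq_one k ?_
  have h3 : d * k * a = 1 * a := by
    rw [one_mul]
    calc d * k * a = d * (k * a) := by ring
      _ = d * a' := by rw [← hk]
      _ = a := hd1.symm
  exact mul_right_cancel₀ ha.ne' h3

theorem quad_of_conj (σ : ℂ →+* ℂ) {τ τ' : ℍ} (hj : jinv τ' = σ (jinv τ)) {D : ℤ}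
    (h : HasDisc D τ) : ∃ x y z : ℤ, x ≠ 0 ∧ (x : ℂ) * (τ' : ℂ) ^ 2 + y * τ' + z = 0 ∧
      y ^ 2 - 4 * x * z = D := by
  obtain ⟨a, b, c, ha, -, hr, hD⟩ := h
  have hneg := disc_neg ha hr
  set L := mkPP 1 one_ne_zero τ with hL
  have hd : (σ L.g₂) ^ 3 - 27 * (σ L.g₃) ^ 2 ≠ 0 := by
    have := (map_ne_zero σ).mpr (disc_ne_zero L)
    simpa only [map_sub, map_mul, map_pow, map_ofNat] using this
  obtain ⟨L', h2, h3⟩ := exists_lattice hd
  have hj' : (curve L').j = (curve (mkPP 1 one_ne_zero τ')).j := by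
    rw [curve_j_mkPP, hj, curve_j, h2, h3, ← curve_j_mkPP 1 one_ne_zero τ, curve_j]
    simp only [map_div₀, map_sub, map_mul, map_pow, map_ofNat]
    rfl
  obtain ⟨α, hα, hαL⟩ := ((homothetic_iff L' (mkPP 1 one_ne_zero τ')).out 2 0).mp hj'
  have hmul : ∀ l ∈ L.lattice, (a * (τ : ℂ)) * l ∈ L.lattice := by
    intro l hl
    rw [hL, mem_mkPP] at hl ⊢
    obtain ⟨m, n, rfl⟩ := hl
    refine ⟨-(n * c), a * m - n * b, ?_⟩
    push_cast
    linear_combination -(n : ℂ) * hr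
  have hs : ∀ l ∈ (mkPP 1 one_ne_zero τ').lattice,
      σ (a * (τ : ℂ)) * l ∈ (mkPP 1 one_ne_zero τ').lattice := by
    intro l hl
    have h4 : l / α ∈ L'.lattice := (hαL _).mpr (by rwa [mul_div_cancel₀ _ hα])
    have h5 := mul_mem_of_conj σ h2 h3 hmul h4
    have h6 := (hαL _).mp h5
    have h7 : α * (σ (a * (τ : ℂ)) * (l / α)) = σ (a * (τ : ℂ)) * l := by field_simp
    rwa [h7] at h6
  set s := σ (a * (τ : ℂ)) with hsdef
  have hs2 : s ^ 2 + b * s + a * c = 0 := by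
    have h4 : (a * (τ : ℂ)) ^ 2 + b * (a * (τ : ℂ)) + a * c = 0 := by
      linear_combination (a : ℂ) * hr
    have h5 := congrArg σ h4
    simpa only [map_add, map_mul, map_pow, map_intCast, map_zero, ← hsdef] using h5
  obtain ⟨p, q, hpq⟩ := mem_mkPP.mp (hs 1 (mem_mkPP.mpr ⟨1, 0, by simp⟩))
  obtain ⟨r, t, hrt⟩ := mem_mkPP.mp (hs τ' (mem_mkPP.mpr ⟨0, 1, by simp⟩))
  have e1 : s = p + q * τ' := by linear_combination -hpq
  have e2 : s * τ' = r + t * τ' := by linear_combination -hrt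
  have hq : q ≠ 0 := by
    rintro rfl
    have e3 : s = p := by simpa using e1
    rw [e3] at hs2
    have e4 : p ^ 2 + b * p + a * c = 0 := by exact_mod_cast hs2
    have e5 : b ^ 2 - 4 * a * c = (2 * p + b) ^ 2 := by linear_combination -4 * e4
    have e6 := sq_nonneg (2 * p + b)
    linarith
  have e3 : (q : ℂ) * (τ' : ℂ) ^ 2 + ((p - t : ℤ) : ℂ) * τ' + ((-r : ℤ) : ℂ) = 0 := by
    push_cast
    rw [e1] at e2
    linear_combination e2
  have e4 : (((b + p + t) * q : ℤ) : ℂ) * τ' + (((b + p + t) * p + (a * c - p * t + q * r) : ℤ) : ℂ) =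
      0 := by
    push_cast at e3 ⊢
    rw [e1] at hs2
    linear_combination hs2 - (q : ℂ) * e3
  obtain ⟨e5, e6⟩ := linear_zero e4
  have e7 : b + p + t = 0 := (mul_eq_zero.mp e5).resolve_right hq
  refine ⟨q, p - t, -r, hq, e3, ?_⟩
  rw [e7, zero_mul, zero_add] at e6
  rw [← hD]
  linear_combination (p + t - b) * e7 + 4 * e6

/-- **the conjugates of a singular modulus are singular moduli of the same discriminant** -/
theorem hasDisc_conj (σ : ℂ ≃+* ℂ) {τ τ' : ℍ} (hj : jinv τ' = σ (jinv τ)) {D : ℤ}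
    (h : HasDisc D τ) : HasDisc D τ' := by
  obtain ⟨x, y, z, hx, hr, hD⟩ := quad_of_conj (σ : ℂ →+* ℂ) hj h
  obtain ⟨D', m, hD', e1⟩ := exists_hasDisc hx hr
  obtain ⟨x₂, y₂, z₂, -, hr₂, hD₂⟩ := quad_of_conj (σ.symm : ℂ →+* ℂ) (τ := τ') (τ' := τ)
    (by rw [hj]; simp) hD'
  have hDneg := h.neg
  obtain ⟨a, b, c, ha, hp, hrel, hd⟩ := h
  obtain ⟨m₂, rfl, rfl, rfl⟩ := prim_dvd ha hp hrel hr₂
  have e2 : D' = m₂ ^ 2 * D := by rw [← hD₂, ← hd]; ring
  have e3 : D = m ^ 2 * D' := by rw [← hD, e1]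
  have e4 : m ^ 2 * m₂ ^ 2 * D = 1 * D := by
    rw [one_mul]
    conv_rhs => rw [e3, e2]
    ring
  have e5 : m ^ 2 * m₂ ^ 2 = 1 := mul_right_cancel₀ hDneg.ne e4
  have e6 : m ^ 2 = 1 := by
    have h1 : IsUnit (m ^ 2) := IsUnit.of_mul_eq_one _ e5
    rcases Int.isUnit_iff.mp h1 with h | h
    · exact h
    · nlinarith [sq_nonneg m]
  rw [e6, one_mul] at e3
  rw [e3]
  exact hD'

theorem hasDisc_smul {D : ℤ} (γ : SL(2, ℤ)) {τ : ℍ} (h : HasDisc D τ) : HasDisc D (γ • τ) :=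
  hasDisc_conj (RingEquiv.refl ℂ) (by rw [jinv_smul]; rfl) h

/-- the singular moduli of discriminant `D` -/
def jset (D : ℤ) : Set ℂ := {z | ∃ τ : ℍ, HasDisc D τ ∧ jinv τ = z}

theorem map_mem_jset (σ : ℂ ≃+* ℂ) {D : ℤ} {z : ℂ} (h : z ∈ jset D) : σ z ∈ jset D := by
  obtain ⟨τ, hτ, rfl⟩ := h
  obtain ⟨τ', hτ'⟩ := jinv_surjective (σ (jinv τ))
  exact ⟨τ', hasDisc_conj σ hτ' hτ, hτ'⟩

/-- there are only finitely many singular moduli of a given discriminant -/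
theorem jset_finite (D : ℤ) : (jset D).Finite := by
  classical
  set φ : ℤ × ℤ × ℤ → ℂ := fun t =>
    if h : ∃ τ : ℍ, (t.1 : ℂ) * (τ : ℂ) ^ 2 + t.2.1 * τ + t.2.2 = 0 then jinv h.choose else 0
    with hφ
  have hbox : ((Set.Icc (0 : ℤ) (-D)) ×ˢ ((Set.Icc D (-D)) ×ˢ
      (Set.Icc (0 : ℤ) (D ^ 2 - D)))).Finite :=
    (Set.finite_Icc _ _).prod ((Set.finite_Icc _ _).prod (Set.finite_Icc _ _))
  refine (hbox.image φ).subset ?_
  rintro z ⟨τ, hτ, rfl⟩
  obtain ⟨γ, hγ⟩ := ModularGroup.exists_smul_mem_fd τ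
  have h1 := hasDisc_smul γ hτ
  have hneg := h1.neg
  rw [← jinv_smul γ τ]
  generalize γ • τ = τ₁ at *
  obtain ⟨a, b, c, ha, -, hr, hD⟩ := h1
  obtain ⟨k1, k2, k3⟩ := coords' ha hr
  have ha' : (0 : ℝ) < a := by exact_mod_cast ha
  have hb : |b| ≤ a := by
    have h2 : |(b : ℝ)| ≤ a := by
      have h3 : |2 * a * τ₁.re| = |(b : ℝ)| := by rw [k1, abs_neg]
      rw [← h3, abs_mul, abs_of_pos (by positivity : (0 : ℝ) < 2 * a)]
      have := hγ.2
      nlinarith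
    exact_mod_cast h2
  have hc : a ≤ c := by
    have h2 : (a : ℝ) ≤ c := by
      rw [← k2]
      have := hγ.1
      nlinarith
    exact_mod_cast h2
  obtain ⟨hb1, hb2⟩ := abs_le.mp hb
  refine ⟨(a, b, c), ⟨⟨ha.le, ?_⟩, ⟨⟨?_, ?_⟩, ⟨by linarith, ?_⟩⟩⟩, ?_⟩
  · simp only
    nlinarith
  · simp only
    nlinarith
  · simp only
    nlinarith
  · simp only
    have h3 : b ^ 2 ≤ a ^ 2 := by nlinarith
    have h4 : a ≤ -D := by nlinarith
    have h5 : a ^ 2 ≤ D ^ 2 := by nlinarith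
    nlinarith
  · have hex : ∃ τ : ℍ, (a : ℂ) * (τ : ℂ) ^ 2 + b * τ + c = 0 := ⟨τ₁, hr⟩
    have h2 : φ (a, b, c) = jinv hex.choose := dif_pos hex
    rw [h2]
    congr 1
    obtain ⟨m1, m2, m3⟩ := coords' ha hex.choose_spec
    refine UpperHalfPlane.ext ?_
    apply Complex.ext
    · have h3 : (2 * (a : ℝ)) * (hex.choose).re = (2 * a) * τ₁.re := by rw [m1, k1]
      exact mul_left_cancel₀ (by positivity) h3
    · have h3 : (4 * (a : ℝ) ^ 2) * (hex.choose).im ^ 2 = (4 * a ^ 2) * τ₁.im ^ 2 := by rw [m3, k3]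
      have h4 := mul_left_cancel₀ (by positivity) h3
      exact (sq_eq_sq₀ (hex.choose).im_pos.le τ₁.im_pos.le).mp h4

open Polynomial in
/-- **the class polynomial `H_D = ∏ (X - j)` has integer coefficients** -/
theorem exists_classPoly (D : ℤ) : ∃ H : ℤ[X], H.Monic ∧ H.natDegree = (jset D).ncard ∧
    H.map (Int.castRingHom ℂ) = ∏ z ∈ (jset_finite D).toFinset, (X - C z) := by
  classical
  set S := (jset_finite D).toFinset with hS
  set P : ℂ[X] := ∏ z ∈ S, (X - C z) with hP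
  have hmem : ∀ z, z ∈ S ↔ z ∈ jset D := fun z => (jset_finite D).mem_toFinset
  have hmon : P.Monic := monic_prod_of_monic _ _ fun z _ => monic_X_sub_C z
  have hdeg : P.natDegree = (jset D).ncard := by
    rw [hP, natDegree_prod_of_monic _ _ fun z _ => monic_X_sub_C z]
    simp only [natDegree_X_sub_C, Finset.sum_const, smul_eq_mul, mul_one]
    rw [Set.ncard_eq_toFinset_card _ (jset_finite D)]
  have hfix : ∀ σ : ℂ ≃+* ℂ, P.map (σ : ℂ →+* ℂ) = P := by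
    intro σ
    rw [hP, Polynomial.map_prod]
    simp only [Polynomial.map_sub, Polynomial.map_X, Polynomial.map_C]
    refine Finset.prod_bij (fun z _ => σ z) ?_ ?_ ?_ ?_
    · intro z hz
      exact (hmem _).mpr (map_mem_jset σ ((hmem _).mp hz))
    · intro z _ w _ h
      exact σ.injective h
    · intro w hw
      exact ⟨σ.symm w, (hmem _).mpr (map_mem_jset σ.symm ((hmem _).mp hw)), σ.apply_symm_apply w⟩
    · intro z _
      rfl
  have hrat : ∀ k, ∃ r : ℚ, (r : ℂ) = P.coeff k := fun k =>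
    IntStruct.exists_rat_of_forall_ringEquiv_fixed _ fun σ => by
      have := congrArg (fun Q => Polynomial.coeff Q k) (hfix σ)
      simp only [coeff_map] at this
      exact this
  have hint : ∀ z ∈ S, IsIntegral ℤ z := by
    intro z hz
    obtain ⟨τ, ⟨a, b, c, ha, -, hr, -⟩, rfl⟩ := (hmem _).mp hz
    exact Kro.isIntegral_jinv ha.ne' hr
  have hcoeff : ∀ k, IsIntegral ℤ (P.coeff k) := by
    have h1 : P ∈ Polynomial.lifts (algebraMap (integralClosure ℤ ℂ) ℂ) := by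
      rw [hP]
      refine Subsemiring.prod_mem _ fun z hz => ?_
      refine (Polynomial.mem_lifts _).mpr ⟨X - C ⟨z, hint z hz⟩, ?_⟩
      simp only [Polynomial.map_sub, Polynomial.map_X, Polynomial.map_C]
      rfl
    intro k
    obtain ⟨Q, hQ⟩ := (Polynomial.mem_lifts _).mp h1
    rw [← hQ, coeff_map]
    exact (Q.coeff k).2
  have hZ : ∀ k, ∃ n : ℤ, (n : ℂ) = P.coeff k := by
    intro k
    obtain ⟨r, hr⟩ := hrat k
    have h1 := hcoeff k
    rw [← hr] at h1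
    have h2 : IsIntegral ℤ r :=
      (isIntegral_algebraMap_iff (A := ℚ) (B := ℂ) (algebraMap ℚ ℂ).injective).mp h1
    obtain ⟨n, hn⟩ := IsIntegrallyClosed.algebraMap_eq_of_integral h2
    refine ⟨n, ?_⟩
    rw [← hr, ← hn]
    simp
  have hl : P ∈ Polynomial.lifts (Int.castRingHom ℂ) := by
    rw [Polynomial.lifts_iff_coeff_lifts]
    intro k
    obtain ⟨n, hn⟩ := hZ k
    exact ⟨n, by simpa using hn⟩
  obtain ⟨H, hH, hHd, hHm⟩ := Polynomial.lifts_and_natDegree_eq_and_monic hl hmon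
  exact ⟨H, hHm, by rw [hHd, hdeg], hH⟩

open Polynomial in
/-- **the degree of a singular modulus is at most the number of singular moduli of its
discriminant** -/
theorem natDegree_minpoly_le {D : ℤ} {τ : ℍ} (h : HasDisc D τ) :
    (minpoly ℚ (jinv τ)).natDegree ≤ (jset D).ncard := by
  obtain ⟨H, hm, hd, hH⟩ := exists_classPoly D
  have h0 : aeval (jinv τ) (H.map (algebraMap ℤ ℚ)) = 0 := by
    rw [aeval_map_algebraMap, aeval_def, algebraMap_int_eq, ← eval_map, hH, eval_prod]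
    refine Finset.prod_eq_zero (i := jinv τ) ?_ (by simp)
    exact (jset_finite D).mem_toFinset.mpr ⟨τ, h, rfl⟩
  have h1 : (H.map (algebraMap ℤ ℚ)) ≠ 0 := (hm.map _).ne_zero
  have h2 := natDegree_le_of_dvd (minpoly.dvd ℚ _ h0) h1
  rwa [hm.natDegree_map, hd] at h2

/-- the number of singular moduli is the number of orbits of points of discriminant `D` -/
theorem ncard_jset (D : ℤ) : (jset D).ncard =
    {x : MulAction.orbitRel.Quotient SL(2, ℤ) ℍ | ∃ τ : ℍ, HasDisc D τ ∧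
      (Quotient.mk _ τ : MulAction.orbitRel.Quotient SL(2, ℤ) ℍ) = x}.ncard := by
  rw [← Set.ncard_image_of_injective _ jEquiv.injective]
  congr 1
  ext z
  constructor
  · rintro ⟨τ, hτ, rfl⟩
    exact ⟨_, ⟨τ, hτ, rfl⟩, jEquiv_mk τ⟩
  · rintro ⟨x, ⟨τ, hτ, rfl⟩, rfl⟩
    exact ⟨τ, hτ, (jEquiv_mk τ).symm⟩

end Fermat.Agent.Cor.Unif
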