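import Fermat.Agent.Corollaries.ES.Sub
import Fermat.Agent.Corollaries.ES.Rat
import Fermat.Agent.Corollaries.Unif.ClassOne

/-!
# The automorphisms of `ℂ` and the multipliers of lattices

If `a L ⊆ L` and `σ` is an endomorphism of the field `ℂ`, then `σ(a) L' ⊆ L'` for the lattice `L'`
with the invariants `σ(g₂)`, `σ(g₃)`.
-/

set_option autoImplicit false

open Filter Topology Complex
open scoped PeriodPair

noncomputable section

namespace Fermat.Agent.Cor.Unif

open Fermat.Agent.Moduli Fermat.Agent.Cor.ES.SubF Fermat.Agent.Cor.ES.RootF Polynomial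

/-! ### The behaviour at `0` -/

theorem poly_lead (L : PeriodPair) (p : ℂ[X]) :
    ∃ A : ℂ → ℂ, AnalyticAt ℂ A 0 ∧ A 0 = p.leadingCoeff ∧
      ∀ z, z ≠ 0 → p.eval (℘[L] z) = A z / z ^ (2 * p.natDegree) := by
  refine ⟨fun z => ∑ i ∈ Finset.range (p.natDegree + 1),
    p.coeff i * (U L z ^ i * z ^ (2 * (p.natDegree - i))), ?_, ?_, ?_⟩
  · refine Finset.analyticAt_fun_sum _ fun i _ => ?_
    exact analyticAt_const.mul (((analyticAt_U L).pow i).mul (analyticAt_id.pow _))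
  · simp only [U_zero, one_pow, one_mul]
    rw [Finset.sum_range_succ, Nat.sub_self, mul_zero, pow_zero, mul_one, Finset.sum_eq_zero,
      zero_add, Polynomial.coeff_natDegree]
    intro i hi
    have : 2 * (p.natDegree - i) ≠ 0 := by
      have := Finset.mem_range.mp hi
      omega
    rw [zero_pow this, mul_zero]
  · intro z hz
    rw [Polynomial.eval_eq_sum_range, Finset.sum_div]
    refine Finset.sum_congr rfl fun i hi => ?_
    have hi' : i ≤ p.natDegree := Nat.lt_succ_iff.mp (Finset.mem_range.mp hi)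
    rw [P_eq L hz, div_pow, ← pow_mul]
    have h1 : z ^ (2 * p.natDegree) = z ^ (2 * i) * z ^ (2 * (p.natDegree - i)) := by
      rw [← pow_add]
      congr 1
      omega
    rw [h1]
    have h2 : z ^ (2 * i) ≠ 0 := pow_ne_zero _ hz
    have h3 : z ^ (2 * (p.natDegree - i)) ≠ 0 := pow_ne_zero _ hz
    field_simp

theorem eventually_eval_ne (L : PeriodPair) {B : ℂ[X]} (hB : B ≠ 0) :
    ∀ᶠ z in 𝓝[≠] (0 : ℂ), B.eval (℘[L] z) ≠ 0 := by
  obtain ⟨A, hA, hA0, h⟩ := poly_lead L B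
  have h1 : ∀ᶠ z in 𝓝 (0 : ℂ), A z ≠ 0 :=
    hA.continuousAt.eventually_ne (by rw [hA0]; exact leadingCoeff_ne_zero.mpr hB)
  filter_upwards [mem_nhdsWithin_of_mem_nhds h1, self_mem_nhdsWithin] with z hz hz0
  rw [h z hz0]
  exact div_ne_zero hz (pow_ne_zero _ hz0)

theorem lead_compare {u v : ℂ → ℂ} (hu : ContinuousAt u 0) (hv : ContinuousAt v 0) {m n : ℕ}
    (h : ∀ᶠ z in 𝓝[≠] (0 : ℂ), u z * z ^ m = v z * z ^ n) (hu0 : u 0 ≠ 0) (hv0 : v 0 ≠ 0) :
    m = n ∧ u 0 = v 0 := by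
  have aux : ∀ {u v : ℂ → ℂ}, ContinuousAt u 0 → ContinuousAt v 0 → ∀ {m k : ℕ},
      (∀ᶠ z in 𝓝[≠] (0 : ℂ), u z * z ^ m = v z * z ^ (m + k)) → u 0 = v 0 * 0 ^ k := by
    intro u v hu hv m k h
    have h1 : ∀ᶠ z in 𝓝[≠] (0 : ℂ), u z = v z * z ^ k := by
      filter_upwards [h, self_mem_nhdsWithin] with z hz hz0
      have hz0 : z ≠ 0 := hz0
      apply mul_left_cancel₀ (pow_ne_zero m hz0)
      rw [pow_add] at hz
      linear_combination hz
    have h2 : ContinuousAt (fun z : ℂ => v z * z ^ k) 0 := hv.mul (continuousAt_id.pow k)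
    exact tendsto_nhds_unique (hu.tendsto.mono_left nhdsWithin_le_nhds)
      ((h2.tendsto.mono_left nhdsWithin_le_nhds).congr' (h1.mono fun z hz => hz.symm))
  rcases lt_trichotomy m n with hmn | hmn | hmn
  · obtain ⟨k, rfl⟩ := Nat.exists_eq_add_of_lt hmn
    have := aux hu hv (m := m) (k := k + 1) (by simpa only [add_assoc] using h)
    rw [zero_pow (Nat.succ_ne_zero k), mul_zero] at this
    exact absurd this hu0
  · subst hmn
    have := aux hu hv (m := m) (k := 0) (by simpa using h)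
    exact ⟨rfl, by simpa using this⟩
  · obtain ⟨k, rfl⟩ := Nat.exists_eq_add_of_lt hmn
    have := aux hv hu (m := n) (k := k + 1) (by
      filter_upwards [h] with z hz
      rw [← hz, add_assoc])
    rw [zero_pow (Nat.succ_ne_zero k), mul_zero] at this
    exact absurd this hv0

/-! ### The differential equation -/

theorem hasDerivAt_P (L : PeriodPair) {z : ℂ} (hz : z ∉ L.lattice) :
    HasDerivAt ℘[L] (℘'[L] z) z := by
  have h1 := (analyticAt_P L hz).differentiableAt.hasDerivAt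
  rwa [L.deriv_weierstrassP] at h1

/-- two solutions `z⁻² (1 + ...)` of `f'² = 4 f³ - a f - b` are equal near `0` -/
theorem ode_unique {u v : ℂ → ℂ} (hu : AnalyticAt ℂ u 0) (hv : AnalyticAt ℂ v 0) (hu0 : u 0 = 1)
    (hv0 : v 0 = 1) {a b : ℂ}
    (h1 : ∀ᶠ z in 𝓝[≠] (0 : ℂ), (z * deriv u z - 2 * u z) ^ 2 =
      4 * u z ^ 3 - a * u z * z ^ 4 - b * z ^ 6)
    (h2 : ∀ᶠ z in 𝓝[≠] (0 : ℂ), (z * deriv v z - 2 * v z) ^ 2 =
      4 * v z ^ 3 - a * v z * z ^ 4 - b * z ^ 6) :
    ∀ᶠ z in 𝓝 (0 : ℂ), u z = v z := by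
  have hD : AnalyticAt ℂ (fun z => u z - v z) 0 := hu.sub hv
  by_contra hne
  have hne' : analyticOrderAt (fun z => u z - v z) 0 ≠ ⊤ := by
    intro h
    apply hne
    filter_upwards [analyticOrderAt_eq_top.mp h] with z hz
    exact sub_eq_zero.mp hz
  obtain ⟨n, hn⟩ := ENat.ne_top_iff_exists.mp hne'
  obtain ⟨h, hha, hh0, hev⟩ := (hD.analyticOrderAt_eq_natCast).mp hn.symm
  simp only [sub_zero, smul_eq_mul] at hev
  have hev' : ∀ᶠ z in 𝓝 (0 : ℂ), deriv u z - deriv v z =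
      n * z ^ (n - 1) * h z + z ^ n * deriv h z := by
    filter_upwards [hev.eventually_nhds, hu.eventually_analyticAt, hv.eventually_analyticAt,
      hha.eventually_analyticAt] with z h1 h2 h3 h4
    have h5 : HasDerivAt (fun z => u z - v z) (deriv u z - deriv v z) z :=
      h2.differentiableAt.hasDerivAt.sub h3.differentiableAt.hasDerivAt
    have h6 : HasDerivAt (fun z => z ^ n * h z) (n * z ^ (n - 1) * h z + z ^ n * deriv h z) z :=
      (hasDerivAt_pow n z).mul h4.differentiableAt.hasDerivAt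
    exact h5.unique (h6.congr_of_eventuallyEq h1)
  have key : ∀ᶠ z in 𝓝[≠] (0 : ℂ), (n * h z + z * deriv h z - 2 * h z) *
      (z * deriv u z - 2 * u z + (z * deriv v z - 2 * v z)) =
      h z * (4 * (u z ^ 2 + u z * v z + v z ^ 2) - a * z ^ 4) := by
    filter_upwards [h1, h2, self_mem_nhdsWithin, mem_nhdsWithin_of_mem_nhds hev,
      mem_nhdsWithin_of_mem_nhds hev'] with z h1 h2 hz0 h4 h5
    have hz0 : z ≠ 0 := hz0
    have h6 : z * (deriv u z - deriv v z) = z ^ n * (n * h z + z * deriv h z) := by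
      rw [h5]
      rcases n with _ | n
      · simp
      · simp only [Nat.add_sub_cancel, pow_succ]
        ring
    apply mul_left_cancel₀ (pow_ne_zero n hz0)
    linear_combination (-(z * deriv u z - 2 * u z + (z * deriv v z - 2 * v z))) * h6 +
      (2 * (z * deriv u z - 2 * u z + (z * deriv v z - 2 * v z)) +
        (4 * (u z ^ 2 + u z * v z + v z ^ 2) - a * z ^ 4)) * h4 + h1 - h2
  have hc1 : ContinuousAt (fun z => (n * h z + z * deriv h z - 2 * h z) *
      (z * deriv u z - 2 * u z + (z * deriv v z - 2 * v z))) 0 := by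
    have := hha.continuousAt
    have := hha.deriv.continuousAt
    have := hu.deriv.continuousAt
    have := hv.deriv.continuousAt
    have := hu.continuousAt
    have := hv.continuousAt
    fun_prop
  have hc2 : ContinuousAt (fun z => h z * (4 * (u z ^ 2 + u z * v z + v z ^ 2) - a * z ^ 4)) 0 := by
    have := hha.continuousAt
    have := hu.continuousAt
    have := hv.continuousAt
    fun_prop
  have hlim := tendsto_nhds_unique (hc1.tendsto.mono_left nhdsWithin_le_nhds)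
    ((hc2.tendsto.mono_left nhdsWithin_le_nhds).congr' (key.mono fun z hz => hz.symm))
  simp only [hu0, hv0] at hlim
  have h7 : (4 * (n : ℂ) + 4) * h 0 = 0 := by linear_combination -hlim
  rcases mul_eq_zero.mp h7 with h8 | h8
  · have h9 : ((4 * n + 4 : ℕ) : ℂ) = 0 := by push_cast; exact h8
    rw [Nat.cast_eq_zero] at h9
    omega
  · exact hh0 h8

theorem ode_of {u f f' : ℂ → ℂ} {a b : ℂ} (hu : ∀ᶠ z in 𝓝[≠] (0 : ℂ), u z = z ^ 2 * f z)
    (hf : ∀ᶠ z in 𝓝[≠] (0 : ℂ), HasDerivAt f (f' z) z)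
    (h : ∀ᶠ z in 𝓝[≠] (0 : ℂ), f' z ^ 2 = 4 * f z ^ 3 - a * f z - b) :
    ∀ᶠ z in 𝓝[≠] (0 : ℂ), (z * deriv u z - 2 * u z) ^ 2 =
      4 * u z ^ 3 - a * u z * z ^ 4 - b * z ^ 6 := by
  filter_upwards [eventually_eventually_nhdsWithin.mpr hu, hu, hf, h, self_mem_nhdsWithin]
    with z h1 h2 h3 h4 hz0
  rw [IsOpen.nhdsWithin_eq isOpen_compl_singleton hz0] at h1
  have h5 : HasDerivAt (fun w => w ^ 2 * f w) (2 * z * f z + z ^ 2 * f' z) z := by
    have := (hasDerivAt_pow 2 z).mul h3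
    refine this.congr_deriv ?_
    push_cast
    ring
  have h6 : deriv u z = 2 * z * f z + z ^ 2 * f' z := (h5.congr_of_eventuallyEq h1).deriv
  rw [h6, h2]
  linear_combination z ^ 6 * h4

/-! ### The algebraic relation of an inclusion of lattices -/

/-- the relation between `A`, `B` and the invariants -/
def Rel (A B : ℂ[X]) (g₂ g₃ g₂' g₃' : ℂ) : Prop :=
  (derivative A * B - A * derivative B) ^ 2 * (4 * X ^ 3 - C g₂ * X - C g₃) =
    4 * B * A ^ 3 - C g₂' * A * B ^ 3 - C g₃' * B ^ 4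

theorem exists_rel {L L₁ : PeriodPair} (hle : L.lattice ≤ L₁.lattice) :
    ∃ A B : ℂ[X], B ≠ 0 ∧ A.natDegree = B.natDegree + 1 ∧ A.leadingCoeff = B.leadingCoeff ∧
      Rel A B L.g₂ L.g₃ L₁.g₂ L₁.g₃ := by
  obtain ⟨A, B, hB, h⟩ := ES.subStmt L L₁ hle
  have hA : A ≠ 0 := by
    rintro rfl
    have h1 := (tendsto_P_zero L₁).eventually_ge_atTop 1
    obtain ⟨z, h2, h3, h4⟩ := ((eventually_notMem_lattice L₁ 0).and
      ((eventually_eval_ne L hB).and h1)).exists
    have h5 := h z h2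
    rw [eval_zero] at h5
    rcases mul_eq_zero.mp h5 with h6 | h6
    · exact h3 h6
    · rw [h6, norm_zero] at h4
      norm_num at h4
  obtain ⟨a, ha, ha0, hae⟩ := poly_lead L A
  obtain ⟨b, hb, hb0, hbe⟩ := poly_lead L B
  have hlead : 2 * A.natDegree = 2 * B.natDegree + 2 ∧ b 0 * U L₁ 0 = a 0 := by
    refine lead_compare (u := fun z => b z * U L₁ z) (v := a)
      (hb.continuousAt.mul (analyticAt_U L₁).continuousAt) ha.continuousAt ?_ ?_ ?_
    · filter_upwards [eventually_notMem_lattice L₁ 0, self_mem_nhdsWithin] with z hz hz0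
      have hz0 : z ≠ 0 := hz0
      have h1 := h z hz
      rw [hae z hz0, hbe z hz0, P_eq L₁ hz0] at h1
      have h2 : z ^ (2 * A.natDegree) ≠ 0 := pow_ne_zero _ hz0
      have h3 : z ^ (2 * B.natDegree) ≠ 0 := pow_ne_zero _ hz0
      rw [div_mul_div_comm, div_eq_div_iff (mul_ne_zero h3 (pow_ne_zero 2 hz0)) h2] at h1
      rw [pow_add]
      exact h1
    · simp only [U_zero, mul_one, hb0]
      exact leadingCoeff_ne_zero.mpr hB
    · rw [ha0]
      exact leadingCoeff_ne_zero.mpr hA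
  refine ⟨A, B, hB, by omega, ?_, ?_⟩
  · rw [← ha0, ← hb0, ← hlead.2, U_zero, mul_one]
  · rw [Rel, ← sub_eq_zero]
    by_contra hne
    have h1 := eventually_eval_ne L hne
    have h2 : ∀ᶠ z in 𝓝[≠] (0 : ℂ), ∀ᶠ w in 𝓝 z, B.eval (℘[L] w) * ℘[L₁] w = A.eval (℘[L] w) := by
      filter_upwards [eventually_eventually_nhdsWithin.mpr
        ((eventually_notMem_lattice L₁ 0).mono h), self_mem_nhdsWithin] with z hz hz0
      rwa [IsOpen.nhdsWithin_eq isOpen_compl_singleton hz0] at hz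
    obtain ⟨z, h3, h4, h5⟩ := (h1.and (h2.and (eventually_notMem_lattice L₁ 0))).exists
    apply h3
    have h6 : z ∉ L.lattice := fun h' => h5 (hle h')
    have d1 := hasDerivAt_P L h6
    have d2 := hasDerivAt_P L₁ h5
    have d3 : HasDerivAt (fun w => B.eval (℘[L] w)) ((derivative B).eval (℘[L] z) * ℘'[L] z) z :=
      (B.hasDerivAt (℘[L] z)).comp z d1
    have d4 : HasDerivAt (fun w => A.eval (℘[L] w)) ((derivative A).eval (℘[L] z) * ℘'[L] z) z :=
      (A.hasDerivAt (℘[L] z)).comp z d1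
    have e2 := (d3.mul d2).unique (d4.congr_of_eventuallyEq h4)
    have e1 := h z h5
    have e3 := L.derivWeierstrassP_sq z h6
    have e4 := L₁.derivWeierstrassP_sq z h5
    simp only [eval_sub, eval_mul, eval_pow, eval_C, eval_X, eval_ofNat]
    rw [← e1]
    generalize (derivative A).eval (℘[L] z) = A' at *
    generalize (derivative B).eval (℘[L] z) = B' at *
    generalize B.eval (℘[L] z) = b at *
    generalize ℘[L] z = x at *
    generalize ℘'[L] z = y at *
    generalize ℘[L₁] z = p at *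
    generalize ℘'[L₁] z = q at *
    have e5 : (A' * b - b * p * B') * y = b ^ 2 * q := by linear_combination (-b) * e2
    linear_combination (-(A' * b - b * p * B') ^ 2) * e3 +
      ((A' * b - b * p * B') * y + b ^ 2 * q) * e5 + b ^ 4 * e4

theorem le_of_rel {L L₂ : PeriodPair} {A B : ℂ[X]} (hB : B ≠ 0)
    (hdeg : A.natDegree = B.natDegree + 1) (hlead : A.leadingCoeff = B.leadingCoeff)
    (h : Rel A B L.g₂ L.g₃ L₂.g₂ L₂.g₃) {l : ℂ} (hl : l ∈ L.lattice) : l ∈ L₂.lattice := by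
  obtain ⟨a, ha, ha0, hae⟩ := poly_lead L A
  obtain ⟨b, hb, hb0, hbe⟩ := poly_lead L B
  have hb0' : b 0 ≠ 0 := by rw [hb0]; exact leadingCoeff_ne_zero.mpr hB
  have hBev := eventually_eval_ne L hB
  have hu : AnalyticAt ℂ (fun z => a z / b z) 0 := ha.div hb hb0'
  have hu0 : a 0 / b 0 = 1 := by rw [ha0, hlead, hb0, div_self]; rwa [← hb0]
  have huf : ∀ᶠ z in 𝓝[≠] (0 : ℂ), a z / b z = z ^ 2 * (A.eval (℘[L] z) / B.eval (℘[L] z)) := by
    filter_upwards [hBev, self_mem_nhdsWithin] with z hz hz0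
    have hz0 : z ≠ 0 := hz0
    rw [hbe z hz0] at hz
    have hbz : b z ≠ 0 := fun h0 => hz (by rw [h0, zero_div])
    rw [hae z hz0, hbe z hz0, hdeg]
    have h3 : z ^ (2 * B.natDegree) ≠ 0 := pow_ne_zero _ hz0
    have h4 : z ^ (2 * (B.natDegree + 1)) = z ^ (2 * B.natDegree) * z ^ 2 := by
      rw [← pow_add]
      rfl
    rw [h4]
    field_simp
  have hO : ∀ᶠ z in 𝓝[≠] (0 : ℂ), (z * deriv (fun z => a z / b z) z - 2 * (a z / b z)) ^ 2 =
      4 * (a z / b z) ^ 3 - L₂.g₂ * (a z / b z) * z ^ 4 - L₂.g₃ * z ^ 6 := by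
    refine ode_of (u := fun z => a z / b z) (f := fun z => A.eval (℘[L] z) / B.eval (℘[L] z))
      (f' := fun z => ((derivative A).eval (℘[L] z) * ℘'[L] z * B.eval (℘[L] z) -
        A.eval (℘[L] z) * ((derivative B).eval (℘[L] z) * ℘'[L] z)) / B.eval (℘[L] z) ^ 2)
      huf ?_ ?_
    · filter_upwards [hBev, eventually_notMem_lattice L 0] with z hz hz1
      have d1 := hasDerivAt_P L hz1
      have d3 : HasDerivAt (fun w => B.eval (℘[L] w)) ((derivative B).eval (℘[L] z) * ℘'[L] z) z :=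
        (B.hasDerivAt (℘[L] z)).comp z d1
      have d4 : HasDerivAt (fun w => A.eval (℘[L] w)) ((derivative A).eval (℘[L] z) * ℘'[L] z) z :=
        (A.hasDerivAt (℘[L] z)).comp z d1
      exact d4.div d3 hz
    · filter_upwards [hBev, eventually_notMem_lattice L 0] with z hz hz1
      have e3 := L.derivWeierstrassP_sq z hz1
      have e4 := congrArg (Polynomial.eval (℘[L] z)) h
      simp only [eval_sub, eval_mul, eval_pow, eval_C, eval_X, eval_ofNat] at e4
      generalize (derivative A).eval (℘[L] z) = A' at *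
      generalize (derivative B).eval (℘[L] z) = B' at *
      generalize B.eval (℘[L] z) = b at *
      generalize A.eval (℘[L] z) = a at *
      generalize ℘[L] z = x at *
      generalize ℘'[L] z = y at *
      rw [div_pow, div_eq_iff (pow_ne_zero 2 (pow_ne_zero 2 hz))]
      have e5 : (4 * (a / b) ^ 3 - L₂.g₂ * (a / b) - L₂.g₃) * (b ^ 2) ^ 2 =
          4 * b * a ^ 3 - L₂.g₂ * a * b ^ 3 - L₂.g₃ * b ^ 4 := by
        field_simp
      rw [e5, ← e4]
      linear_combination (A' * b - a * B') ^ 2 * e3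
  have hO2 : ∀ᶠ z in 𝓝[≠] (0 : ℂ), (z * deriv (U L₂) z - 2 * U L₂ z) ^ 2 =
      4 * U L₂ z ^ 3 - L₂.g₂ * U L₂ z * z ^ 4 - L₂.g₃ * z ^ 6 := by
    refine ode_of (u := U L₂) (f := ℘[L₂]) (f' := ℘'[L₂]) ?_ ?_ ?_
    · filter_upwards [self_mem_nhdsWithin] with z hz0
      have hz0 : z ≠ 0 := hz0
      rw [P_eq L₂ hz0, mul_div_cancel₀ _ (pow_ne_zero 2 hz0)]
    · filter_upwards [eventually_notMem_lattice L₂ 0] with z hz
      exact hasDerivAt_P L₂ hz
    · filter_upwards [eventually_notMem_lattice L₂ 0] with z hz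
      exact L₂.derivWeierstrassP_sq z hz
  have heq := ode_unique hu (analyticAt_U L₂) hu0 (U_zero L₂) hO hO2
  -- the relation near `0`
  have hrel : ∀ᶠ z in 𝓝[≠] (0 : ℂ), B.eval (℘[L] z) * ℘[L₂] z = A.eval (℘[L] z) := by
    filter_upwards [mem_nhdsWithin_of_mem_nhds heq, huf, hBev, self_mem_nhdsWithin]
      with z h1 h2 h3 hz0
    have hz0 : z ≠ 0 := hz0
    rw [P_eq L₂ hz0, ← h1, h2]
    field_simp
  -- the relation everywhere
  have hcount : ((L.lattice : Set ℂ) ∪ L₂.lattice).Countable := by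
    refine Set.Countable.union ?_ ?_
    · exact Set.countable_coe_iff.mp (inferInstanceAs (Countable L.lattice))
    · exact Set.countable_coe_iff.mp (inferInstanceAs (Countable L₂.lattice))
  have hpre : IsPreconnected ((L.lattice : Set ℂ) ∪ L₂.lattice)ᶜ :=
    (hcount.isPathConnected_compl_of_one_lt_rank (by simp)).isConnected.isPreconnected
  obtain ⟨z0, hz1, hz2, hz3⟩ : ∃ z0 : ℂ, z0 ∉ L.lattice ∧ z0 ∉ L₂.lattice ∧
      ∀ᶠ z in 𝓝 z0, B.eval (℘[L] z) * ℘[L₂] z = A.eval (℘[L] z) := by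
    have h2 : ∀ᶠ z in 𝓝[≠] (0 : ℂ), ∀ᶠ w in 𝓝 z,
        B.eval (℘[L] w) * ℘[L₂] w = A.eval (℘[L] w) := by
      filter_upwards [eventually_eventually_nhdsWithin.mpr hrel, self_mem_nhdsWithin] with z hz hz0
      rwa [IsOpen.nhdsWithin_eq isOpen_compl_singleton hz0] at hz
    exact ((eventually_notMem_lattice L 0).and ((eventually_notMem_lattice L₂ 0).and h2)).exists
  have hall : Set.EqOn (fun z => B.eval (℘[L] z) * ℘[L₂] z) (fun z => A.eval (℘[L] z))
      ((L.lattice : Set ℂ) ∪ L₂.lattice)ᶜ := by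
    have g1 : AnalyticOnNhd ℂ (fun z => B.eval (℘[L] z) * ℘[L₂] z)
        ((L.lattice : Set ℂ) ∪ L₂.lattice)ᶜ := fun z hz =>
      (analyticAt_poly B (analyticAt_P L fun h => hz (Or.inl h))).mul
        (analyticAt_P L₂ fun h => hz (Or.inr h))
    have g2 : AnalyticOnNhd ℂ (fun z => A.eval (℘[L] z))
        ((L.lattice : Set ℂ) ∪ L₂.lattice)ᶜ := fun z hz =>
      analyticAt_poly A (analyticAt_P L fun h => hz (Or.inl h))
    refine g1.eqOn_of_preconnected_of_eventuallyEq (z₀ := z0) g2 hpre ?_ hz3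
    · rintro (h | h)
      · exact hz1 h
      · exact hz2 h
  exact ES.mem_of_relation L₂ L hB (fun z h1 h2 => hall (by
    rintro (h | h)
    · exact h1 h
    · exact h2 h)) hl

/-! ### Scaling -/

theorem exists_scaled (L : PeriodPair) {a : ℂ} (ha : a ≠ 0) :
    ∃ L₁ : PeriodPair, (∀ z, z ∈ L₁.lattice ↔ a * z ∈ L.lattice) ∧ L₁.g₂ = a ^ 4 * L.g₂ ∧
      L₁.g₃ = a ^ 6 * L.g₃ := by
  obtain ⟨ω, hω, τ, hL⟩ := exists_mkPP L
  refine ⟨mkPP (ω / a) (div_ne_zero hω ha) τ, fun z => ?_, ?_, ?_⟩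
  · rw [hL, mem_mkPP, mem_mkPP]
    constructor
    · rintro ⟨m, n, rfl⟩
      refine ⟨m, n, ?_⟩
      field_simp
    · rintro ⟨m, n, e⟩
      refine ⟨m, n, ?_⟩
      apply mul_left_cancel₀ ha
      rw [← e]
      field_simp
  · rw [g₂_congr hL, g₂_mkPP, g₂_mkPP]
    field_simp
  · rw [g₃_congr hL, g₃_mkPP, g₃_mkPP]
    field_simp

/-- **the multipliers of the conjugate lattice** -/
theorem mul_mem_of_conj (σ : ℂ →+* ℂ) {L L' : PeriodPair} (h2 : L'.g₂ = σ L.g₂)
    (h3 : L'.g₃ = σ L.g₃) {a : ℂ} (h : ∀ l ∈ L.lattice, a * l ∈ L.lattice) {l : ℂ}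
    (hl : l ∈ L'.lattice) : σ a * l ∈ L'.lattice := by
  rcases eq_or_ne a 0 with rfl | ha
  · rw [map_zero, zero_mul]
    exact zero_mem _
  have hσa : σ a ≠ 0 := (map_ne_zero σ).mpr ha
  obtain ⟨L₁, h4, h5, h6⟩ := exists_scaled L ha
  obtain ⟨L₂, h7, h8, h9⟩ := exists_scaled L' hσa
  obtain ⟨A, B, hB, hdeg, hlead, hR⟩ := exists_rel (L := L) (L₁ := L₁) (fun z hz =>
    (h4 z).mpr (h z hz))
  rw [← h7]
  refine le_of_rel (L := L') (L₂ := L₂) (A := A.map σ) (B := B.map σ)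
    (Polynomial.map_ne_zero hB) ?_ ?_ ?_ hl
  · rw [natDegree_map, natDegree_map, hdeg]
  · rw [leadingCoeff_map, leadingCoeff_map, hlead]
  · rw [Rel] at hR ⊢
    have h10 := congrArg (Polynomial.map σ) hR
    simp only [Polynomial.map_mul, Polynomial.map_sub, Polynomial.map_pow, Polynomial.map_C,
      Polynomial.map_X, Polynomial.map_ofNat, ← Polynomial.derivative_map] at h10
    rw [h2, h3, h8, h9, h2, h3]
    rw [h5, h6] at h10
    simpa only [map_mul, map_pow] using h10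

end Fermat.Agent.Cor.Unif
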