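import Fermat.Agent.Corollaries.Unif.ClassOne
import Mathlib.Analysis.Real.Pi.Bounds

/-!
# Ramanujan's constant

`e^(π √163)` differs from an integer by less than `10⁻¹²`.
-/

set_option autoImplicit false

noncomputable section

open UpperHalfPlane hiding I
open ModularForm MatrixGroups Filter Topology
open scoped PeriodPair Real

namespace Fermat.Agent.Cor.Unif

open Fermat.Agent.Cor.Tau

local notation "𝕢" => Function.Periodic.qParam

section Coeff

theorem mul_nonneg_coeff {f g : PowerSeries ℤ} (hf : ∀ n, 0 ≤ f.coeff n) (hg : ∀ n, 0 ≤ g.coeff n) :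
    ∀ n, 0 ≤ (f * g).coeff n := fun n => by
  rw [PowerSeries.coeff_mul]
  exact Finset.sum_nonneg fun p _ => mul_nonneg (hf _) (hg _)

theorem pow_nonneg_coeff {f : PowerSeries ℤ} (hf : ∀ n, 0 ≤ f.coeff n) (k : ℕ) :
    ∀ n, 0 ≤ (f ^ k).coeff n := by
  induction k with
  | zero =>
    intro n
    rw [pow_zero, PowerSeries.coeff_one]
    split_ifs <;> norm_num
  | succ k ih =>
    rw [pow_succ]
    exact mul_nonneg_coeff ih hf

/-- the coefficients of `j` are nonnegative -/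
theorem jcoeff_nonneg (n : ℕ) : 0 ≤ jcoeff n := by
  rw [jcoeff, jser]
  refine mul_nonneg_coeff (pow_nonneg_coeff (fun m => ?_) 3) (pow_nonneg_coeff (fun m => ?_) 24) _
  · rw [Qn, map_add, coeff_ofNat_mul', sg, PowerSeries.coeff_mk, PowerSeries.coeff_one]
    split_ifs <;> positivity
  · rw [pser, PowerSeries.coeff_mk]
    positivity

theorem jcoeff_zero : jcoeff 0 = 744 := jcoeff_values.1

end Coeff

/-- `∑_{n ≥ 1} c(n) e^(-2πn) = 984 - e^(2π)` -/
theorem hasSum_I : HasSum (fun n : ℕ => (jcoeff (n + 1) : ℝ) * Real.exp (-2 * π) ^ (n + 1))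
    (984 - Real.exp (2 * π)) := by
  have h1 := hasSum_j UpperHalfPlane.I
  have hq : 𝕢 1 ((UpperHalfPlane.I : ℍ) : ℂ) = ((Real.exp (-2 * π) : ℝ) : ℂ) := by
    rw [Function.Periodic.qParam, UpperHalfPlane.coe_I, Complex.ofReal_exp]
    congr 1
    push_cast
    linear_combination (2 * (π : ℂ)) * Complex.I_sq
  rw [hq, jinv_I] at h1
  have h2 : HasSum (fun n : ℕ => (jcoeff n : ℝ) * Real.exp (-2 * π) ^ n)
      (1728 - Real.exp (2 * π)) := by
    rw [← Complex.hasSum_ofReal]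
    convert h1 using 1
    · funext n; push_cast; ring
    · push_cast
      rw [← Complex.exp_neg]
      congr 2
      ring
  have h3 := (hasSum_nat_add_iff' 1).mpr h2
  rw [Finset.sum_range_one, jcoeff_zero, pow_zero] at h3
  have h4 : (1728 - Real.exp (2 * π)) - (744 : ℤ) * 1 = 984 - Real.exp (2 * π) := by
    push_cast; ring
  rw [h4] at h3
  exact h3

/-- the value at a point `α` with real part `1/2` -/
theorem hasSum_half {α : ℍ} {y : ℝ} (hα : (α : ℂ) = 1 / 2 + y / 2 * Complex.I) {N : ℤ}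
    (hN : jinv α = N) :
    HasSum (fun n : ℕ => (jcoeff (n + 1) : ℝ) * (-Real.exp (-(π * y))) ^ (n + 1))
      (N + Real.exp (π * y) - 744) := by
  have h1 := hasSum_j α
  have hq : 𝕢 1 (α : ℂ) = ((-Real.exp (-(π * y)) : ℝ) : ℂ) := by
    rw [Function.Periodic.qParam, hα]
    have h2 : 2 * (π : ℂ) * Complex.I * (1 / 2 + y / 2 * Complex.I) / ((1 : ℝ) : ℂ) =
        π * Complex.I + -(π * y) := by
      push_cast
      linear_combination ((π : ℂ) * y) * Complex.I_sq
    rw [h2, Complex.exp_add, Complex.exp_pi_mul_I]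
    push_cast
    ring
  rw [hq, hN] at h1
  have h2 : HasSum (fun n : ℕ => (jcoeff n : ℝ) * (-Real.exp (-(π * y))) ^ n)
      (N + Real.exp (π * y)) := by
    rw [← Complex.hasSum_ofReal]
    convert h1 using 1
    · funext n; push_cast; ring
    · push_cast
      rw [inv_neg, ← Complex.exp_neg, neg_neg, sub_neg_eq_add]
  have h3 := (hasSum_nat_add_iff' 1).mpr h2
  rw [Finset.sum_range_one, jcoeff_zero, pow_zero, mul_one] at h3
  exact_mod_cast h3

/-- the estimate: `j(α) = 744 - e^(πy)` up to a small error -/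
theorem abs_le_of_half {α : ℍ} {y : ℝ} (hy : 2 ≤ y) (hα : (α : ℂ) = 1 / 2 + y / 2 * Complex.I)
    {N : ℤ} (hN : jinv α = N) :
    |N + Real.exp (π * y) - 744| ≤
      Real.exp (2 * π - π * y) * (984 - Real.exp (2 * π)) := by
  have h1 := hasSum_half hα hN
  have h2 := hasSum_I.mul_left (Real.exp (2 * π - π * y))
  have h3 : ∀ n : ℕ, ‖(jcoeff (n + 1) : ℝ) * (-Real.exp (-(π * y))) ^ (n + 1)‖ ≤
      Real.exp (2 * π - π * y) * ((jcoeff (n + 1) : ℝ) * Real.exp (-2 * π) ^ (n + 1)) := by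
    intro n
    have hc : (0 : ℝ) ≤ jcoeff (n + 1) := by exact_mod_cast jcoeff_nonneg (n + 1)
    rw [norm_mul, norm_pow, norm_neg, Real.norm_of_nonneg hc, Real.norm_of_nonneg (Real.exp_pos _).le,
      mul_left_comm]
    refine mul_le_mul_of_nonneg_left ?_ hc
    rw [← Real.exp_nat_mul, ← Real.exp_nat_mul, ← Real.exp_add, Real.exp_le_exp]
    push_cast
    have hπ := Real.pi_pos
    have h4 : 0 ≤ (n : ℝ) * (π * (y - 2)) := by
      have : 0 ≤ y - 2 := by linarith
      positivity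
    nlinarith
  have h4 := tsum_of_norm_bounded h2 h3
  rw [h1.tsum_eq, Real.norm_eq_abs] at h4
  exact h4

theorem exp_two_pi_gt : 500 < Real.exp (2 * π) := by
  have h1 := Real.exp_one_gt_d9
  have h2 : (6.28 : ℝ) < 2 * π := by linarith [Real.pi_gt_d6]
  have h3 : Real.exp 6.28 = Real.exp 1 ^ 6 * Real.exp 0.28 := by
    rw [← Real.exp_nat_mul, ← Real.exp_add]
    norm_num
  have h4 : (1.28 : ℝ) ≤ Real.exp 0.28 := by
    have := Real.add_one_le_exp (0.28 : ℝ)
    linarith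
  have h5 : (2.7182818283 : ℝ) ^ 6 ≤ Real.exp 1 ^ 6 := by gcongr
  have h6 : (2.7182818283 : ℝ) ^ 6 * 1.28 ≤ Real.exp 6.28 := by
    rw [h3]; gcongr
  have h7 : Real.exp 6.28 < Real.exp (2 * π) := Real.exp_lt_exp.mpr h2
  have h8 : (500 : ℝ) < 2.7182818283 ^ 6 * 1.28 := by norm_num
  linarith

theorem sqrt_gt : (12.767145 : ℝ) < Real.sqrt 163 := by
  rw [Real.lt_sqrt (by norm_num)]
  norm_num

theorem exp_big : (4.84e14 : ℝ) < Real.exp (π * Real.sqrt 163 - 2 * π) := by
  have h1 := Real.exp_one_gt_d9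
  have h2 := Real.pi_gt_d6
  have h3 := sqrt_gt
  have h4 : (33.82 : ℝ) < π * Real.sqrt 163 - 2 * π := by
    have : (3.141592 : ℝ) * (12.767145 - 2) ≤ π * (Real.sqrt 163 - 2) := by
      have h5 : (0 : ℝ) ≤ 12.767145 - 2 := by norm_num
      have h6 : (12.767145 - 2 : ℝ) ≤ Real.sqrt 163 - 2 := by linarith
      exact mul_le_mul h2.le h6 h5 Real.pi_pos.le
    have h7 : (33.82 : ℝ) < 3.141592 * (12.767145 - 2) := by norm_num
    linarith
  have h5 : Real.exp 33.82 = Real.exp 1 ^ 33 * Real.exp 0.82 := by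
    rw [← Real.exp_nat_mul, ← Real.exp_add]
    norm_num
  have h6 : (2.27 : ℝ) ≤ Real.exp 0.82 := by
    have := Real.sum_le_exp_of_nonneg (x := 0.82) (by norm_num) 6
    refine le_trans ?_ this
    norm_num [Finset.sum_range_succ, Nat.factorial]
  have h7 : (2.7182818283 : ℝ) ^ 33 ≤ Real.exp 1 ^ 33 := by gcongr
  have h8 : (2.7182818283 : ℝ) ^ 33 * 2.27 ≤ Real.exp 33.82 := by
    rw [h5]; gcongr
  have h9 : (4.84e14 : ℝ) < 2.7182818283 ^ 33 * 2.27 := by norm_num
  have h10 := Real.exp_lt_exp.mpr h4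
  linarith

/-- the point `(1 + √-163)/2` -/
def alpha163 : ℍ := ⟨1 / 2 + Real.sqrt 163 / 2 * Complex.I, by simp⟩

theorem alpha163_quad : (alpha163 : ℂ) ^ 2 - alpha163 + 41 = 0 := by
  have hs : ((Real.sqrt 163 : ℝ) : ℂ) ^ 2 = 163 := by
    rw [← Complex.ofReal_pow, Real.sq_sqrt (by norm_num)]; push_cast; ring
  change (1 / 2 + (Real.sqrt 163 : ℂ) / 2 * Complex.I) ^ 2 -
    (1 / 2 + (Real.sqrt 163 : ℂ) / 2 * Complex.I) + 41 = 0
  linear_combination (Complex.I ^ 2 / 4) * hs + 163 / 4 * Complex.I_sq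

/-- **`e^(π√163)` is an integer up to `10⁻¹²`**: the integer is `744 - j((1 + √-163)/2)` -/
theorem ramanujan_constant' : ∃ N : ℤ, jinv alpha163 = N ∧
    |Real.exp (π * Real.sqrt 163) - (744 - N)| < 1e-12 := by
  obtain ⟨N, hN⟩ := jinv_163_int alpha163_quad
  refine ⟨N, hN, ?_⟩
  have h1 := abs_le_of_half (y := Real.sqrt 163) (by linarith [sqrt_gt]) rfl hN
  have h2 := exp_two_pi_gt
  have h3 := exp_big
  have h4 : Real.exp (2 * π - π * Real.sqrt 163) =
      (Real.exp (π * Real.sqrt 163 - 2 * π))⁻¹ := by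
    rw [← Real.exp_neg]
    congr 1
    ring
  rw [h4] at h1
  have h5 : N + Real.exp (π * Real.sqrt 163) - 744 =
      Real.exp (π * Real.sqrt 163) - (744 - N) := by ring
  rw [h5] at h1
  refine h1.trans_lt ?_
  have h6 : (0 : ℝ) < Real.exp (π * Real.sqrt 163 - 2 * π) := Real.exp_pos _
  rw [inv_mul_eq_div, div_lt_iff₀ h6]
  have h7 : (1e-12 : ℝ) * 4.84e14 = 484 := by norm_num
  nlinarith

/-- **Ramanujan's constant**: `e^(π√163)` differs from an integer by less than `10⁻¹²` -/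
theorem ramanujan_constant : ∃ n : ℤ, |Real.exp (π * Real.sqrt 163) - n| < 1e-12 := by
  obtain ⟨N, -, h⟩ := ramanujan_constant'
  exact ⟨744 - N, by push_cast; exact h⟩

end Fermat.Agent.Cor.Unif
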