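import Fermat.Agent.Corollaries.Unif.OverK

/-!
# Examples: the degrees of some singular moduli

`j(√-5)`, `j((1+√-23)/2)`, `j(√-14)` have the degrees `2`, `3`, `4` over `ℚ`.
-/

set_option autoImplicit false

open UpperHalfPlane hiding I
open Polynomial IntermediateField

noncomputable section

namespace Fermat.Agent.Cor.Unif

open Fermat.Agent.Cor.Tau Fermat.Agent.Cor.Ray

/-- a root of `X² + bX + c` has the discriminant `b² - 4c` -/
theorem hasDisc_of_monic {τ : ℍ} {b c : ℤ} (h : (τ : ℂ) ^ 2 + b * τ + c = 0) :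
    HasDisc (b ^ 2 - 4 * c) τ :=
  ⟨1, b, c, one_pos, fun _ hd _ _ => isUnit_of_dvd_one hd, by
    push_cast
    linear_combination h, by ring⟩

/-- `[ℚ(j(√-5)) : ℚ] = 2` -/
theorem degree_sqrt_neg_five {τ : ℍ} (h : (τ : ℂ) ^ 2 + 5 = 0) :
    Module.finrank ℚ ℚ⟮jinv τ⟯ = 2 := by
  have h1 : HasDisc (-20) τ := hasDisc_of_monic (b := 0) (c := 5) (by
    push_cast
    linear_combination h)
  rw [finrank_adjoin_jinv h1, BForm.hForm_20]

/-- `[ℚ(j((1+√-23)/2)) : ℚ] = 3` -/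
theorem degree_sqrt_neg_twentythree {τ : ℍ} (h : (τ : ℂ) ^ 2 - τ + 6 = 0) :
    Module.finrank ℚ ℚ⟮jinv τ⟯ = 3 := by
  have h1 : HasDisc (-23) τ := by
    have h0 := hasDisc_of_monic (τ := τ) (b := -1) (c := 6) (by
      push_cast
      linear_combination h)
    norm_num at h0
    exact h0
  rw [finrank_adjoin_jinv h1, BForm.hForm_23]

/-- `[ℚ(j(√-14)) : ℚ] = 4` -/
theorem degree_sqrt_neg_fourteen {τ : ℍ} (h : (τ : ℂ) ^ 2 + 14 = 0) :
    Module.finrank ℚ ℚ⟮jinv τ⟯ = 4 := by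
  have h1 : HasDisc (-56) τ := hasDisc_of_monic (b := 0) (c := 14) (by
    push_cast
    linear_combination h)
  rw [finrank_adjoin_jinv h1, BForm.hForm_56]

end Fermat.Agent.Cor.Unif
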