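import Fermat.Agent.Corollaries.Unif.Constant

/-!
# The exact values of `j` at the points of discriminant `-19, -43, -67, -163`

`-96³, -960³, -5280³, -640320³`; the nearest integer to `e^(π√163)` is `640320³ + 744`.
-/

set_option autoImplicit false

noncomputable section

open UpperHalfPlane hiding I
open ModularForm MatrixGroups Filter Topology
open scoped PeriodPair Real

namespace Fermat.Agent.Cor.Unif

open Fermat.Agent.Cor.Tau

theorem bounds19 : (885479.776 : ℝ) ≤ Real.exp (π * Real.sqrt 19) ∧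
    Real.exp (π * Real.sqrt 19) ≤ (885479.779 : ℝ) := by
  have hs : (4.358898943540673552236981 : ℝ) ≤ Real.sqrt 19 := (Real.le_sqrt' (by norm_num)).mpr (by norm_num)
  have hs' : Real.sqrt 19 ≤ (4.358898943540673552236982 : ℝ) := (Real.sqrt_le_left (by norm_num)).mpr (by norm_num)
  have hx : (64 * 0.21396695154324517128765371 : ℝ) ≤ π * Real.sqrt 19 :=
    le_trans (by norm_num) (mul_le_mul Real.pi_gt_d20.le hs (by norm_num) Real.pi_pos.le)
  have hx' : π * Real.sqrt 19 ≤ (64 * 0.21396695154324517128833485 : ℝ) :=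
    le_trans (mul_le_mul Real.pi_lt_d20.le hs' (Real.sqrt_nonneg _) (by norm_num)) (by norm_num)
  have h0 : (1.23858172090261447837589888 : ℝ) ≤ Real.exp 0.21396695154324517128765371 :=
    le_trans (by norm_num [Finset.sum_range_succ, Nat.factorial])
      (Real.sum_le_exp_of_nonneg (by norm_num) 20)
  have h0' : Real.exp 0.21396695154324517128833485 ≤ (1.23858172090261447837674255 : ℝ) :=
    le_trans (Real.exp_bound' (by norm_num) (by norm_num) (n := 20) (by norm_num))
      (by norm_num [Finset.sum_range_succ, Nat.factorial])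
  constructor
  · refine le_trans ?_ (Real.exp_le_exp.mpr hx)
    rw [show (64 * 0.21396695154324517128765371 : ℝ) = ((64 : ℕ) : ℝ) * 0.21396695154324517128765371 by norm_num,
      Real.exp_nat_mul]
    exact le_trans (by norm_num) (pow_le_pow_left₀ (by norm_num) h0 64)
  · refine le_trans (Real.exp_le_exp.mpr hx') ?_
    rw [show (64 * 0.21396695154324517128833485 : ℝ) = ((64 : ℕ) : ℝ) * 0.21396695154324517128833485 by norm_num,
      Real.exp_nat_mul]
    exact le_trans (pow_le_pow_left₀ (Real.exp_pos _).le h0' 64) (by norm_num)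

theorem bounds43 : (884736743.998 : ℝ) ≤ Real.exp (π * Real.sqrt 43) ∧
    Real.exp (π * Real.sqrt 43) ≤ (884736744.001 : ℝ) := by
  have hs : (6.557438524302000652344109 : ℝ) ≤ Real.sqrt 43 := (Real.le_sqrt' (by norm_num)).mpr (by norm_num)
  have hs' : Real.sqrt 43 ≤ (6.557438524302000652344110 : ℝ) := (Real.sqrt_le_left (by norm_num)).mpr (by norm_num)
  have hx : (64 * 0.32188751084865406415399844 : ℝ) ≤ π * Real.sqrt 43 :=
    le_trans (by norm_num) (mul_le_mul Real.pi_gt_d20.le hs (by norm_num) Real.pi_pos.le)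
  have hx' : π * Real.sqrt 43 ≤ (64 * 0.32188751084865406415502310 : ℝ) :=
    le_trans (mul_le_mul Real.pi_lt_d20.le hs' (Real.sqrt_nonneg _) (by norm_num)) (by norm_num)
  have h0 : (1.37972956261991583505810692 : ℝ) ≤ Real.exp 0.32188751084865406415399844 :=
    le_trans (by norm_num [Finset.sum_range_succ, Nat.factorial])
      (Real.sum_le_exp_of_nonneg (by norm_num) 20)
  have h0' : Real.exp 0.32188751084865406415502310 ≤ (1.37972956261991583505952070 : ℝ) :=
    le_trans (Real.exp_bound' (by norm_num) (by norm_num) (n := 20) (by norm_num))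
      (by norm_num [Finset.sum_range_succ, Nat.factorial])
  constructor
  · refine le_trans ?_ (Real.exp_le_exp.mpr hx)
    rw [show (64 * 0.32188751084865406415399844 : ℝ) = ((64 : ℕ) : ℝ) * 0.32188751084865406415399844 by norm_num,
      Real.exp_nat_mul]
    exact le_trans (by norm_num) (pow_le_pow_left₀ (by norm_num) h0 64)
  · refine le_trans (Real.exp_le_exp.mpr hx') ?_
    rw [show (64 * 0.32188751084865406415502310 : ℝ) = ((64 : ℕ) : ℝ) * 0.32188751084865406415502310 by norm_num,
      Real.exp_nat_mul]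
    exact le_trans (pow_le_pow_left₀ (Real.exp_pos _).le h0' 64) (by norm_num)

theorem bounds67 : (147197952743.998 : ℝ) ≤ Real.exp (π * Real.sqrt 67) ∧
    Real.exp (π * Real.sqrt 67) ≤ (147197952744.001 : ℝ) := by
  have hs : (8.185352771872449969953703 : ℝ) ≤ Real.sqrt 67 := (Real.le_sqrt' (by norm_num)).mpr (by norm_num)
  have hs' : Real.sqrt 67 ≤ (8.185352771872449969953704 : ℝ) := (Real.sqrt_le_left (by norm_num)).mpr (by norm_num)
  have hx : (64 * 0.40179756461180218121838771 : ℝ) ≤ π * Real.sqrt 67 :=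
    le_trans (by norm_num) (mul_le_mul Real.pi_gt_d20.le hs (by norm_num) Real.pi_pos.le)
  have hx' : π * Real.sqrt 67 ≤ (64 * 0.40179756461180218121966673 : ℝ) :=
    le_trans (mul_le_mul Real.pi_lt_d20.le hs' (Real.sqrt_nonneg _) (by norm_num)) (by norm_num)
  have h0 : (1.49450876059031201427775129 : ℝ) ≤ Real.exp 0.40179756461180218121838771 :=
    le_trans (by norm_num [Finset.sum_range_succ, Nat.factorial])
      (Real.sum_le_exp_of_nonneg (by norm_num) 20)
  have h0' : Real.exp 0.40179756461180218121966673 ≤ (1.49450876059031201427966284 : ℝ) :=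
    le_trans (Real.exp_bound' (by norm_num) (by norm_num) (n := 20) (by norm_num))
      (by norm_num [Finset.sum_range_succ, Nat.factorial])
  constructor
  · refine le_trans ?_ (Real.exp_le_exp.mpr hx)
    rw [show (64 * 0.40179756461180218121838771 : ℝ) = ((64 : ℕ) : ℝ) * 0.40179756461180218121838771 by norm_num,
      Real.exp_nat_mul]
    exact le_trans (by norm_num) (pow_le_pow_left₀ (by norm_num) h0 64)
  · refine le_trans (Real.exp_le_exp.mpr hx') ?_
    rw [show (64 * 0.40179756461180218121966673 : ℝ) = ((64 : ℕ) : ℝ) * 0.40179756461180218121966673 by norm_num,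
      Real.exp_nat_mul]
    exact le_trans (pow_le_pow_left₀ (Real.exp_pos _).le h0' 64) (by norm_num)

theorem bounds163 : (262537412640768743.989 : ℝ) ≤ Real.exp (π * Real.sqrt 163) ∧
    Real.exp (π * Real.sqrt 163) ≤ (262537412640768744.026 : ℝ) := by
  have hs : (12.767145334803704661710952 : ℝ) ≤ Real.sqrt 163 := (Real.le_sqrt' (by norm_num)).mpr (by norm_num)
  have hs' : Real.sqrt 163 ≤ (12.767145334803704661710953 : ℝ) := (Real.sqrt_le_left (by norm_num)).mpr (by norm_num)
  have hx : (64 * 0.62670578111144562117681773 : ℝ) ≤ π * Real.sqrt 163 :=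
    le_trans (by norm_num) (mul_le_mul Real.pi_gt_d20.le hs (by norm_num) Real.pi_pos.le)
  have hx' : π * Real.sqrt 163 ≤ (64 * 0.62670578111144562117881266 : ℝ) :=
    le_trans (mul_le_mul Real.pi_lt_d20.le hs' (Real.sqrt_nonneg _) (by norm_num)) (by norm_num)
  have h0 : (1.87143549565158897450829346 : ℝ) ≤ Real.exp 0.62670578111144562117681773 :=
    le_trans (by norm_num [Finset.sum_range_succ, Nat.factorial])
      (Real.sum_le_exp_of_nonneg (by norm_num) 20)
  have h0' : Real.exp 0.62670578111144562117881266 ≤ (1.87143549565158897451206458 : ℝ) :=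
    le_trans (Real.exp_bound' (by norm_num) (by norm_num) (n := 20) (by norm_num))
      (by norm_num [Finset.sum_range_succ, Nat.factorial])
  constructor
  · refine le_trans ?_ (Real.exp_le_exp.mpr hx)
    rw [show (64 * 0.62670578111144562117681773 : ℝ) = ((64 : ℕ) : ℝ) * 0.62670578111144562117681773 by norm_num,
      Real.exp_nat_mul]
    exact le_trans (by norm_num) (pow_le_pow_left₀ (by norm_num) h0 64)
  · refine le_trans (Real.exp_le_exp.mpr hx') ?_
    rw [show (64 * 0.62670578111144562117881266 : ℝ) = ((64 : ℕ) : ℝ) * 0.62670578111144562117881266 by norm_num,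
      Real.exp_nat_mul]
    exact le_trans (pow_le_pow_left₀ (Real.exp_pos _).le h0' 64) (by norm_num)

/-- a convenient form of the error -/
theorem abs_le_div {α : ℍ} {y : ℝ} (hy : 2 ≤ y) (hα : (α : ℂ) = 1 / 2 + y / 2 * Complex.I)
    {N : ℤ} (hN : jinv α = N) :
    |N + Real.exp (π * y) - 744| ≤ 242064 / Real.exp (π * y) := by
  refine (abs_le_of_half hy hα hN).trans ?_
  rw [Real.exp_sub, div_mul_eq_mul_div]
  refine div_le_div_of_nonneg_right ?_ (Real.exp_pos _).le
  nlinarith [sq_nonneg (Real.exp (2 * π) - 492)]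

/-- the integer is determined by bounds for `e^(πy)` -/
theorem eq_of_bounds {α : ℍ} {y A B : ℝ} (hy : 2 ≤ y)
    (hα : (α : ℂ) = 1 / 2 + y / 2 * Complex.I) {N M : ℤ} (hN : jinv α = N) (hA0 : 0 < A)
    (hA : A ≤ Real.exp (π * y)) (hB : Real.exp (π * y) ≤ B)
    (h1 : M - 1 < 744 - B - 242064 / A) (h2 : 744 - A + 242064 / A < M + 1) : N = M := by
  have h3 := abs_le_div hy hα hN
  have h4 : 242064 / Real.exp (π * y) ≤ 242064 / A :=
    div_le_div_of_nonneg_left (by norm_num) hA0 hA
  rw [abs_le] at h3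
  have h5 : ((M - 1 : ℤ) : ℝ) < N := by push_cast; linarith [h3.1, h3.2]
  have h6 : (N : ℝ) < ((M + 1 : ℤ) : ℝ) := by push_cast; linarith [h3.1, h3.2]
  have h7 : M - 1 < N := by exact_mod_cast h5
  have h8 : N < M + 1 := by exact_mod_cast h6
  omega

/-- the point `(1 + √-D)/2` -/
theorem coe_of_quad {α : ℍ} {D k : ℕ} (hD : 0 < D) (hk : 4 * k = D + 1)
    (hα : (α : ℂ) ^ 2 - α + k = 0) :
    (α : ℂ) = 1 / 2 + (Real.sqrt D : ℝ) / 2 * Complex.I := by
  have hs : ((Real.sqrt D : ℝ) : ℂ) ^ 2 = D := by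
    rw [← Complex.ofReal_pow, Real.sq_sqrt (by positivity)]; push_cast; ring
  have hk' : (4 : ℂ) * k = D + 1 := by exact_mod_cast hk
  let β : ℍ := ⟨1 / 2 + (Real.sqrt D : ℝ) / 2 * Complex.I, by
    have : 0 < Real.sqrt D := Real.sqrt_pos.mpr (by exact_mod_cast hD)
    simpa using this⟩
  have hβ : (β : ℂ) ^ 2 + ((-1 : ℤ) : ℂ) * β + ((k : ℤ) : ℂ) = 0 := by
    change (1 / 2 + ((Real.sqrt D : ℝ) : ℂ) / 2 * Complex.I) ^ 2 + ((-1 : ℤ) : ℂ) *
      (1 / 2 + ((Real.sqrt D : ℝ) : ℂ) / 2 * Complex.I) + ((k : ℤ) : ℂ) = 0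
    push_cast
    linear_combination (Complex.I ^ 2 / 4) * hs + (D / 4 : ℂ) * Complex.I_sq + hk' / 4
  have h := eq_of_quad (τ := α) (α := β) (b := -1) (c := k)
    (by push_cast; linear_combination hα) hβ
  rw [h]

/-- **`j((1 + √-163)/2) = -640320³`** -/
theorem jinv_163 {α : ℍ} (hα : (α : ℂ) ^ 2 - α + 41 = 0) : jinv α = -640320 ^ 3 := by
  obtain ⟨N, hN⟩ := jinv_163_int hα
  have h := coe_of_quad (D := 163) (k := 41) (by norm_num) (by norm_num) (by exact_mod_cast hα)
  have h1 : N = -262537412640768000 := eq_of_bounds (y := Real.sqrt 163)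
    (by linarith [sqrt_gt]) (by exact_mod_cast h) hN (by norm_num) bounds163.1 bounds163.2
    (by norm_num) (by norm_num)
  rw [hN, h1]
  norm_num

/-- **`j((1 + √-67)/2) = -5280³`** -/
theorem jinv_67 {α : ℍ} (hα : (α : ℂ) ^ 2 - α + 17 = 0) : jinv α = -5280 ^ 3 := by
  obtain ⟨N, hN⟩ := jinv_67_int hα
  have h := coe_of_quad (D := 67) (k := 17) (by norm_num) (by norm_num) (by exact_mod_cast hα)
  have h1 : N = -147197952000 := eq_of_bounds (y := Real.sqrt 67)
    ((Real.le_sqrt' (by norm_num)).mpr (by norm_num)) (by exact_mod_cast h) hN (by norm_num)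
    bounds67.1 bounds67.2 (by norm_num) (by norm_num)
  rw [hN, h1]
  norm_num

/-- **`j((1 + √-43)/2) = -960³`** -/
theorem jinv_43 {α : ℍ} (hα : (α : ℂ) ^ 2 - α + 11 = 0) : jinv α = -960 ^ 3 := by
  obtain ⟨N, hN⟩ := jinv_43_int hα
  have h := coe_of_quad (D := 43) (k := 11) (by norm_num) (by norm_num) (by exact_mod_cast hα)
  have h1 : N = -884736000 := eq_of_bounds (y := Real.sqrt 43)
    ((Real.le_sqrt' (by norm_num)).mpr (by norm_num)) (by exact_mod_cast h) hN (by norm_num)
    bounds43.1 bounds43.2 (by norm_num) (by norm_num)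
  rw [hN, h1]
  norm_num

/-- **`j((1 + √-19)/2) = -96³`** -/
theorem jinv_19 {α : ℍ} (hα : (α : ℂ) ^ 2 - α + 5 = 0) : jinv α = -96 ^ 3 := by
  obtain ⟨N, hN⟩ := jinv_19_int hα
  have h := coe_of_quad (D := 19) (k := 5) (by norm_num) (by norm_num) (by exact_mod_cast hα)
  have h1 : N = -884736 := eq_of_bounds (y := Real.sqrt 19)
    ((Real.le_sqrt' (by norm_num)).mpr (by norm_num)) (by exact_mod_cast h) hN (by norm_num)
    bounds19.1 bounds19.2 (by norm_num) (by norm_num)
  rw [hN, h1]
  norm_num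

/-- **`|e^(π√163) - (640320³ + 744)| < 10⁻¹²`** -/
theorem ramanujan_constant_exact :
    |Real.exp (π * Real.sqrt 163) - (640320 ^ 3 + 744)| < 1e-12 := by
  obtain ⟨N, hN, h⟩ := ramanujan_constant'
  have h1 := jinv_163 alpha163_quad
  rw [hN] at h1
  have h2 : N = -640320 ^ 3 := by exact_mod_cast h1
  rw [h2] at h
  have h3 : (744 - ((-640320 ^ 3 : ℤ) : ℝ)) = 640320 ^ 3 + 744 := by push_cast; ring
  rwa [h3] at h

end Fermat.Agent.Cor.Unif
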