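import Fermat.Agent.Corollaries.Unif.Irred
import Fermat.Agent.Corollaries.Unif.ClassField
import Fermat.Agent.Corollaries.Kro.Cong

/-!
# The degree of the singular moduli is the class number

`[ℚ(j(τ)) : ℚ] = h(D)` for every imaginary quadratic `τ` of discriminant `D`; the class polynomial
`H_D` is irreducible; a singular modulus is rational if and only if `h(D) = 1`.
-/

set_option autoImplicit false

open UpperHalfPlane hiding I
open Complex Polynomial
open scoped MatrixGroups

noncomputable section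

namespace Fermat.Agent.Cor.Unif

open Fermat.Agent.Cor.Tau Fermat.Agent.Cor.Ray Fermat.Agent.Cor.Kro
open BForm (PForm setoid hForm)

/-- the values of `j` at the images of `τ` under the integral matrices of determinant `p` -/
theorem mem_of_matrix {p : ℕ} [Fact p.Prime] {A B C D : ℤ} (hdet : A * D - B * C = p) {τ τ' : ℍ}
    (h : (A : ℂ) * τ + B = τ' * (C * τ + D)) :
    jinv τ' = jinv (up p τ) ∨ ∃ b < p, jinv τ' = jinv (dn p (b : ℕ) τ) := by
  have hp0 : (p : ℤ) ≠ 0 := by exact_mod_cast (Fact.out : p.Prime).ne_zero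
  have hpc : (p : ℂ) ≠ 0 := by exact_mod_cast (Fact.out : p.Prime).ne_zero
  by_cases hAC : (p : ℤ) ∣ A ∧ (p : ℤ) ∣ C
  · left
    obtain ⟨⟨A', rfl⟩, C', rfl⟩ := hAC
    have hdet' : A' * D - B * C' = 1 := by
      refine mul_left_cancel₀ hp0 ?_
      linear_combination hdet
    obtain ⟨γ, hγ⟩ := Zero.exists_smul_eq hdet' (w := up p τ) (z := τ') (by
      rw [coe_up]
      push_cast at h
      linear_combination h)
    rw [← hγ]
    exact Tau.jinv_smul γ _
  · right
    obtain ⟨b, hb, ⟨B', hB'⟩, D', hD'⟩ := Zero.exists_b hdet hAC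
    have hdet' : A * D' - B' * C = 1 := by
      refine mul_left_cancel₀ hp0 ?_
      linear_combination hdet - A * hD' + C * hB'
    have hBc : (B : ℂ) - A * b = p * B' := by exact_mod_cast congrArg (Int.cast : ℤ → ℂ) hB'
    have hDc : (D : ℂ) - C * b = p * D' := by exact_mod_cast congrArg (Int.cast : ℤ → ℂ) hD'
    obtain ⟨γ, hγ⟩ := Zero.exists_smul_eq hdet' (w := dn p (b : ℤ) τ) (z := τ') (by
      rw [coe_dn]
      push_cast
      field_simp
      linear_combination h - hBc + (τ' : ℂ) * hDc)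
    refine ⟨b, hb, ?_⟩
    rw [← hγ]
    exact Tau.jinv_smul γ _

theorem kronStmt : KronStmt := by
  intro p hp τ τ' A B C D hdet h hz hz'
  have : Fact p.Prime := ⟨hp⟩
  have h0 : ((modPol p).map (ev τ)).eval (jinv τ') = 0 :=
    (modPol_eq_zero_iff p τ _).mpr (mem_of_matrix hdet h.symm)
  obtain ⟨R, hR⟩ := kronecker_dvd p
  have h1 := congrArg (fun Q : ℤ[X][X] => (Q.map (ev τ)).eval (jinv τ')) hR
  simp only [Polynomial.map_sub, Polynomial.map_mul, Polynomial.map_pow, Polynomial.map_X,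
    Polynomial.map_C, Polynomial.map_natCast, eval_sub, eval_mul, eval_pow, eval_X, eval_C,
    eval_natCast, map_pow] at h1
  have e1 : ev τ X = jinv τ := by simp [ev]
  rw [h0, e1] at h1
  have hev : ∀ q : ℤ[X], IsIntegral ℤ (ev τ q) := by
    intro q
    have : ev τ q = q.aeval (jinv τ) := rfl
    rw [this, aeval_eq_sum_range]
    exact IsIntegral.sum _ fun i _ => (hz.pow i).smul _
  refine ⟨-((R.map (ev τ)).eval (jinv τ')), ?_, by linear_combination -h1⟩
  refine IsIntegral.neg ?_
  rw [eval_eq_sum_range]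
  refine IsIntegral.sum _ fun i _ => ?_
  rw [coeff_map]
  exact (hev _).mul (hz'.pow i)

/-- **the automorphisms of `ℂ` act transitively on the singular moduli of a discriminant** -/
theorem exists_conj {D : ℤ} {τ τ' : ℍ} (h : HasDisc D τ) (h' : HasDisc D τ') :
    ∃ σ : ℂ ≃+* ℂ, σ (jinv τ) = jinv τ' := exists_conj_of kronStmt h h'

/-- **the degree of a singular modulus of discriminant `D` is the class number `h(D)`** -/
theorem natDegree_minpoly_jinv {D : ℤ} {τ : ℍ} (h : HasDisc D τ) :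
    (minpoly ℚ (jinv τ)).natDegree = hForm D := natDegree_minpoly_of kronStmt h

theorem isIntegral_jinv_of_hasDisc {D : ℤ} {τ : ℍ} (h : HasDisc D τ) : IsIntegral ℤ (jinv τ) := by
  obtain ⟨a, b, c, ha, -, hr, -⟩ := h
  exact Kro.isIntegral_jinv ha.ne' hr

open IntermediateField in
/-- **`[ℚ(j(τ)) : ℚ] = h(D)`** -/
theorem finrank_adjoin_jinv {D : ℤ} {τ : ℍ} (h : HasDisc D τ) :
    Module.finrank ℚ ℚ⟮jinv τ⟯ = hForm D := by
  rw [adjoin.finrank ((isIntegral_jinv_of_hasDisc h).tower_top), natDegree_minpoly_jinv h]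

open IntermediateField NumberField in
/-- **`[ℚ(j(τ)) : ℚ]` is the class number of `K`** for `τ` of the discriminant of the imaginary
quadratic field `K` -/
theorem finrank_adjoin_jinv_eq_classNumber {K : Type*} [Field K] [NumberField K]
    (h2 : Module.finrank ℚ K = 2) (hneg : discr K < 0) {τ : ℍ} (h : HasDisc (discr K) τ) :
    Module.finrank ℚ ℚ⟮jinv τ⟯ = classNumber K := by
  rw [finrank_adjoin_jinv h, Bin.classNumber_eq_hForm h2 hneg]

/-- **the class polynomial is irreducible**: it is the minimal polynomial over `ℚ` of every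
singular modulus of discriminant `D` -/
theorem classPolynomial_eq_minpoly {D : ℤ} (hD : D < 0) : ∃ H : ℤ[X], H.Monic ∧
    H.natDegree = hForm D ∧
    H.map (Int.castRingHom ℂ) = ∏ z ∈ (jset_finite D).toFinset, (X - C z) ∧
    ∀ τ : ℍ, HasDisc D τ → H.map (algebraMap ℤ ℚ) = minpoly ℚ (jinv τ) ∧
      Irreducible (H.map (algebraMap ℤ ℚ)) ∧ Irreducible H := by
  obtain ⟨H, hm, hd, hH, hz⟩ := classPolynomial hD
  refine ⟨H, hm, hd, hH, fun τ hτ => ?_⟩
  have hint : IsIntegral ℚ (jinv τ) := (isIntegral_jinv_of_hasDisc hτ).tower_top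
  have h1 : aeval (jinv τ) (H.map (algebraMap ℤ ℚ)) = 0 := by
    rw [aeval_map_algebraMap]
    exact (hz _).mpr ⟨τ, hτ, rfl⟩
  have h2 : H.map (algebraMap ℤ ℚ) = minpoly ℚ (jinv τ) :=
    Polynomial.eq_of_monic_of_dvd_of_natDegree_le (minpoly.monic hint) (hm.map _)
      (minpoly.dvd ℚ _ h1) (by rw [hm.natDegree_map, hd, natDegree_minpoly_jinv hτ])
  have h3 : Irreducible (H.map (algebraMap ℤ ℚ)) := by
    rw [h2]
    exact minpoly.irreducible hint
  exact ⟨h2, h3, (hm.irreducible_iff_irreducible_map_fraction_map (K := ℚ)).mpr h3⟩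

/-- **a singular modulus is rational if and only if the class number is one** -/
theorem rational_iff {D : ℤ} {τ : ℍ} (h : HasDisc D τ) :
    (∃ r : ℚ, jinv τ = r) ↔ hForm D = 1 := by
  rw [← natDegree_minpoly_jinv h, minpoly.natDegree_eq_one_iff]
  constructor
  · rintro ⟨r, hr⟩
    exact ⟨r, by rw [hr]; rfl⟩
  · rintro ⟨r, hr⟩
    exact ⟨r, by rw [← hr]; rfl⟩

end Fermat.Agent.Cor.Unif
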