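import Fermat.Agent.Corollaries.Unif.ClassDeg
import Fermat.Agent.Corollaries.Ray.FormsMain

/-!
# The singular moduli of a discriminant are conjugate

From Kronecker's congruence for the modular equation (on the values, `KronStmt`) and the theorem
of Weber on the primes represented by a form: the automorphisms of `ℂ` permute the singular moduli
of discriminant `D` transitively; `[ℚ(j(τ)) : ℚ] = h(D)`.
-/

set_option autoImplicit false

open UpperHalfPlane hiding I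
open Complex Polynomial
open scoped MatrixGroups

noncomputable section

namespace Fermat.Agent.Cor.Unif

open Fermat.Agent.Moduli Fermat.Agent.Cor.Tau Fermat.Agent.Cor.Ray
open BForm (PForm setoid hForm)

/-- Kronecker's congruence on the values -/
def KronStmt : Prop := ∀ (p : ℕ), p.Prime → ∀ (τ τ' : ℍ) (A B C D : ℤ), A * D - B * C = p →
  (τ' : ℂ) * (C * τ + D) = A * τ + B → IsIntegral ℤ (jinv τ) → IsIntegral ℤ (jinv τ') →
  ∃ x : ℂ, IsIntegral ℤ x ∧ (jinv τ' ^ p - jinv τ) * (jinv τ' - jinv τ ^ p) = p * x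

/-- the ring of algebraic integers -/
abbrev AI : Subalgebra ℤ ℂ := integralClosure ℤ ℂ

/-- a finite set of algebraic integers which is stable under the automorphisms of `ℂ` is the set of
zeros of a polynomial with integer coefficients -/
theorem exists_poly_of_stable (S : Finset ℂ) (hσ : ∀ σ : ℂ ≃+* ℂ, ∀ z ∈ S, σ z ∈ S)
    (hint : ∀ z ∈ S, IsIntegral ℤ z) :
    ∃ H : ℤ[X], H.Monic ∧ H.map (Int.castRingHom ℂ) = ∏ z ∈ S, (X - C z) := by
  classical
  set P : ℂ[X] := ∏ z ∈ S, (X - C z) with hP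
  have hmon : P.Monic := monic_prod_of_monic _ _ fun z _ => monic_X_sub_C z
  have hfix : ∀ σ : ℂ ≃+* ℂ, P.map (σ : ℂ →+* ℂ) = P := by
    intro σ
    rw [hP, Polynomial.map_prod]
    simp only [Polynomial.map_sub, Polynomial.map_X, Polynomial.map_C]
    refine Finset.prod_bij (fun z _ => σ z) ?_ ?_ ?_ ?_
    · intro z hz
      exact hσ σ z hz
    · intro z _ w _ h
      exact σ.injective h
    · intro w hw
      exact ⟨σ.symm w, hσ σ.symm w hw, σ.apply_symm_apply w⟩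
    · intro z _
      rfl
  have hrat : ∀ k, ∃ r : ℚ, (r : ℂ) = P.coeff k := fun k =>
    IntStruct.exists_rat_of_forall_ringEquiv_fixed _ fun σ => by
      have := congrArg (fun Q => Polynomial.coeff Q k) (hfix σ)
      simp only [coeff_map] at this
      exact this
  have hcoeff : ∀ k, IsIntegral ℤ (P.coeff k) := by
    have h1 : P ∈ Polynomial.lifts (algebraMap (integralClosure ℤ ℂ) ℂ) := by
      rw [hP]
      refine Subsemiring.prod_mem _ fun z hz => ?_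
      refine (Polynomial.mem_lifts _).mpr ⟨X - C ⟨z, hint z hz⟩, ?_⟩
      simp only [Polynomial.map_sub, Polynomial.map_X, Polynomial.map_C]
      rfl
    intro k
    obtain ⟨Q, hQ⟩ := (Polynomial.mem_lifts _).mp h1
    rw [← hQ, coeff_map]
    exact (Q.coeff k).2
  have hZ : ∀ k, ∃ n : ℤ, (n : ℂ) = P.coeff k := by
    intro k
    obtain ⟨r, hr⟩ := hrat k
    have h1 := hcoeff k
    rw [← hr] at h1
    have h2 : IsIntegral ℤ r :=
      (isIntegral_algebraMap_iff (A := ℚ) (B := ℂ) (algebraMap ℚ ℂ).injective).mp h1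
    obtain ⟨n, hn⟩ := IsIntegrallyClosed.algebraMap_eq_of_integral h2
    refine ⟨n, ?_⟩
    rw [← hr, ← hn]
    simp
  have hl : P ∈ Polynomial.lifts (Int.castRingHom ℂ) := by
    rw [Polynomial.lifts_iff_coeff_lifts]
    intro k
    obtain ⟨n, hn⟩ := hZ k
    exact ⟨n, by simpa using hn⟩
  obtain ⟨H, hH, -, hHm⟩ := Polynomial.lifts_and_natDegree_eq_and_monic hl hmon
  exact ⟨H, hHm, hH⟩

/-- for almost all `p` the elements of a finite set are distinct modulo the primes above `p` -/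
theorem exists_sep (S : Finset ℂ) (hint : ∀ z ∈ S, IsIntegral ℤ z) : ∃ N : ℕ, ∀ p : ℕ, p.Prime →
    N < p → ∀ Q : Ideal AI, Q.IsPrime → (p : AI) ∈ Q →
      ∀ r s : AI, (r : ℂ) ∈ S → (s : ℂ) ∈ S → r - s ∈ Q → r = s := by
  classical
  set S' : Finset AI := S.attach.image (fun s => (⟨s.1, hint s.1 s.2⟩ : AI)) with hS'
  have hmem : ∀ r : AI, (r : ℂ) ∈ S → r ∈ S' := by
    intro r hr
    rw [hS', Finset.mem_image]
    exact ⟨⟨r, hr⟩, Finset.mem_attach _ _, rfl⟩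
  set δ : AI := ∏ x ∈ (S' ×ˢ S').filter (fun x => x.1 ≠ x.2), (x.1 - x.2) with hδ
  have hδ0 : δ ≠ 0 := by
    rw [hδ, Finset.prod_ne_zero_iff]
    intro x hx
    exact sub_ne_zero.mpr (Finset.mem_filter.mp hx).2
  have h1 : (Ideal.span {δ}).comap (algebraMap ℤ AI) ≠ ⊥ :=
    Ideal.comap_ne_bot_of_integral_mem hδ0 (Ideal.mem_span_singleton_self δ)
      (integralClosure.isIntegral δ)
  obtain ⟨n, hn, hn0⟩ := (Submodule.ne_bot_iff _).mp h1
  refine ⟨n.natAbs, fun p hp hNp Q hQ hpQ r s hr hs hrs => ?_⟩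
  by_contra hne
  have h2 : δ ∈ Q := by
    have h3 : (r, s) ∈ (S' ×ˢ S').filter (fun x => x.1 ≠ x.2) :=
      Finset.mem_filter.mpr ⟨Finset.mem_product.mpr ⟨hmem r hr, hmem s hs⟩, hne⟩
    exact Q.mem_of_dvd (Finset.dvd_prod_of_mem (fun x : AI × AI => x.1 - x.2) h3) hrs
  have h4 : (n : AI) ∈ Q := by
    have h5 : algebraMap ℤ AI n ∈ Ideal.span {δ} := hn
    have h6 := (Ideal.span_singleton_le_iff_mem Q).mpr h2 h5
    simpa using h6
  have h5 : IsCoprime (p : ℤ) n := by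
    rw [Int.isCoprime_iff_gcd_eq_one, Int.gcd_def, Int.natAbs_natCast]
    exact (Nat.Prime.coprime_iff_not_dvd hp).mpr
      (Nat.not_dvd_of_pos_of_lt (Int.natAbs_pos.mpr hn0) hNp)
  obtain ⟨u, v, huv⟩ := h5
  apply hQ.ne_top
  rw [Ideal.eq_top_iff_one]
  have h6 : (1 : AI) = (u : AI) * (p : AI) + (v : AI) * (n : AI) := by
    have := congrArg (fun k : ℤ => (k : AI)) huv
    push_cast at this
    exact this.symm
  rw [h6]
  exact Q.add_mem (Q.mul_mem_left _ hpQ) (Q.mul_mem_left _ h4)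

theorem conj_of_cong {S : Finset ℂ} (hS : ∀ σ : ℂ ≃+* ℂ, ∀ z ∈ S, σ z ∈ S)
    (hint : ∀ z ∈ S, IsIntegral ℤ z) {p : ℕ} (hp : p.Prime) (Q : Ideal AI) [hQ : Q.IsPrime]
    (hpQ : (p : AI) ∈ Q)
    (hsep : ∀ r s : AI, (r : ℂ) ∈ S → (s : ℂ) ∈ S → r - s ∈ Q → r = s) {z₀ z : AI}
    (h₀ : (z₀ : ℂ) ∈ S) (h : (z : ℂ) ∈ S) (hc : z₀ ^ p - z ∈ Q) :
    ∃ σ : ℂ ≃+* ℂ, σ z₀ = z := by
  classical
  set T : Finset ℂ := S.filter (fun w => ∃ σ : ℂ ≃+* ℂ, σ z₀ = w) with hT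
  have hTS : ∀ w ∈ T, w ∈ S := fun w hw => (Finset.mem_filter.mp hw).1
  have hintT : ∀ w ∈ T, IsIntegral ℤ w := fun w hw => hint w (hTS w hw)
  obtain ⟨M, -, hM⟩ := exists_poly_of_stable T (fun σ w hw => by
    obtain ⟨h1, σ₁, h2⟩ := Finset.mem_filter.mp hw
    refine Finset.mem_filter.mpr ⟨hS σ w h1, σ₁.trans σ, ?_⟩
    rw [RingEquiv.trans_apply, h2]) hintT
  have ev : ∀ w : AI, M.eval₂ (Int.castRingHom AI) w =
      ∏ s ∈ T.attach, (w - (⟨s.1, hintT s.1 s.2⟩ : AI)) := by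
    intro w
    apply Subtype.ext
    have h1 : ((M.eval₂ (Int.castRingHom AI) w : AI) : ℂ) =
        M.eval₂ (Int.castRingHom ℂ) (w : ℂ) := by
      have := Polynomial.hom_eval₂ M (Int.castRingHom AI) (algebraMap AI ℂ) w
      rw [RingHom.ext_int ((algebraMap AI ℂ).comp (Int.castRingHom AI)) (Int.castRingHom ℂ)] at this
      exact this
    have h2 : ((∏ s ∈ T.attach, (w - (⟨s.1, hintT s.1 s.2⟩ : AI)) : AI) : ℂ) =
        ∏ s ∈ T.attach, ((w : ℂ) - s.1) := by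
      have := map_prod (algebraMap AI ℂ) (fun s : T => w - (⟨s.1, hintT s.1 s.2⟩ : AI)) T.attach
      exact this
    rw [h1, h2, ← Polynomial.eval_map, hM, Polynomial.eval_prod,
      Finset.prod_attach T (fun s => (w : ℂ) - s)]
    refine Finset.prod_congr rfl fun s _ => ?_
    simp
  have h1 : M.eval₂ (Int.castRingHom AI) z₀ = 0 := by
    rw [ev]
    have h2 : (z₀ : ℂ) ∈ T := Finset.mem_filter.mpr ⟨h₀, RingEquiv.refl ℂ, rfl⟩
    exact Finset.prod_eq_zero (Finset.mem_attach T ⟨_, h2⟩) (sub_self z₀)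
  have hchar : CharP (AI ⧸ Q) p := by
    rw [CharP.charP_iff_prime_eq_zero hp]
    have : (Ideal.Quotient.mk Q) (p : AI) = 0 := Ideal.Quotient.eq_zero_iff_mem.mpr hpQ
    simpa using this
  have : Fact p.Prime := ⟨hp⟩
  have h2 : M.eval₂ (Int.castRingHom (AI ⧸ Q)) (Ideal.Quotient.mk Q z₀) = 0 := by
    have := Polynomial.hom_eval₂ M (Int.castRingHom AI) (Ideal.Quotient.mk Q) z₀
    rw [RingHom.ext_int ((Ideal.Quotient.mk Q).comp (Int.castRingHom AI))
      (Int.castRingHom (AI ⧸ Q)), h1, map_zero] at this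
    exact this.symm
  have h3 : M.eval₂ (Int.castRingHom (AI ⧸ Q)) (Ideal.Quotient.mk Q z) = 0 := by
    have h4 : Ideal.Quotient.mk Q z = frobenius (AI ⧸ Q) p (Ideal.Quotient.mk Q z₀) := by
      rw [frobenius_def, ← map_pow]
      exact ((Ideal.Quotient.mk_eq_mk_iff_sub_mem _ _).mpr hc).symm
    have := Polynomial.hom_eval₂ M (Int.castRingHom (AI ⧸ Q)) (frobenius (AI ⧸ Q) p)
      (Ideal.Quotient.mk Q z₀)
    rw [RingHom.ext_int ((frobenius (AI ⧸ Q) p).comp (Int.castRingHom (AI ⧸ Q)))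
      (Int.castRingHom (AI ⧸ Q)), h2, map_zero, ← h4] at this
    exact this.symm
  have h5 : M.eval₂ (Int.castRingHom AI) z ∈ Q := by
    rw [← Ideal.Quotient.eq_zero_iff_mem]
    have := Polynomial.hom_eval₂ M (Int.castRingHom AI) (Ideal.Quotient.mk Q) z
    rw [RingHom.ext_int ((Ideal.Quotient.mk Q).comp (Int.castRingHom AI))
      (Int.castRingHom (AI ⧸ Q)), h3] at this
    exact this
  rw [ev] at h5
  obtain ⟨s, -, hs⟩ := (Ideal.IsPrime.prod_mem_iff).mp h5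
  have h6 := hsep z ⟨s.1, hintT s.1 s.2⟩ h (hTS s.1 s.2) hs
  obtain ⟨-, σ, hσ⟩ := Finset.mem_filter.mp s.2
  exact ⟨σ, by rw [hσ, h6]⟩

/-- the singular moduli are conjugate to the modulus of the principal form -/
theorem exists_conj_principal (hK : KronStmt) {D : ℤ} {τ τ₀ : ℍ} {a b c : ℤ} (ha : 0 < a)
    (hp : ∀ d : ℤ, d ∣ a → d ∣ b → d ∣ c → IsUnit d)
    (hr : (a : ℂ) * (τ : ℂ) ^ 2 + b * τ + c = 0) (hD : b ^ 2 - 4 * a * c = D)
    (h0 : (τ₀ : ℂ) = a * τ) : ∃ σ : ℂ ≃+* ℂ, σ (jinv τ₀) = jinv τ := by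
  have hτ : HasDisc D τ := ⟨a, b, c, ha, hp, hr, hD⟩
  have hτ₀ : HasDisc D τ₀ := by
    refine ⟨1, b, a * c, one_pos, fun d hd _ _ => isUnit_of_dvd_one hd, ?_, by linarith⟩
    rw [h0]
    push_cast
    linear_combination (a : ℂ) * hr
  set S := (jset_finite D).toFinset with hSdef
  have hmem : ∀ z, z ∈ S ↔ z ∈ jset D := fun z => (jset_finite D).mem_toFinset
  have hint : ∀ z ∈ S, IsIntegral ℤ z := by
    intro z hz
    obtain ⟨τ, ⟨a, b, c, ha, -, hr, -⟩, rfl⟩ := (hmem _).mp hz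
    exact Kro.isIntegral_jinv ha.ne' hr
  have hS : ∀ σ : ℂ ≃+* ℂ, ∀ z ∈ S, σ z ∈ S := fun σ z hz =>
    (hmem _).mpr (map_mem_jset σ ((hmem _).mp hz))
  have hzS : jinv τ ∈ S := (hmem _).mpr ⟨τ, hτ, rfl⟩
  have hzS₀ : jinv τ₀ ∈ S := (hmem _).mpr ⟨τ₀, hτ₀, rfl⟩
  obtain ⟨N, hN⟩ := exists_sep S hint
  -- a large prime which is represented by the form
  have hpr := prim_of_isUnit (f := ⟨a, b, c⟩) hp
  have hinf := infinite_primes_of_prim (a := a) (b := b) (c := c) hpr ha (disc_neg ha hr)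
  obtain ⟨p, hpm, hNp⟩ := hinf.exists_gt N
  obtain ⟨hpp, x, y, hxy⟩ := hpm
  obtain ⟨w, hw, hw2⟩ := hK p hpp τ τ₀ (a * x + b * y) (c * y) (-y) x
    (by linear_combination hxy) (by
      rw [h0]
      push_cast
      linear_combination -(y : ℂ) * hr) (hint _ hzS) (hint _ hzS₀)
  set z : AI := ⟨jinv τ, hint _ hzS⟩ with hz
  set z₀ : AI := ⟨jinv τ₀, hint _ hzS₀⟩ with hz₀
  set w' : AI := ⟨w, hw⟩ with hw'
  have e1 : (z₀ ^ p - z) * (z₀ - z ^ p) = (p : AI) * w' := Subtype.ext (by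
    simpa using hw2)
  -- a prime above `p`
  have hmax : (Ideal.span {(p : ℤ)}).IsMaximal :=
    PrincipalIdealRing.isMaximal_of_irreducible (Nat.prime_iff_prime_int.mp hpp).irreducible
  obtain ⟨Q, hQm, hQc⟩ := Ideal.exists_ideal_over_maximal_of_isIntegral (S := AI)
    (Ideal.span {(p : ℤ)}) (by
      rw [(RingHom.injective_iff_ker_eq_bot _).mp (algebraMap ℤ AI).injective_int]
      exact bot_le)
  have hQ : Q.IsPrime := hQm.isPrime
  have hpQ : (p : AI) ∈ Q := by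
    have h1 : (p : ℤ) ∈ Q.comap (algebraMap ℤ AI) := by
      rw [hQc]
      exact Ideal.mem_span_singleton_self _
    have h2 : algebraMap ℤ AI (p : ℤ) ∈ Q := h1
    simpa using h2
  have hsep := hN p hpp hNp Q hQ hpQ
  have h3 : (z₀ ^ p - z) * (z₀ - z ^ p) ∈ Q := by
    rw [e1]
    exact Q.mul_mem_right _ hpQ
  rcases hQ.mem_or_mem h3 with h4 | h4
  · exact conj_of_cong hS hint hpp Q hpQ hsep hzS₀ hzS h4
  · have h5 : z ^ p - z₀ ∈ Q := by
      have := Q.neg_mem h4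
      rwa [neg_sub] at this
    obtain ⟨σ, hσ⟩ := conj_of_cong hS hint hpp Q hpQ hsep hzS hzS₀ h5
    exact ⟨σ.symm, by rw [← show σ (jinv τ) = jinv τ₀ from hσ, σ.symm_apply_apply]⟩

theorem exists_principal {τ : ℍ} {a : ℤ} (ha : 0 < a) : ∃ τ₀ : ℍ, (τ₀ : ℂ) = a * τ := by
  have ha' : (0 : ℝ) < a := by exact_mod_cast ha
  refine ⟨⟨a * τ, ?_⟩, rfl⟩
  have h1 : ((a : ℂ) * (τ : ℂ)).im = a * τ.im := by simp
  rw [h1]
  exact mul_pos ha' τ.im_pos

/-- **the singular moduli of the same discriminant are conjugate** -/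
theorem exists_conj_of (hK : KronStmt) {D : ℤ} {τ τ' : ℍ} (h : HasDisc D τ)
    (h' : HasDisc D τ') : ∃ σ : ℂ ≃+* ℂ, σ (jinv τ) = jinv τ' := by
  obtain ⟨a, b, c, ha, hp, hr, hd⟩ := h
  obtain ⟨a', b', c', ha', hp', hr', hd'⟩ := h'
  obtain ⟨τ₀, h0⟩ := exists_principal (τ := τ) ha
  obtain ⟨τ₀', h0'⟩ := exists_principal (τ := τ') ha'
  obtain ⟨σ, hσ⟩ := exists_conj_principal hK ha hp hr hd h0
  obtain ⟨σ', hσ'⟩ := exists_conj_principal hK ha' hp' hr' hd' h0'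
  have hpar : b % 2 = b' % 2 := by
    have e1 : b ^ 2 - b' ^ 2 = 4 * (a * c - a' * c') := by linear_combination hd - hd'
    rcases Int.emod_two_eq_zero_or_one b with h1 | h1 <;>
      rcases Int.emod_two_eq_zero_or_one b' with h2 | h2
    · rw [h1, h2]
    · exfalso
      obtain ⟨u, rfl⟩ : ∃ u, b = 2 * u := ⟨b / 2, by omega⟩
      obtain ⟨v, rfl⟩ : ∃ v, b' = 2 * v + 1 := ⟨b' / 2, by omega⟩
      have : 4 * (u ^ 2 - v ^ 2 - v - (a * c - a' * c')) = 1 := by linear_combination e1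
      omega
    · exfalso
      obtain ⟨u, rfl⟩ : ∃ u, b = 2 * u + 1 := ⟨b / 2, by omega⟩
      obtain ⟨v, rfl⟩ : ∃ v, b' = 2 * v := ⟨b' / 2, by omega⟩
      have : 4 * (u ^ 2 + u - v ^ 2 - (a * c - a' * c')) = -1 := by linear_combination e1
      omega
    · rw [h1, h2]
  obtain ⟨k, hk⟩ : ∃ k : ℤ, b = b' + 2 * k := ⟨(b - b') / 2, by omega⟩
  have hj : jinv τ₀' = jinv τ₀ := by
    have h1 : ((1 : ℤ) : ℂ) * (τ₀' : ℂ) ^ 2 + (b' : ℂ) * τ₀' + ((a' * c' : ℤ) : ℂ) = 0 := by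
      rw [h0']
      push_cast
      linear_combination (a' : ℂ) * hr'
    have h2 : ((ModularGroup.T ^ k • τ₀ : ℍ) : ℂ) = k + τ₀ := by
      rw [UpperHalfPlane.modular_T_zpow_smul, UpperHalfPlane.coe_vadd]
      simp
    have h3 : ((1 : ℤ) : ℂ) * ((ModularGroup.T ^ k • τ₀ : ℍ) : ℂ) ^ 2 +
        (b' : ℂ) * ((ModularGroup.T ^ k • τ₀ : ℍ) : ℂ) + ((a' * c' : ℤ) : ℂ) = 0 := by
      rw [h2, h0]
      have e1 : a * c = k ^ 2 + b' * k + a' * c' := by
        have : 4 * (a * c) = 4 * (k ^ 2 + b' * k + a' * c') := by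
          rw [hk] at hd
          linear_combination hd' - hd
        omega
      have e2 : (a : ℂ) * c = k ^ 2 + b' * k + a' * c' := by exact_mod_cast e1
      have e3 : (b : ℂ) = b' + 2 * k := by exact_mod_cast hk
      rw [e3] at hr
      push_cast
      linear_combination (a : ℂ) * hr - e2
    rw [root_unique one_pos h1 h3, jinv_smul]
  refine ⟨σ.symm.trans σ', ?_⟩
  rw [RingEquiv.trans_apply, ← hσ, σ.symm_apply_apply, ← hj, hσ']

/-- **the degree of a singular modulus is the class number** -/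
theorem natDegree_minpoly_of (hK : KronStmt) {D : ℤ} {τ : ℍ} (h : HasDisc D τ) :
    (minpoly ℚ (jinv τ)).natDegree = hForm D := by
  classical
  refine le_antisymm (natDegree_minpoly_le_hForm h) ?_
  have hintQ : IsIntegral ℚ (jinv τ) := by
    obtain ⟨a, b, c, ha, -, hr, -⟩ := h
    exact (Kro.isIntegral_jinv ha.ne' hr).tower_top
  rw [← ncard_jset_eq h.neg, Set.ncard_eq_toFinset_card _ (jset_finite D)]
  have h1 : (jset_finite D).toFinset ⊆ ((minpoly ℚ (jinv τ)).aroots ℂ).toFinset := by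
    intro z hz
    obtain ⟨τ', hτ', rfl⟩ := (jset_finite D).mem_toFinset.mp hz
    obtain ⟨σ, hσ⟩ := exists_conj_of hK h hτ'
    rw [Multiset.mem_toFinset, mem_aroots]
    refine ⟨minpoly.ne_zero hintQ, ?_⟩
    rw [← hσ]
    have h2 := Polynomial.hom_eval₂ (minpoly ℚ (jinv τ)) (algebraMap ℚ ℂ) (σ : ℂ →+* ℂ) (jinv τ)
    rw [RingHom.ext_rat ((σ : ℂ →+* ℂ).comp (algebraMap ℚ ℂ)) (algebraMap ℚ ℂ)] at h2
    have h3 : (minpoly ℚ (jinv τ)).eval₂ (algebraMap ℚ ℂ) (jinv τ) = 0 := minpoly.aeval ℚ _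
    rw [h3, map_zero] at h2
    exact h2.symm
  calc (jset_finite D).toFinset.card ≤ ((minpoly ℚ (jinv τ)).aroots ℂ).toFinset.card :=
        Finset.card_le_card h1
    _ ≤ ((minpoly ℚ (jinv τ)).aroots ℂ).card := Multiset.toFinset_card_le _
    _ ≤ ((minpoly ℚ (jinv τ)).map (algebraMap ℚ ℂ)).natDegree := card_roots' _
    _ = (minpoly ℚ (jinv τ)).natDegree := natDegree_map _

end Fermat.Agent.Cor.Unif
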