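import Fermat.Agent.Corollaries.Unif.Surj
import Fermat.Agent.Corollaries.Tau.JSurj
import Fermat.Agent.LTF.JInj
import Mathlib.AlgebraicGeometry.EllipticCurve.IsomOfJ

/-!
# Lattices, elliptic curves over `ℂ` and the modular invariant

`j : SL₂(ℤ) \ ℍ ≃ ℂ`; lattices correspond to the pairs `(g₂, g₃)` with `g₂³ ≠ 27 g₃²`; two lattices are homothetic
if and only if their curves are isomorphic, if and only if they have the same `j`; the group `W(ℂ)` is
`(ℝ / ℤ)²`.
-/

set_option autoImplicit false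

noncomputable section

open UpperHalfPlane hiding I
open ModularForm MatrixGroups Filter Topology
open scoped PeriodPair

namespace Fermat.Agent.Cor.Unif

open Fermat.Agent.Moduli Fermat.Agent.JLevelOne Fermat.Agent.LTF.CM Fermat.Agent.Cor.Tau

section J

theorem jinv_eq_jFun (τ : ℍ) : jinv τ = jFun τ := rfl

/-- **`j` separates the orbits of `SL₂(ℤ)`** -/
theorem jinv_eq_iff {τ τ' : ℍ} : jinv τ = jinv τ' ↔ ∃ γ : SL(2, ℤ), γ • τ = τ' := jFun_eq_iff

/-- **`j` is a bijection `SL₂(ℤ) \ ℍ ≃ ℂ`** -/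
def jEquiv : MulAction.orbitRel.Quotient SL(2, ℤ) ℍ ≃ ℂ :=
  Equiv.ofBijective (Quotient.lift jinv (by
    rintro τ τ' ⟨γ, rfl⟩
    exact jinv_smul γ τ')) (by
    constructor
    · rintro ⟨τ⟩ ⟨τ'⟩ h
      obtain ⟨γ, hγ⟩ := jinv_eq_iff.mp (show jinv τ' = jinv τ from h.symm)
      exact Quotient.sound ⟨γ, hγ⟩
    · intro c
      obtain ⟨τ, hτ⟩ := jinv_surjective c
      exact ⟨Quotient.mk _ τ, hτ⟩)

theorem jEquiv_mk (τ : ℍ) : jEquiv (Quotient.mk _ τ) = jinv τ := rfl

end J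

section Lattice

/-- every lattice is `α (ℤ + ℤ τ)` -/
theorem exists_mkPP (L : PeriodPair) :
    ∃ (α : ℂ) (hα : α ≠ 0) (τ : ℍ), L.lattice = (mkPP α hα τ).lattice := by
  have h1 : L.ω₁ ≠ 0 := by simpa using L.indep.ne_zero 0
  have him : (L.ω₂ / L.ω₁).im ≠ 0 := by
    intro h0
    have hr : (((L.ω₂ / L.ω₁).re : ℝ) : ℂ) = L.ω₂ / L.ω₁ := Complex.ext rfl (by simpa using h0.symm)
    have h2 := LinearIndependent.pair_iff.mp L.indep ((L.ω₂ / L.ω₁).re) (-1) (by
      simp only [Complex.real_smul]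
      rw [hr]
      push_cast
      field_simp
      ring)
    simpa using h2.2
  rcases lt_or_gt_of_ne him with h | h
  · refine ⟨L.ω₁, h1, ⟨-(L.ω₂ / L.ω₁), by simpa using h⟩, ?_⟩
    ext z
    rw [mem_mkPP, PeriodPair.mem_lattice]
    constructor
    · rintro ⟨m, n, rfl⟩
      refine ⟨m, -n, ?_⟩
      push_cast
      field_simp
    · rintro ⟨m, n, rfl⟩
      refine ⟨m, -n, ?_⟩
      push_cast
      field_simp
  · refine ⟨L.ω₁, h1, ⟨L.ω₂ / L.ω₁, h⟩, ?_⟩
    ext z
    rw [mem_mkPP, PeriodPair.mem_lattice]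
    constructor
    · rintro ⟨m, n, rfl⟩
      refine ⟨m, n, ?_⟩
      push_cast
      field_simp
    · rintro ⟨m, n, rfl⟩
      refine ⟨m, n, ?_⟩
      push_cast
      field_simp

theorem g₂_congr {L L' : PeriodPair} (h : L.lattice = L'.lattice) : L.g₂ = L'.g₂ := by
  rw [PeriodPair.g₂, PeriodPair.g₂, G_congr h]

theorem g₃_congr {L L' : PeriodPair} (h : L.lattice = L'.lattice) : L.g₃ = L'.g₃ := by
  rw [PeriodPair.g₃, PeriodPair.g₃, G_congr h]

theorem disc_mkPP (α : ℂ) (hα : α ≠ 0) (τ : ℍ) :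
    (mkPP α hα τ).g₂ ^ 3 - 27 * (mkPP α hα τ).g₃ ^ 2 =
      (2 * Real.pi / α) ^ 12 * discriminant τ := by
  rw [g₂_mkPP, g₃_mkPP, discriminant_eq_E₄_cube_sub_E₆_sq τ]
  ring

/-- **the discriminant of a lattice is not zero** -/
theorem disc_ne_zero (L : PeriodPair) : L.g₂ ^ 3 - 27 * L.g₃ ^ 2 ≠ 0 := by
  obtain ⟨α, hα, τ, h⟩ := exists_mkPP L
  rw [g₂_congr h, g₃_congr h, disc_mkPP]
  exact mul_ne_zero (pow_ne_zero _ (div_ne_zero two_pi_ne_zero' hα)) (discriminant_ne_zero τ)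

/-- the curve `y² = x³ - (g₂/4) x - g₃/4` of a lattice (`x = ℘`, `2 y = ℘'`) -/
def curve (L : PeriodPair) : WeierstrassCurve ℂ := ⟨0, 0, 0, -L.g₂ / 4, -L.g₃ / 4⟩

theorem curve_Δ (L : PeriodPair) : (curve L).Δ = L.g₂ ^ 3 - 27 * L.g₃ ^ 2 := by
  simp only [curve, WeierstrassCurve.Δ, WeierstrassCurve.b₂, WeierstrassCurve.b₄,
    WeierstrassCurve.b₆, WeierstrassCurve.b₈]
  ring

theorem curve_c₄ (L : PeriodPair) : (curve L).c₄ = 12 * L.g₂ := by
  simp only [curve, WeierstrassCurve.c₄, WeierstrassCurve.b₂, WeierstrassCurve.b₄]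
  ring

theorem curve_c₆ (L : PeriodPair) : (curve L).c₆ = 216 * L.g₃ := by
  simp only [curve, WeierstrassCurve.c₆, WeierstrassCurve.b₂, WeierstrassCurve.b₄,
    WeierstrassCurve.b₆]
  ring

theorem unif_curve (L : PeriodPair) : Moduli.Unif L (curve L) where
  g₂ := by rw [curve_c₄]; ring
  g₃ := by rw [curve_c₆]; ring
  Δ := by rw [curve_Δ]; exact disc_ne_zero L

instance (L : PeriodPair) : (curve L).IsElliptic :=
  ⟨isUnit_iff_ne_zero.mpr (unif_curve L).Δ⟩

/-- **`ℂ / L` is the group of points of `y² = x³ - (g₂/4) x - g₃/4`**, for every lattice `L` -/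
def curveEquiv (L : PeriodPair) :
    (ℂ ⧸ L.lattice.toAddSubgroup) ≃+ (WeierstrassCurve.Affine.Point (curve L)) :=
  equiv (unif_curve L)

theorem curve_j (L : PeriodPair) :
    (curve L).j = 1728 * L.g₂ ^ 3 / (L.g₂ ^ 3 - 27 * L.g₃ ^ 2) := by
  rw [WeierstrassCurve.j, Units.val_inv_eq_inv_val, WeierstrassCurve.coe_Δ', curve_Δ, curve_c₄]
  rw [div_eq_inv_mul]
  ring

/-- the invariant of `ℂ / α(ℤ + ℤτ)` is `j(τ)` -/
theorem curve_j_mkPP (α : ℂ) (hα : α ≠ 0) (τ : ℍ) : (curve (mkPP α hα τ)).j = jinv τ := by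
  have h0 : (2 * Real.pi / α : ℂ) ≠ 0 := div_ne_zero two_pi_ne_zero' hα
  rw [curve_j, disc_mkPP, g₂_mkPP, jinv, div_eq_div_iff
    (mul_ne_zero (pow_ne_zero _ h0) (discriminant_ne_zero τ)) (discriminant_ne_zero τ)]
  ring

theorem curve_congr {L L' : PeriodPair} (h : L.lattice = L'.lattice) : curve L = curve L' := by
  rw [curve, curve, g₂_congr h, g₃_congr h]

/-- **existence**: every pair `(a, b)` with `a³ ≠ 27 b²` is `(g₂, g₃)` of a lattice -/
theorem exists_lattice {a b : ℂ} (h : a ^ 3 - 27 * b ^ 2 ≠ 0) :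
    ∃ L : PeriodPair, L.g₂ = a ∧ L.g₃ = b := by
  obtain ⟨L, hL⟩ := exists_unif (⟨0, 0, 0, -a / 4, -b / 4⟩ : WeierstrassCurve ℂ) (by
    simp only [WeierstrassCurve.Δ, WeierstrassCurve.b₂, WeierstrassCurve.b₄,
      WeierstrassCurve.b₆, WeierstrassCurve.b₈]
    intro h0
    apply h
    linear_combination h0)
  refine ⟨L, ?_, ?_⟩
  · rw [hL.g₂]
    simp only [WeierstrassCurve.c₄, WeierstrassCurve.b₂, WeierstrassCurve.b₄]
    ring
  · rw [hL.g₃]
    simp only [WeierstrassCurve.c₆, WeierstrassCurve.b₂, WeierstrassCurve.b₄,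
      WeierstrassCurve.b₆]
    ring

/-- **uniqueness**: a lattice is determined by `g₂` and `g₃` -/
theorem lattice_unique {L L' : PeriodPair} (h2 : L.g₂ = L'.g₂) (h3 : L.g₃ = L'.g₃) :
    L.lattice = L'.lattice := lattice_eq L L' h2 h3

/-- **lattices in `ℂ` are the pairs `(g₂, g₃)` with `g₂³ ≠ 27 g₃²`** -/
def latticeEquiv : {M : Submodule ℤ ℂ // ∃ L : PeriodPair, L.lattice = M} ≃
    {p : ℂ × ℂ // p.1 ^ 3 - 27 * p.2 ^ 2 ≠ 0} :=
  Equiv.ofBijective (fun M => ⟨(60 * ∑' l : M.1, ((l : ℂ) ^ 4)⁻¹, 140 * ∑' l : M.1, ((l : ℂ) ^ 6)⁻¹),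
    by obtain ⟨_, L, rfl⟩ := M; exact disc_ne_zero L⟩) (by
    constructor
    · rintro ⟨_, L, rfl⟩ ⟨_, L', rfl⟩ h
      have h1 := congrArg (fun p => p.1.1) h
      have h2 := congrArg (fun p => p.1.2) h
      exact Subtype.ext (lattice_unique (L := L) (L' := L') h1 h2)
    · rintro ⟨⟨a, b⟩, h⟩
      obtain ⟨L, h1, h2⟩ := exists_lattice h
      exact ⟨⟨L.lattice, L, rfl⟩, Subtype.ext (Prod.ext h1 h2)⟩)

/-- **homothetic lattices, isomorphic curves, equal invariants are the same** -/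
theorem homothetic_iff (L L' : PeriodPair) :
    [∃ α : ℂ, α ≠ 0 ∧ ∀ z, z ∈ L.lattice ↔ α * z ∈ L'.lattice,
      ∃ C : WeierstrassCurve.VariableChange ℂ, C • curve L = curve L',
      (curve L).j = (curve L').j].TFAE := by
  obtain ⟨β, hβ, τ, hL⟩ := exists_mkPP L
  obtain ⟨β', hβ', τ', hL'⟩ := exists_mkPP L'
  tfae_have 1 → 3 := by
    rintro ⟨α, hα, h⟩
    have h1 : L'.lattice = (mkPP (α * β) (mul_ne_zero hα hβ) τ).lattice := by
      ext z
      have h2 := h (z / α)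
      rw [mul_div_cancel₀ _ hα] at h2
      rw [← h2, hL, mem_mkPP, mem_mkPP]
      constructor
      · rintro ⟨m, n, e⟩
        refine ⟨m, n, ?_⟩
        rw [eq_div_iff hα] at e
        rw [← e]
        ring
      · rintro ⟨m, n, rfl⟩
        refine ⟨m, n, ?_⟩
        field_simp
    have h3 : (curve L).j = jinv τ := by
      have := curve_congr hL
      simp only [this, curve_j_mkPP]
    have h4 : (curve L').j = jinv τ := by
      have := curve_congr h1
      simp only [this, curve_j_mkPP]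
    rw [h3, h4]
  tfae_have 3 → 1 := by
    intro h
    have h3 : (curve L).j = jinv τ := by
      have := curve_congr hL
      simp only [this, curve_j_mkPP]
    have h4 : (curve L').j = jinv τ' := by
      have := curve_congr hL'
      simp only [this, curve_j_mkPP]
    rw [h3, h4] at h
    have hd := discriminant_eq_E₄_cube_sub_E₆_sq τ
    have hd0 := discriminant_ne_zero τ
    have hd' := discriminant_eq_E₄_cube_sub_E₆_sq τ'
    have hd0' := discriminant_ne_zero τ'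
    have h1 : E₄ τ ^ 3 * discriminant τ' = E₄ τ' ^ 3 * discriminant τ := by
      rw [jinv, jinv, div_eq_div_iff hd0 hd0'] at h
      exact h
    obtain ⟨α, hα, h4, h6⟩ := exists_scale (a := E₄ τ) (b := E₆ τ) (a' := E₄ τ') (b' := E₆ τ')
      (by rw [hd, hd'] at h1; linear_combination 1728 * (-1 : ℂ) * h1)
      (fun h0 => hd0 (by rw [hd, h0, zero_div])) (fun h0 => hd0' (by rw [hd', h0, zero_div]))
    have h5 : (mkPP (α * β') (mul_ne_zero hα hβ') τ).lattice = (mkPP β' hβ' τ').lattice := by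
      refine lattice_unique ?_ ?_
      · rw [g₂_mkPP, g₂_mkPP, h4]
        field_simp
      · rw [g₃_mkPP, g₃_mkPP, h6]
        field_simp
    refine ⟨α * β' / β, div_ne_zero (mul_ne_zero hα hβ') hβ, fun z => ?_⟩
    rw [hL', ← h5, hL, mem_mkPP, mem_mkPP]
    constructor
    · rintro ⟨m, n, rfl⟩
      refine ⟨m, n, ?_⟩
      field_simp
    · rintro ⟨m, n, e⟩
      refine ⟨m, n, ?_⟩
      have h6 : (α * β') * (m * β + n * (β * τ)) = (α * β') * z := by
        have h7 : (α * β') * z = (α * β' / β * z) * β := by field_simp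
        rw [h7, ← e]
        ring
      exact mul_left_cancel₀ (mul_ne_zero hα hβ') h6
  tfae_have 2 → 3 := by
    rintro ⟨C, hC⟩
    have := WeierstrassCurve.variableChange_j (curve L) C
    rw [← this]
    congr 1
  tfae_have 3 → 2 := fun h => WeierstrassCurve.exists_variableChange_of_j_eq (curve L) (curve L') h
  tfae_finish

end Lattice

end Fermat.Agent.Cor.Unif
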