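import Fermat.Agent.Corollaries.Unif.CM
import Fermat.Agent.ModFun.NormH
import Fermat.Agent.Igusa.UnitPoly

/-!
# The modular polynomial on the diagonal

For a prime `ℓ` there is a polynomial `Φ(X) ∈ ℤ[X]` with leading coefficient `± 1` such that
`Φ(j(τ)) = (j(ℓτ) - j(τ)) ∏_b (j((τ+b)/ℓ) - j(τ))`.
-/

set_option autoImplicit false

noncomputable section

open UpperHalfPlane hiding I
open ModularForm MatrixGroups Filter Topology CongruenceSubgroup ModularCurve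
open scoped PeriodPair Manifold Polynomial

namespace Fermat.Agent.Cor.Unif

open Fermat.Agent.JLevelOne Fermat.Agent.Cor.Tau Fermat.Agent.X0Emb Fermat.Agent.ModFun
open Fermat.Agent.TEll Fermat.Agent.HeckePar Fermat.Agent.Igusa

section Lead

variable {R : Type*} [CommRing R] [IsDomain R]

/-- `x` has leading term `c qⁿ` -/
def Lead (x : LaurentSeries R) (n : ℤ) (c : R) : Prop := x.coeff n = c ∧ ∀ m < n, x.coeff m = 0

theorem Lead.ne_zero {x : LaurentSeries R} {n : ℤ} {c : R} (h : Lead x n c) (hc : c ≠ 0) :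
    x ≠ 0 := by
  rintro rfl
  exact hc (by rw [← h.1]; rfl)

theorem Lead.order {x : LaurentSeries R} {n : ℤ} {c : R} (h : Lead x n c) (hc : c ≠ 0) :
    x.order = n := by
  have h0 := h.ne_zero hc
  apply le_antisymm
  · exact HahnSeries.order_le_of_coeff_ne_zero (by rw [h.1]; exact hc)
  · by_contra! hlt
    exact h0 (HahnSeries.coeff_order_eq_zero.mp (h.2 _ hlt))

theorem Lead.mul {x y : LaurentSeries R} {n m : ℤ} {c d : R} (hx : Lead x n c) (hy : Lead y m d)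
    (hc : c ≠ 0) (hd : d ≠ 0) : Lead (x * y) (n + m) (c * d) := by
  have hx0 := hx.ne_zero hc
  have hy0 := hy.ne_zero hd
  have h1 := HahnSeries.order_mul hx0 hy0
  rw [hx.order hc, hy.order hd] at h1
  constructor
  · have h2 := HahnSeries.coeff_mul_order_add_order x y
    rw [hx.order hc, hy.order hd, HahnSeries.leadingCoeff_eq, HahnSeries.leadingCoeff_eq,
      hx.order hc, hy.order hd, hx.1, hy.1] at h2
    exact h2
  · intro k hk
    exact HahnSeries.coeff_eq_zero_of_lt_order (by rw [h1]; exact hk)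

theorem Lead.prod {ι : Type*} (s : Finset ι) {x : ι → LaurentSeries R} {n : ι → ℤ} {c : ι → R}
    (h : ∀ i ∈ s, Lead (x i) (n i) (c i)) (hc : ∀ i ∈ s, c i ≠ 0) :
    Lead (∏ i ∈ s, x i) (∑ i ∈ s, n i) (∏ i ∈ s, c i) := by
  classical
  induction s using Finset.induction_on with
  | empty =>
    simp only [Finset.prod_empty, Finset.sum_empty]
    refine ⟨by simp, fun m hm => ?_⟩
    rw [HahnSeries.coeff_one, if_neg hm.ne]
  | insert a s ha ih =>
    rw [Finset.prod_insert ha, Finset.sum_insert ha, Finset.prod_insert ha]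
    refine (h a (Finset.mem_insert_self _ _)).mul
      (ih (fun i hi => h i (Finset.mem_insert_of_mem hi))
        (fun i hi => hc i (Finset.mem_insert_of_mem hi)))
      (hc a (Finset.mem_insert_self _ _))
      (Finset.prod_ne_zero_iff.mpr fun i hi => hc i (Finset.mem_insert_of_mem hi))

end Lead

set_option linter.unusedSectionVars false

variable (ℓ : ℕ) [hℓ : Fact ℓ.Prime] [NeZero ℓ]

/-- `(j(ℓτ) - j(τ)) ∏_b (j((τ+b)/ℓ) - j(τ))` -/
def diagF (τ : ℍ) : ℂ :=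
  (jFun (aff ℓ 0 1 τ) - jFun τ) * ∏ b : Fin ℓ, (jFun (aff 1 b ℓ τ) - jFun τ)

theorem diagF_smul (γ : SL(2, ℤ)) (τ : ℍ) : diagF ℓ (γ • τ) = diagF ℓ τ := by
  have hγ : γ ∈ Gamma0 1 := by
    rw [Gamma0_mem]
    exact Subsingleton.elim _ _
  set c := jFun τ with hc
  have h := (heckeSys 1 ℓ).mulOp_smul (1 : Gamma0 1 →* PUnit.{1}) (1 : PUnit.{1} →* ℂ)
    (fun z : ℍ => jFun z - c) (fun g z => by
      rw [MonoidHom.one_apply, one_mul]
      exact congrArg (· - c) (jFun_smul (g : SL(2, ℤ)) z)) ⟨γ, hγ⟩ τ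
  rw [MonoidHom.one_apply, one_mul] at h
  have hN : ¬ ℓ ∣ 1 := fun h => hℓ.out.one_lt.ne' (Nat.dvd_one.mp h)
  have h1 := prod_hidx_of_not_dvd hN (fun z : ℍ => jFun z - c) τ
  have h2 := prod_hidx_of_not_dvd hN (fun z : ℍ => jFun z - c) (γ • τ)
  rw [diagF, diagF, jFun_smul, ← hc, ← h1, ← h2]
  exact h

theorem diagF_mem : diagF ℓ ∈ polInf := by
  have hm : ∀ a b d : ℕ, ∀ [NeZero a] [NeZero d], (fun τ => jFun (aff a b d τ) - jFun τ) ∈ polInf := by
    intro a b d _ _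
    have h1 : ModGrowth (fun τ => jFun (aff a b d τ) - jFun τ) := by
      have h2 : ModGrowth jFun := by
        have := jd_growth 1
        rwa [jd_one] at this
      exact (h2.comp_aff a b d).sub h2
    have h2 := h1.mem_polInf ((mdiff_comp_aff jFun_mdiff a b d).sub jFun_mdiff) 1
    simpa using h2
  have h1 : diagF ℓ = (fun τ => jFun (aff ℓ 0 1 τ) - jFun τ) *
      ∏ b : Fin ℓ, (fun τ => jFun (aff 1 b ℓ τ) - jFun τ) := by
    funext τ
    rw [Pi.mul_apply, Finset.prod_apply, diagF]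
  rw [h1]
  exact polInf.mul_mem (hm _ _ _) (prod_mem fun b _ => hm _ _ _)

/-- the expansion -/
def diagS (R : Type*) [CommRing R] : LaurentSeries R :=
  (qExpand R ℓ (jqModC R) - jqModC R) * secNorm R ℓ (jqModC R - qExpand R ℓ (jqModC R))

theorem coeffMap_diagS {R S : Type*} [CommRing R] [CommRing S] (f : R →+* S) :
    coeffMap f (diagS ℓ R) = diagS ℓ S := by
  rw [diagS, diagS, map_mul, coeffMap_secNorm, map_sub, map_sub, coeffMap_qExpand,
    coeffMap_jqModC]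

theorem jd_aff (b : ℕ) (τ : ℍ) : jd ℓ (aff 1 b ℓ τ) = jFun τ := by
  have h6 : aff ℓ 0 1 (aff 1 b ℓ τ) = ModularGroup.T ^ (b : ℤ) • τ := by
    ext1
    rw [ModularGroup.coe_T_zpow_smul_eq, coe_aff, coe_aff]
    have : (ℓ : ℂ) ≠ 0 := Nat.cast_ne_zero.mpr (NeZero.ne ℓ)
    push_cast
    field_simp
    ring
  rw [ModFun.jd, h6, jFun_smul]

theorem lexp_diagF : LExp 1 (diagF ℓ) (diagS ℓ ℂ) := by
  have h1 : LExp 1 (fun τ => jFun τ - jd ℓ τ) (jqModC ℂ - qExpand ℂ ℓ (jqModC ℂ)) :=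
    lexp_j.sub (lexp_jd ℓ)
  have h2 := lexp_secNorm ℓ h1
  have h3 : LExp 1 (fun τ => jd ℓ τ - jFun τ) (qExpand ℂ ℓ (jqModC ℂ) - jqModC ℂ) :=
    (lexp_jd ℓ).sub lexp_j
  have h4 := h3.mul h2
  have h5 : (fun τ => jd ℓ τ - jFun τ) *
      (fun τ => ∏ b : Fin ℓ, (jFun (aff 1 b ℓ τ) - jd ℓ (aff 1 b ℓ τ))) = diagF ℓ := by
    funext τ
    have h7 : ∏ b : Fin ℓ, (jFun (aff 1 b ℓ τ) - jd ℓ (aff 1 b ℓ τ)) =
        ∏ b : Fin ℓ, (jFun (aff 1 b ℓ τ) - jFun τ) :=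
      Finset.prod_congr rfl fun b _ => by rw [jd_aff]
    rw [Pi.mul_apply, diagF, h7]
    rfl
  rw [← h5]
  exact h4

theorem lead_jq {R : Type*} [CommRing R] : Lead (jqModC R) (-1) 1 := by
  constructor
  · have h := coeff_jqModC_pow_self R 1
    simpa using h
  · intro m hm
    have h := coeff_jqModC_pow_of_lt R (b := 1) (m := m) (by simpa using hm)
    simpa using h

theorem Lead.qExpand {R : Type*} [CommRing R] {x : LaurentSeries R} {n : ℤ} {c : R}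
    (h : Lead x n c) : Lead (qExpand R ℓ x) (ℓ * n) c := by
  have hℓ0 : (0 : ℤ) < ℓ := by exact_mod_cast hℓ.out.pos
  refine ⟨by rw [qExpand_coeff_mul]; exact h.1, fun m hm => ?_⟩
  by_cases hd : (ℓ : ℤ) ∣ m
  · obtain ⟨k, rfl⟩ := hd
    rw [qExpand_coeff_mul]
    exact h.2 k (lt_of_mul_lt_mul_left hm hℓ0.le)
  · exact qExpand_coeff_of_not_dvd ℓ _ hd

theorem lead_of_qExpand {R : Type*} [CommRing R] {x : LaurentSeries R} {n : ℤ} {c : R}
    (h : Lead (ModularCurve.qExpand R ℓ x) (ℓ * n) c) : Lead x n c := by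
  have hℓ0 : (0 : ℤ) < ℓ := by exact_mod_cast hℓ.out.pos
  refine ⟨by rw [← h.1, qExpand_coeff_mul], fun m hm => ?_⟩
  rw [← h.2 (ℓ * m) (mul_lt_mul_of_pos_left hm hℓ0), qExpand_coeff_mul]

theorem Lead.twist {R : Type*} [CommRing R] {x : LaurentSeries R} {n : ℤ} {c : R}
    (h : Lead x n c) (u : Rˣ) : Lead (X0Emb.twist u x) n ((u ^ n : Rˣ) * c) := by
  refine ⟨?_, fun m hm => ?_⟩
  · rw [twist_coeff, h.1]
  · rw [twist_coeff, h.2 m hm, mul_zero]

theorem Lead.sub_of_lt {R : Type*} [CommRing R] {x y : LaurentSeries R} {n m : ℤ} {c d : R}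
    (hx : Lead x n c) (hy : Lead y m d) (hnm : n < m) : Lead (x - y) n c := by
  refine ⟨?_, fun k hk => ?_⟩
  · rw [HahnSeries.coeff_sub, hx.1, hy.2 n hnm, sub_zero]
  · rw [HahnSeries.coeff_sub, hx.2 k hk, hy.2 k (hk.trans hnm), sub_zero]

theorem Lead.neg {R : Type*} [CommRing R] {x : LaurentSeries R} {n : ℤ} {c : R}
    (hx : Lead x n c) : Lead (-x) n (-c) := by
  refine ⟨?_, fun k hk => ?_⟩
  · rw [HahnSeries.coeff_neg, hx.1]
  · rw [HahnSeries.coeff_neg, hx.2 k hk, neg_zero]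

theorem lead_diagS : Lead (diagS ℓ ℂ) (-(2 * ℓ : ℕ)) ((-1) ^ ℓ) := by
  have hℓ2 : (2 : ℤ) ≤ ℓ := by exact_mod_cast hℓ.out.two_le
  have h1 : Lead (ModularCurve.qExpand ℂ ℓ (jqModC ℂ)) (ℓ * (-1)) 1 := lead_jq.qExpand ℓ
  have h2 : Lead (ModularCurve.qExpand ℂ ℓ (jqModC ℂ) - jqModC ℂ) (ℓ * (-1)) 1 :=
    h1.sub_of_lt lead_jq (by omega)
  have h3 : Lead (jqModC ℂ - ModularCurve.qExpand ℂ ℓ (jqModC ℂ)) (ℓ * (-1)) (-1) := by
    have := h2.neg
    rwa [neg_sub] at this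
  have h4 : Lead (secNorm ℂ ℓ (jqModC ℂ - ModularCurve.qExpand ℂ ℓ (jqModC ℂ))) (ℓ * (-1))
      ((-1) ^ ℓ) := by
    apply lead_of_qExpand ℓ
    rw [qExpand_secNorm ℓ (zetaU 1 ℓ) (zetaU_isPrimitiveRoot ℓ)]
    have h5 := Lead.prod (Finset.univ : Finset (Fin ℓ)) (x := fun b =>
      X0Emb.twist (zetaU 1 ℓ ^ (b : ℕ)) (jqModC ℂ - ModularCurve.qExpand ℂ ℓ (jqModC ℂ)))
      (n := fun _ => ℓ * (-1)) (c := fun _ => -1) (fun b _ => by
        have h6 := h3.twist (zetaU 1 ℓ ^ (b : ℕ))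
        have h7 : (zetaU 1 ℓ ^ (b : ℕ)) ^ ((ℓ : ℤ) * (-1)) = 1 := by
          have h8 : zetaU 1 ℓ ^ ℓ = 1 := by
            ext
            rw [Units.val_pow_eq_pow_val, (zetaU_isPrimitiveRoot ℓ).pow_eq_one, Units.val_one]
          rw [zpow_mul, zpow_natCast, ← pow_mul, mul_comm (b : ℕ), pow_mul, h8, one_pow, one_zpow]
        rw [h7, Units.val_one, one_mul] at h6
        exact h6) (fun _ _ => neg_ne_zero.mpr one_ne_zero)
    simpa using h5
  have h5 := h2.mul h4 one_ne_zero (pow_ne_zero _ (neg_ne_zero.mpr one_ne_zero))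
  rw [one_mul] at h5
  have h6 : (ℓ : ℤ) * (-1) + ℓ * (-1) = -((2 * ℓ : ℕ) : ℤ) := by push_cast; ring
  rw [h6] at h5
  exact h5

theorem lead_eval₂ (P : ℂ[X]) :
    Lead (P.eval₂ (HahnSeries.C : ℂ →+* LaurentSeries ℂ) (jqModC ℂ)) (-(P.natDegree : ℤ))
      P.leadingCoeff := by
  refine ⟨coeff_eval₂_jq P le_rfl, fun m hm => ?_⟩
  obtain ⟨k, hk⟩ : ∃ k : ℕ, m = -(k : ℤ) := ⟨m.natAbs, by omega⟩
  rw [hk, coeff_eval₂_jq P (by omega)]
  exact Polynomial.coeff_eq_zero_of_natDegree_lt (by omega)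

/-- **the polynomial `Φ_ℓ(X, X) ∈ ℤ[X]`** has leading coefficient `± 1` -/
theorem exists_diagPoly : ∃ Q : ℤ[X], (Q.leadingCoeff = 1 ∨ Q.leadingCoeff = -1) ∧
    ∀ τ : ℍ, Polynomial.aeval (jinv τ) Q = diagF ℓ τ := by
  obtain ⟨P, hP⟩ := exists_polynomial ⟨diagF ℓ, diagF_mem ℓ⟩ (fun γ τ => diagF_smul ℓ γ τ)
  have hP' : (fun τ => P.eval (jFun τ)) = diagF ℓ := funext fun τ => (hP τ).symm
  have h1 : LExp 1 (fun τ => P.eval (jFun τ))
      (P.eval₂ (HahnSeries.C : ℂ →+* LaurentSeries ℂ) (jqModC ℂ)) :=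
    Igusa.HasLExp.eval Igusa.hasLExp_jFun P
  rw [hP'] at h1
  have h2 := h1.unique one_pos (lexp_diagF ℓ)
  obtain ⟨Q, hQ⟩ := exists_int_of_eval₂_jq P.natDegree P le_rfl
    ⟨diagS ℓ ℤ, by rw [coeffMap_diagS, h2]⟩
  have h3 := lead_diagS ℓ
  have h4 := lead_eval₂ P
  rw [h2] at h4
  have hne : ((-1 : ℂ)) ^ ℓ ≠ 0 := pow_ne_zero _ (neg_ne_zero.mpr one_ne_zero)
  have hS := h3.ne_zero hne
  have hP0 : P ≠ 0 := by
    rintro rfl
    rw [Polynomial.eval₂_zero] at h2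
    exact hS h2.symm
  have h5 := h4.order (Polynomial.leadingCoeff_ne_zero.mpr hP0)
  rw [h3.order hne] at h5
  have h6 : P.leadingCoeff = (-1) ^ ℓ := by rw [← h4.1, ← h5, h3.1]
  refine ⟨Q, ?_, fun τ => ?_⟩
  · have h7 : ((Q.leadingCoeff : ℤ) : ℂ) = (-1) ^ ℓ := by
      rw [← h6, ← hQ, Polynomial.leadingCoeff_map_of_injective (RingHom.injective_int _)]
      rfl
    have h8 : Q.leadingCoeff = (-1) ^ ℓ := by exact_mod_cast h7
    rw [h8]
    exact neg_one_pow_eq_or ℤ ℓ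
  · have h7 := hP τ
    rw [← hQ, Polynomial.eval_map] at h7
    exact h7.symm

/-- if `j(ℓτ) = j(τ)` then `j(τ)` is an algebraic integer -/
theorem isIntegral_jinv {τ : ℍ} (h : diagF ℓ τ = 0) : IsIntegral ℤ (jinv τ) := by
  obtain ⟨Q, hQ, h1⟩ := exists_diagPoly ℓ
  have h2 := h1 τ
  rw [h] at h2
  rcases hQ with hQ | hQ
  · exact ⟨Q, hQ, h2⟩
  · exact ⟨-Q, by rw [Polynomial.Monic, Polynomial.leadingCoeff_neg, hQ, neg_neg], by
      rw [← Polynomial.aeval_def, map_neg, h2, neg_zero]⟩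

end Fermat.Agent.Cor.Unif
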