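import Fermat.Agent.Corollaries.Unif.FirstMain

/-!
# The singular moduli over the imaginary quadratic field

`[ℚ(√D, j(τ)) : ℚ] = 2 h(D)`, so `[K(j(τ)) : K] = h(D)`, `K = ℚ(√D)`.
-/

set_option autoImplicit false

open UpperHalfPlane hiding I
open Complex Polynomial IntermediateField
open scoped MatrixGroups

noncomputable section

namespace Fermat.Agent.Cor.Unif

open Fermat.Agent.Cor.Tau Fermat.Agent.Cor.Ray
open BForm (PForm setoid hForm)

/-- a subfield generated by a real number contains only real numbers -/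
theorem im_eq_zero_of_mem {x : ℂ} (hx : x.im = 0) {y : ℂ} (hy : y ∈ ℚ⟮x⟯) : y.im = 0 := by
  have hle : ℚ⟮x⟯ ≤ (IsScalarTower.toAlgHom ℚ ℝ ℂ).fieldRange := by
    rw [adjoin_simple_le_iff]
    exact ⟨x.re, Complex.ext rfl (by simpa using hx.symm)⟩
  obtain ⟨r, hr⟩ := hle hy
  rw [← hr]
  exact Complex.ofReal_im r

/-- a real singular modulus and a square root of `D < 0` -/
theorem finrank_pair_of_real {D : ℤ} {τ : ℍ} (h : HasDisc D τ) (hre : (jinv τ).im = 0) {δ : ℂ}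
    (hδ : δ ^ 2 = D) : Module.finrank ℚ⟮jinv τ⟯ ℚ⟮jinv τ⟯⟮δ⟯ = 2 := by
  have hneg := h.neg
  have hδim : δ.im ≠ 0 := by
    intro h0
    have h1 : δ = (δ.re : ℂ) := Complex.ext rfl (by simpa using h0)
    rw [h1] at hδ
    have h2 : δ.re ^ 2 = (D : ℝ) := by exact_mod_cast hδ
    have h3 : (D : ℝ) < 0 := by exact_mod_cast hneg
    nlinarith [sq_nonneg δ.re]
  set F := ℚ⟮jinv τ⟯ with hF
  have hroot : aeval δ (X ^ 2 - C (D : F)) = 0 := by
    simp [hδ]
  have hmon : (X ^ 2 - C (D : F)).Monic := monic_X_pow_sub_C _ two_ne_zero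
  have hint : IsIntegral F δ := ⟨_, hmon, hroot⟩
  have hdeg : (minpoly F δ).natDegree = 2 := by
    refine le_antisymm ?_ ?_
    · have := natDegree_le_of_dvd (minpoly.dvd F δ hroot) hmon.ne_zero
      rwa [natDegree_X_pow_sub_C] at this
    · by_contra hlt
      have h1 : (minpoly F δ).natDegree = 1 := by
        have := minpoly.natDegree_pos hint
        omega
      obtain ⟨r, hr⟩ := minpoly.natDegree_eq_one_iff.mp h1
      apply hδim
      rw [← hr]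
      exact im_eq_zero_of_mem hre r.2
  rw [adjoin.finrank hint, hdeg]

/-- the degree of `ℚ(j(τ), √D)` over `ℚ` is `2 h(D)` for a real singular modulus -/
theorem finrank_pair_eq {D : ℤ} {τ : ℍ} (h : HasDisc D τ) (hre : (jinv τ).im = 0) {δ : ℂ}
    (hδ : δ ^ 2 = D) : Module.finrank ℚ ℚ⟮jinv τ⟯⟮δ⟯ = 2 * hForm D := by
  rw [← Module.finrank_mul_finrank ℚ ℚ⟮jinv τ⟯ ℚ⟮jinv τ⟯⟮δ⟯, finrank_adjoin_jinv h,
    finrank_pair_of_real h hre hδ, mul_comm]

/-- there is a real singular modulus -/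
theorem exists_real {D : ℤ} {τ : ℍ} (h : HasDisc D τ) :
    ∃ τ₀ : ℍ, HasDisc D τ₀ ∧ (jinv τ₀).im = 0 := by
  obtain ⟨a, b, c, ha, -, hr, hD⟩ := h
  obtain ⟨τ₀, h0⟩ := exists_principal (τ := τ) ha
  have hr0 : ((1 : ℤ) : ℂ) * (τ₀ : ℂ) ^ 2 + (b : ℂ) * τ₀ + ((a * c : ℤ) : ℂ) = 0 := by
    rw [h0]
    push_cast
    linear_combination (a : ℂ) * hr
  refine ⟨τ₀, ⟨1, b, a * c, one_pos, fun d hd _ _ => isUnit_of_dvd_one hd, hr0, by linarith⟩, ?_⟩
  obtain ⟨k1, -, -⟩ := coords' one_pos hr0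
  have h2 : ((ModularGroup.T ^ b • τ₀ : ℍ) : ℂ) = -(starRingEnd ℂ) (τ₀ : ℂ) := by
    rw [UpperHalfPlane.modular_T_zpow_smul, UpperHalfPlane.coe_vadd]
    apply Complex.ext
    · simp only [Complex.add_re, Complex.neg_re, Complex.conj_re, Complex.ofReal_re,
        UpperHalfPlane.coe_re]
      push_cast at k1
      linarith
    · simp only [Complex.add_im, Complex.neg_im, Complex.conj_im, Complex.ofReal_im,
        UpperHalfPlane.coe_im]
      ring
  have h3 := jinv_neg_conj h2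
  rw [jinv_smul] at h3
  exact Complex.conj_eq_iff_im.mp h3.symm

/-- **`[ℚ(j(τ), √D) : ℚ] = 2 h(D)`** for every `τ` of discriminant `D` -/
theorem finrank_pair {D : ℤ} {τ : ℍ} (h : HasDisc D τ) {δ : ℂ} (hδ : δ ^ 2 = D) :
    Module.finrank ℚ ℚ⟮jinv τ, δ⟯ = 2 * hForm D := by
  obtain ⟨τ₀, h0, hre⟩ := exists_real h
  obtain ⟨σ, hσ⟩ := exists_conj h0 h
  set δ' : ℂ := σ.symm δ with hδ'
  have hδ2 : δ' ^ 2 = D := by rw [hδ', ← map_pow, hδ, map_intCast]
  set s : ℂ ≃ₐ[ℚ] ℂ := AlgEquiv.ofRingEquiv (f := σ) (fun q => by simp) with hs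
  have h1 : (ℚ⟮jinv τ₀, δ'⟯).map s.toAlgHom = ℚ⟮jinv τ, δ⟯ := by
    rw [adjoin_map]
    congr 1
    rw [Set.image_pair]
    have e1 : s.toAlgHom (jinv τ₀) = jinv τ := hσ
    have e2 : s.toAlgHom δ' = δ := σ.apply_symm_apply δ
    rw [e1, e2]
  have h2 : Module.finrank ℚ ℚ⟮jinv τ₀, δ'⟯ = 2 * hForm D := by
    rw [← adjoin_simple_adjoin_simple]
    exact finrank_pair_eq h0 hre hδ2
  rw [← h1, ← h2]
  exact ((intermediateFieldMap s ℚ⟮jinv τ₀, δ'⟯).toLinearEquiv.finrank_eq).symm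

/-- **`[K(j(τ)) : K] = h(D)`, `K = ℚ(√D)`**: the class polynomial stays irreducible over the
imaginary quadratic field. -/
theorem finrank_adjoin_over {D : ℤ} {τ : ℍ} (h : HasDisc D τ) {δ : ℂ} (hδ : δ ^ 2 = D) :
    Module.finrank ℚ⟮δ⟯ ℚ⟮δ⟯⟮jinv τ⟯ = hForm D := by
  have h1 : Module.finrank ℚ ℚ⟮δ⟯⟮jinv τ⟯ = 2 * hForm D := by
    have e2 : Module.finrank ℚ ℚ⟮δ, jinv τ⟯ = 2 * hForm D := by
      rw [Set.pair_comm]
      exact finrank_pair h hδ
    rw [← adjoin_simple_adjoin_simple] at e2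
    exact e2
  have hneg := h.neg
  have hδ0 : δ.im ≠ 0 := by
    intro h0
    have h1 : δ = (δ.re : ℂ) := Complex.ext rfl (by simpa using h0)
    rw [h1] at hδ
    have h2 : δ.re ^ 2 = (D : ℝ) := by exact_mod_cast hδ
    have h3 : (D : ℝ) < 0 := by exact_mod_cast hneg
    nlinarith [sq_nonneg δ.re]
  have hroot : aeval δ (X ^ 2 - C (D : ℚ)) = 0 := by simp [hδ]
  have hmon : (X ^ 2 - C (D : ℚ)).Monic := monic_X_pow_sub_C _ two_ne_zero
  have hint : IsIntegral ℚ δ := ⟨_, hmon, hroot⟩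
  have h2 : Module.finrank ℚ ℚ⟮δ⟯ = 2 := by
    rw [adjoin.finrank hint]
    refine le_antisymm ?_ ?_
    · have := natDegree_le_of_dvd (minpoly.dvd ℚ δ hroot) hmon.ne_zero
      rwa [natDegree_X_pow_sub_C] at this
    · by_contra hlt
      have h1 : (minpoly ℚ δ).natDegree = 1 := by
        have := minpoly.natDegree_pos hint
        omega
      obtain ⟨r, hr⟩ := minpoly.natDegree_eq_one_iff.mp h1
      apply hδ0
      rw [← hr]
      simp
  have h3 := Module.finrank_mul_finrank ℚ ℚ⟮δ⟯ ℚ⟮δ⟯⟮jinv τ⟯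
  rw [h1, h2] at h3
  omega

end Fermat.Agent.Cor.Unif
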