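import Fermat.Agent.Moduli.Eisen
import Mathlib.Analysis.Complex.Liouville

/-!
# The uniformization theorem for elliptic curves over `ℂ`

`℘` takes every value; for every elliptic curve `W` over `ℂ` there is a lattice `L` and an isomorphism of groups
`ℂ / L ≃ W(ℂ)` given by `z ↦ (℘(z), ℘'(z))`.
-/

set_option autoImplicit false

noncomputable section

open Filter Topology
open scoped PeriodPair

namespace Fermat.Agent.Cor.Unif

open Fermat.Agent.Moduli WeierstrassCurve.Affine WeierstrassCurve.Affine.Point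

variable (L : PeriodPair)

/-- near the origin `|℘|` is large -/
theorem tendsto_inv_P_sub (a : ℂ) : Tendsto (fun z => (℘[L] z - a)⁻¹) (𝓝[≠] 0) (𝓝 0) := by
  rw [tendsto_zero_iff_norm_tendsto_zero]
  have h1 : Tendsto (fun z => ‖℘[L] z - a‖) (𝓝[≠] 0) atTop := by
    refine tendsto_atTop_mono (fun z => norm_sub_norm_le (℘[L] z) a) ?_
    exact tendsto_atTop_add_const_right _ _ (tendsto_P_zero L)
  exact h1.inv_tendsto_atTop.congr fun z => by rw [Pi.inv_apply, norm_inv]

/-- every point is congruent modulo the lattice to a point of a fixed compact set -/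
theorem exists_repr : ∃ R : ℝ, ∀ z : ℂ, ∃ l ∈ L.lattice, ‖z - l‖ ≤ R := by
  refine ⟨‖L.ω₁‖ + ‖L.ω₂‖, fun z => ?_⟩
  have h := L.basis.sum_repr z
  rw [Fin.sum_univ_two, L.basis_zero, L.basis_one] at h
  set a := L.basis.repr z 0
  set b := L.basis.repr z 1
  refine ⟨⌊a⌋ • L.ω₁ + ⌊b⌋ • L.ω₂, L.lattice.add_mem (L.lattice.smul_mem _ L.ω₁_mem_lattice)
    (L.lattice.smul_mem _ L.ω₂_mem_lattice), ?_⟩
  have h1 : z - (⌊a⌋ • L.ω₁ + ⌊b⌋ • L.ω₂) =
      ((Int.fract a : ℝ) : ℂ) * L.ω₁ + ((Int.fract b : ℝ) : ℂ) * L.ω₂ := by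
    rw [← h, ← Int.self_sub_floor, ← Int.self_sub_floor]
    simp only [zsmul_eq_mul, Complex.real_smul]
    push_cast
    ring
  rw [h1]
  refine (norm_add_le _ _).trans (add_le_add ?_ ?_)
  · rw [norm_mul, Complex.norm_real, Real.norm_eq_abs, abs_of_nonneg (Int.fract_nonneg a)]
    exact mul_le_of_le_one_left (norm_nonneg _) (Int.fract_lt_one a).le
  · rw [norm_mul, Complex.norm_real, Real.norm_eq_abs, abs_of_nonneg (Int.fract_nonneg b)]
    exact mul_le_of_le_one_left (norm_nonneg _) (Int.fract_lt_one b).le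

/-- **`℘` takes every value** -/
theorem P_surjective (a : ℂ) : ∃ z ∉ L.lattice, ℘[L] z = a := by
  by_contra! hne
  classical
  set f : ℂ → ℂ := fun z => if z ∈ L.lattice then 0 else (℘[L] z - a)⁻¹ with hf
  have hper : ∀ z, ∀ l ∈ L.lattice, f (z - l) = f z := by
    intro z l hl
    have h1 : z - l ∈ L.lattice ↔ z ∈ L.lattice := L.lattice.sub_mem_iff_left hl
    simp only [hf, h1]
    split_ifs with h
    · rfl
    · rw [show ℘[L] (z - l) = ℘[L] z from L.weierstrassP_sub_coe z ⟨l, hl⟩]
  have hd1 : ∀ z ∉ L.lattice, DifferentiableAt ℂ f z := by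
    intro z hz
    have h1 : DifferentiableAt ℂ (fun z => (℘[L] z - a)⁻¹) z :=
      ((hasDerivAt_P L hz).differentiableAt.sub_const a).inv (sub_ne_zero.mpr (hne z hz))
    refine h1.congr_of_eventuallyEq ?_
    filter_upwards [eventually_notMem_lattice' L hz] with w hw
    simp only [hf, if_neg hw]
  have hcont : ContinuousAt f 0 := by
    have h0 : f 0 = 0 := by simp only [hf, if_pos L.lattice.zero_mem]
    rw [continuousAt_iff_punctured_nhds, h0]
    refine (tendsto_inv_P_sub L a).congr' ?_
    filter_upwards [eventually_notMem_lattice L 0] with w hw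
    simp only [hf, if_neg hw]
  have hd0 : DifferentiableAt ℂ f 0 := by
    refine (Complex.analyticAt_of_differentiable_on_punctured_nhds_of_continuousAt ?_
      hcont).differentiableAt
    filter_upwards [eventually_notMem_lattice L 0] with w hw using hd1 w hw
  have hd : Differentiable ℂ f := by
    intro z
    by_cases hz : z ∈ L.lattice
    · have h1 : f = fun w => f (w - z) := by
        funext w
        exact (hper w z hz).symm
      rw [h1]
      have h2 : DifferentiableAt ℂ f (z - z) := by rwa [sub_self]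
      exact DifferentiableAt.comp z (g := f) (f := fun w => w - z) h2
        (differentiableAt_id.sub_const z)
    · exact hd1 z hz
  have hb : Bornology.IsBounded (Set.range f) := by
    obtain ⟨R, hR⟩ := exists_repr L
    have hK : IsCompact (Metric.closedBall (0 : ℂ) R) := isCompact_closedBall _ _
    refine (hK.image hd.continuous).isBounded.subset ?_
    rintro _ ⟨z, rfl⟩
    obtain ⟨l, hl, h1⟩ := hR z
    exact ⟨z - l, by simpa using h1, hper z l hl⟩
  obtain ⟨c, hc⟩ := hd.exists_eq_const_of_bounded hb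
  have h0 : f 0 = 0 := by simp only [hf, if_pos L.lattice.zero_mem]
  have hc0 : c = 0 := by rw [hc] at h0; exact h0
  have h1 := L.ω₁_div_two_notMem_lattice
  have h2 : f (L.ω₁ / 2) = 0 := by rw [hc, hc0]; rfl
  simp only [hf, if_neg h1, inv_eq_zero] at h2
  exact hne _ h1 (sub_eq_zero.mp h2)

variable {L} {W : WeierstrassCurve.Affine ℂ}

/-- the map `ℂ → W(ℂ)`, `z ↦ (℘(z), ℘'(z))`, is onto -/
theorem hom_surjective (h : Unif L W) : Function.Surjective h.hom := by
  intro P
  rcases P with _ | ⟨x, y, hxy⟩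
  · exact ⟨0, map_zero _⟩
  · obtain ⟨z, hz, hzx⟩ := P_surjective L (x + W.b₂ / 12)
    have hpx : Unif.px W L z = x := by rw [Unif.px, hzx]; ring
    have hz' : -z ∉ L.lattice := fun h => hz (by simpa using L.lattice.neg_mem h)
    have he := (WeierstrassCurve.Affine.equation_iff _ _).mp (h.equation hz)
    have he' := (WeierstrassCurve.Affine.equation_iff _ _).mp hxy.1
    rw [hpx] at he
    have h1 : (Unif.py W L z - y) * (Unif.py W L z + y + W.a₁ * x + W.a₃) = 0 := by
      linear_combination he - he'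
    rcases mul_eq_zero.mp h1 with h2 | h2
    · refine ⟨z, ?_⟩
      rw [h.hom_apply, h.φ_of_notMem hz]
      simp only [Point.some.injEq]
      exact ⟨hpx, sub_eq_zero.mp h2⟩
    · refine ⟨-z, ?_⟩
      rw [map_neg, h.hom_apply, h.φ_of_notMem hz, Point.neg_some]
      simp only [Point.some.injEq]
      refine ⟨hpx, ?_⟩
      rw [WeierstrassCurve.Affine.negY, hpx]
      linear_combination -h2

/-- **The uniformization isomorphism** `ℂ / L ≃ W(ℂ)` -/
def equiv (h : Unif L W) : (ℂ ⧸ L.lattice.toAddSubgroup) ≃+ W.Point :=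
  (QuotientAddGroup.quotientAddEquivOfEq (by
    ext z
    rw [AddMonoidHom.mem_ker, h.hom_ker]
    rfl)).trans (QuotientAddGroup.quotientKerEquivOfSurjective h.hom (hom_surjective h))

theorem equiv_mk (h : Unif L W) (z : ℂ) : equiv h (QuotientAddGroup.mk z) = h.hom z := rfl

/-- **The uniformization theorem**: every elliptic curve over `ℂ` is `ℂ / L` for a lattice `L`; the isomorphism
is given by the Weierstrass functions. -/
theorem uniformization (W : WeierstrassCurve.Affine ℂ) (hΔ : W.Δ ≠ 0) :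
    ∃ (L : PeriodPair) (e : (ℂ ⧸ L.lattice.toAddSubgroup) ≃+ W.Point),
      ∀ z : ℂ, z ∉ L.lattice → ∃ hz : W.Nonsingular (℘[L] z - W.b₂ / 12)
        ((℘'[L] z - W.a₁ * (℘[L] z - W.b₂ / 12) - W.a₃) / 2),
        e (QuotientAddGroup.mk z) = .some _ _ hz := by
  obtain ⟨L, h⟩ := exists_unif W hΔ
  refine ⟨L, equiv h, fun z hz => ⟨h.nonsingular hz, ?_⟩⟩
  rw [equiv_mk, h.hom_apply, h.φ_of_notMem hz]
  rfl

end Fermat.Agent.Cor.Unif
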